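/-
M1 / chapter PIC (helper60): the Pic2 calculus over a (non-complete) base, in FIELD FORM.

Data: a field `F` (function field of the arithmetic surface), an `R`-algebra structure
(`R` = the base DVR, but nothing about `R` is assumed here), `ϖ : F` (image of a uniformiser),
three subalgebras `B0 B1 B01` of `F` (the two charts and their overlap).

* `scale a M` = `{a * z | z ∈ M}` for a submodule `M` of `F`.
* `TwoChart ϖ B0 B1 B01` : the hypotheses on the charts used by the calculus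
  (`π`-saturation of `B0, B1` in `B01`, `H⁰(X_k, O) = k`, `k ↪ B01/π`).
* `LinePair B0 B1 B01` : a pair `(I0, I1)` of `R`-submodules of `F`, stable under `B0` resp. `B1`,
  with `B01 * I0 = B01 * I1` (a "Cartier divisor in field form"; invertibility is NOT part of the
  structure, the calculus never needs it).
* `Gen B I ϖ g` : `g` generates `I` modulo `ϖ`, witnessed by an element `w` of the dual.
* `IsTriv ϖ n P g0 g1` : `(g0, g1)` is a trivialisation of `P` of level `n`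
  (`g1 - g0 ∈ ϖ ^ n * I01`).
* `IsLead ϖ n P g0 g1 c` : `c ∈ B01` is a leading coefficient:
  `g1 - (1 + ϖ ^ n * c) * g0 ∈ ϖ ^ (n + 1) * I01`.
* `Bdry ϖ B0 B1 B01 = B0 + B1 + ϖ * B01`, so that `B01 / Bdry = H¹(X_k, O)` (Čech).
-/
import Mathlib

set_option autoImplicit false

namespace Fermat.Agent.M1.Pic2.Defs60

variable {R F : Type*} [CommRing R] [Field F] [Algebra R F]

/-- `scale a M = {a * z | z ∈ M}`. -/
def scale (a : F) (M : Submodule R F) : Submodule R F := M.map (LinearMap.mulLeft R a)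

theorem mem_scale {a x : F} {M : Submodule R F} : x ∈ scale a M ↔ ∃ z ∈ M, a * z = x := by
  simp [scale, Submodule.mem_map]

theorem mul_mem_scale {a z : F} {M : Submodule R F} (hz : z ∈ M) : a * z ∈ scale a M :=
  mem_scale.mpr ⟨z, hz, rfl⟩

theorem scale_mono {a : F} {M N : Submodule R F} (h : M ≤ N) : scale a M ≤ scale a N :=
  Submodule.map_mono h

theorem scale_one (M : Submodule R F) : scale (1 : F) M = M := by
  ext x; simp [mem_scale]

theorem scale_scale (a b : F) (M : Submodule R F) : scale a (scale b M) = scale (a * b) M := by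
  ext x
  simp only [mem_scale]
  constructor
  · rintro ⟨z, ⟨y, hy, rfl⟩, rfl⟩
    exact ⟨y, hy, by ring⟩
  · rintro ⟨y, hy, rfl⟩
    exact ⟨b * y, ⟨y, hy, rfl⟩, by ring⟩

theorem mul_scale (a : F) (M N : Submodule R F) : M * scale a N = scale a (M * N) := by
  apply le_antisymm
  · rw [Submodule.mul_le]
    rintro m hm n hn
    obtain ⟨z, hz, rfl⟩ := mem_scale.mp hn
    exact mem_scale.mpr ⟨m * z, Submodule.mul_mem_mul hm hz, by ring⟩
  · intro x hx
    obtain ⟨z, hz, rfl⟩ := mem_scale.mp hx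
    refine Submodule.mul_induction_on hz ?_ ?_
    · intro m hm n hn
      have : a * (m * n) = m * (a * n) := by ring
      rw [this]
      exact Submodule.mul_mem_mul hm (mul_mem_scale hn)
    · intro x y hx hy
      rw [mul_add]
      exact Submodule.add_mem _ hx hy

theorem scale_mul (a : F) (M N : Submodule R F) : scale a M * N = scale a (M * N) := by
  rw [mul_comm, mul_scale, mul_comm]

/-- `ϖ ^ (m + n) * M ⊆ ϖ ^ m * M` when `ϖ * M ⊆ M`. -/
theorem scale_pow_le {ϖ : F} {M : Submodule R F} (h : ∀ z ∈ M, ϖ * z ∈ M) (m n : ℕ) :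
    scale (ϖ ^ (m + n)) M ≤ scale (ϖ ^ m) M := by
  intro x hx
  obtain ⟨z, hz, rfl⟩ := mem_scale.mp hx
  have hz' : ∀ k : ℕ, ϖ ^ k * z ∈ M := by
    intro k
    induction k with
    | zero => simpa using hz
    | succ k ih =>
      have : ϖ ^ (k + 1) * z = ϖ * (ϖ ^ k * z) := by ring
      rw [this]; exact h _ ih
  exact mem_scale.mpr ⟨ϖ ^ n * z, hz' n, by ring⟩

/-- The underlying submodule of a subalgebra (short name). -/
abbrev sm (B : Subalgebra R F) : Submodule R F := Subalgebra.toSubmodule B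

theorem sm_mul_self (B : Subalgebra R F) : sm B * sm B = sm B :=
  (Subalgebra.isIdempotentElem_toSubmodule B)

theorem sm_mul_of_le {B B' : Subalgebra R F} (h : B ≤ B') : sm B' * sm B = sm B' := by
  apply le_antisymm
  · rw [Submodule.mul_le]
    intro m hm n hn
    exact B'.mul_mem hm (h hn)
  · intro x hx
    have : x = x * 1 := by ring
    rw [this]
    exact Submodule.mul_mem_mul hx (B.one_mem)

/-- The hypotheses on the two charts. -/
structure TwoChart (ϖ : F) (B0 B1 B01 : Subalgebra R F) : Prop where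
  le0 : B0 ≤ B01
  le1 : B1 ≤ B01
  pi_ne : ϖ ≠ 0
  pi_mem : ϖ ∈ (algebraMap R F).range
  /-- `ϖ B01 ∩ B0 = ϖ B0` -/
  sat0 : ∀ x ∈ B01, ϖ * x ∈ B0 → x ∈ B0
  sat1 : ∀ x ∈ B01, ϖ * x ∈ B1 → x ∈ B1
  /-- `H⁰(X_k, O) = k` -/
  h0k : ∀ x0 ∈ B0, ∀ x1 ∈ B1, (∃ z ∈ B01, x0 - x1 = ϖ * z) →
    ∃ r : R, ∃ z ∈ B01, x0 - algebraMap R F r = ϖ * z
  /-- `k ↪ B01 / ϖ` -/
  hk : ∀ r : R, (∃ z ∈ B01, algebraMap R F r = ϖ * z) →
    ∃ r' : R, algebraMap R F r = ϖ * algebraMap R F r'

/-- A pair of submodules of `F`, stable under the charts and equal over the overlap. -/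
structure LinePair (B0 B1 B01 : Subalgebra R F) where
  I0 : Submodule R F
  I1 : Submodule R F
  stable0 : ∀ b ∈ B0, ∀ z ∈ I0, b * z ∈ I0
  stable1 : ∀ b ∈ B1, ∀ z ∈ I1, b * z ∈ I1
  compat : sm B01 * I0 = sm B01 * I1

variable {B0 B1 B01 : Subalgebra R F}

namespace LinePair

/-- The module over the overlap. -/
def I01 (P : LinePair B0 B1 B01) : Submodule R F := sm B01 * P.I0

theorem I01_eq' (P : LinePair B0 B1 B01) : P.I01 = sm B01 * P.I1 := P.compat

theorem le_I01_0 (P : LinePair B0 B1 B01) : P.I0 ≤ P.I01 := by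
  intro x hx
  have : x = 1 * x := by ring
  rw [this]
  exact Submodule.mul_mem_mul (B01.one_mem) hx

theorem le_I01_1 (P : LinePair B0 B1 B01) : P.I1 ≤ P.I01 := by
  intro x hx
  rw [I01_eq']
  have : x = 1 * x := by ring
  rw [this]
  exact Submodule.mul_mem_mul (B01.one_mem) hx

theorem stable01 (P : LinePair B0 B1 B01) {b z : F} (hb : b ∈ B01) (hz : z ∈ P.I01) :
    b * z ∈ P.I01 := by
  have h : sm B01 * P.I01 = P.I01 := by
    unfold I01
    rw [← mul_assoc, sm_mul_self]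
  rw [← h]
  exact Submodule.mul_mem_mul hb hz

/-- The product of two line pairs. -/
def mul (P Q : LinePair B0 B1 B01) : LinePair B0 B1 B01 where
  I0 := P.I0 * Q.I0
  I1 := P.I1 * Q.I1
  stable0 := by
    intro b hb z hz
    refine Submodule.mul_induction_on hz ?_ ?_
    · intro m hm n hn
      rw [← mul_assoc]
      exact Submodule.mul_mem_mul (P.stable0 b hb m hm) hn
    · intro x y hx hy
      rw [mul_add]; exact Submodule.add_mem _ hx hy
  stable1 := by
    intro b hb z hz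
    refine Submodule.mul_induction_on hz ?_ ?_
    · intro m hm n hn
      rw [← mul_assoc]
      exact Submodule.mul_mem_mul (P.stable1 b hb m hm) hn
    · intro x y hx hy
      rw [mul_add]; exact Submodule.add_mem _ hx hy
  compat := by
    have h : ∀ I J : Submodule R F, sm B01 * (I * J) = (sm B01 * I) * (sm B01 * J) := by
      intro I J
      rw [mul_mul_mul_comm, sm_mul_self]
    rw [h, h, P.compat, Q.compat]

theorem mul_I01 (P Q : LinePair B0 B1 B01) : (P.mul Q).I01 = P.I01 * Q.I01 := by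
  unfold I01
  show sm B01 * (P.I0 * Q.I0) = _
  rw [mul_mul_mul_comm, sm_mul_self]

/-- The pair `(a * I0, a * I1)`. -/
def smul (a : F) (P : LinePair B0 B1 B01) : LinePair B0 B1 B01 where
  I0 := scale a P.I0
  I1 := scale a P.I1
  stable0 := by
    intro b hb z hz
    obtain ⟨y, hy, rfl⟩ := mem_scale.mp hz
    exact mem_scale.mpr ⟨b * y, P.stable0 b hb y hy, by ring⟩
  stable1 := by
    intro b hb z hz
    obtain ⟨y, hy, rfl⟩ := mem_scale.mp hz
    exact mem_scale.mpr ⟨b * y, P.stable1 b hb y hy, by ring⟩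
  compat := by rw [mul_scale, mul_scale, P.compat]

theorem smul_I01 (a : F) (P : LinePair B0 B1 B01) : (P.smul a).I01 = scale a P.I01 := by
  unfold I01
  show sm B01 * scale a P.I0 = _
  rw [mul_scale]

/-- The trivial pair `(B0, B1)`. -/
def one (h0 : B0 ≤ B01) (h1 : B1 ≤ B01) : LinePair B0 B1 B01 where
  I0 := sm B0
  I1 := sm B1
  stable0 := fun b hb z hz => B0.mul_mem hb hz
  stable1 := fun b hb z hz => B1.mul_mem hb hz
  compat := by rw [sm_mul_of_le h0, sm_mul_of_le h1]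

theorem one_I01 (h0 : B0 ≤ B01) (h1 : B1 ≤ B01) :
    (one h0 h1 : LinePair B0 B1 B01).I01 = sm B01 := sm_mul_of_le h0

/-- The `n`-th power. -/
def npow (h0 : B0 ≤ B01) (h1 : B1 ≤ B01) (P : LinePair B0 B1 B01) : ℕ → LinePair B0 B1 B01
  | 0 => one h0 h1
  | n + 1 => (npow h0 h1 P n).mul P

end LinePair

/-- `g ∈ I` generates `I` modulo `ϖ`: there is `w` in the dual of `I` with `g * w ≡ 1 mod ϖ B`. -/
def Gen (B : Subalgebra R F) (I : Submodule R F) (ϖ g : F) : Prop :=
  g ∈ I ∧ ∃ w : F, (∀ z ∈ I, w * z ∈ B) ∧ ∃ b ∈ B, g * w - 1 = ϖ * b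

/-- `(g0, g1)` is a trivialisation of level `n` of the pair `P`. -/
def IsTriv (ϖ : F) (n : ℕ) (P : LinePair B0 B1 B01) (g0 g1 : F) : Prop :=
  Gen B0 P.I0 ϖ g0 ∧ Gen B1 P.I1 ϖ g1 ∧ g1 - g0 ∈ scale (ϖ ^ n) P.I01

/-- `c ∈ B01` is a leading coefficient of the trivialisation `(g0, g1)` of level `n`. -/
def IsLead (ϖ : F) (n : ℕ) (P : LinePair B0 B1 B01) (g0 g1 c : F) : Prop :=
  c ∈ B01 ∧ g1 - (1 + ϖ ^ n * c) * g0 ∈ scale (ϖ ^ (n + 1)) P.I01

/-- `P` is trivial modulo `ϖ ^ n`. -/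
def Level (ϖ : F) (n : ℕ) (P : LinePair B0 B1 B01) : Prop :=
  ∃ g0 g1 : F, IsTriv ϖ n P g0 g1

/-- `c` is a leading coefficient of `P` at level `n`. -/
def HasLead (ϖ : F) (n : ℕ) (P : LinePair B0 B1 B01) (c : F) : Prop :=
  ∃ g0 g1 : F, IsTriv ϖ n P g0 g1 ∧ IsLead ϖ n P g0 g1 c

/-- `B0 + B1 + ϖ B01`; the quotient `B01 / Bdry` is `H¹(X_k, O)`. -/
def Bdry (ϖ : F) (B0 B1 B01 : Subalgebra R F) : Submodule R F :=
  sm B0 ⊔ sm B1 ⊔ scale ϖ (sm B01)

theorem mem_Bdry {ϖ x : F} : x ∈ Bdry ϖ B0 B1 B01 ↔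
    ∃ b0 ∈ B0, ∃ b1 ∈ B1, ∃ z ∈ B01, x = b0 + b1 + ϖ * z := by
  unfold Bdry
  constructor
  · intro hx
    obtain ⟨y, hy, u, hu, rfl⟩ := Submodule.mem_sup.mp hx
    obtain ⟨b0, hb0, b1, hb1, rfl⟩ := Submodule.mem_sup.mp hy
    obtain ⟨z, hz, rfl⟩ := mem_scale.mp hu
    exact ⟨b0, hb0, b1, hb1, z, hz, rfl⟩
  · rintro ⟨b0, hb0, b1, hb1, z, hz, rfl⟩
    exact Submodule.add_mem _ (Submodule.mem_sup_left
      (Submodule.add_mem _ (Submodule.mem_sup_left hb0) (Submodule.mem_sup_right hb1)))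
      (Submodule.mem_sup_right (mul_mem_scale hz))

end Fermat.Agent.M1.Pic2.Defs60
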