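/-
M1 / chapter PIC (helper60): (R1) `H⁰(X_n, O) = R / π ^ n` and (R2) the leading coefficient of a
trivialisation of level `n`: existence, uniqueness modulo `ϖ B01` for a fixed trivialisation,
independence of the trivialisation modulo `Bdry = B0 + B1 + ϖ B01` (for `n ≥ 1`), additivity,
invariance under scaling, and `lead ∈ Bdry ↔ level n + 1`.
-/
import Mathlib
import Fermat.Agent.M1.Pic2.Defs60

set_option autoImplicit false

namespace Fermat.Agent.M1.Pic2.Lead60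

open Fermat.Agent.M1.Pic2.Defs60

variable {R F : Type*} [CommRing R] [Field F] [Algebra R F]
variable {B0 B1 B01 : Subalgebra R F} {ϖ : F}

theorem pi_mem_of_range (B : Subalgebra R F) (h : ϖ ∈ (algebraMap R F).range) : ϖ ∈ B := by
  obtain ⟨r, rfl⟩ := h
  exact B.algebraMap_mem r

/-- Cancellation of `1 + ϖ b` modulo `ϖ ^ n B`. -/
theorem cancel_one_add (B : Subalgebra R F) (hϖ : ϖ ≠ 0) (hϖB : ϖ ∈ B) {x b : F} (hx : x ∈ B)
    (hb : b ∈ B) (n : ℕ) (h : ∃ z ∈ B, (1 + ϖ * b) * x = ϖ ^ n * z) :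
    ∃ z ∈ B, x = ϖ ^ n * z := by
  induction n with
  | zero => exact ⟨x, hx, by simp⟩
  | succ n ih =>
    obtain ⟨z, hz, hxz⟩ := h
    obtain ⟨x', hx', rfl⟩ := ih ⟨ϖ * z, B.mul_mem hϖB hz, by rw [hxz]; ring⟩
    have hn : ϖ ^ n ≠ 0 := pow_ne_zero n hϖ
    have h1 : (1 + ϖ * b) * x' = ϖ * z := by
      apply mul_left_cancel₀ hn
      rw [← mul_assoc, mul_comm (ϖ ^ n) (1 + ϖ * b), mul_assoc, hxz]; ring
    refine ⟨z - b * x', B.sub_mem hz (B.mul_mem hb hx'), ?_⟩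
    have : x' = ϖ * (z - b * x') := by linear_combination h1
    calc ϖ ^ n * x' = ϖ ^ n * (ϖ * (z - b * x')) := by rw [← this]
      _ = ϖ ^ (n + 1) * (z - b * x') := by ring

/-- **(R1)** `H⁰(X_n, O) = R / π ^ n`. -/
theorem h0n (h : TwoChart ϖ B0 B1 B01) (n : ℕ) {x0 x1 : F} (hx0 : x0 ∈ B0) (hx1 : x1 ∈ B1)
    (hx : ∃ z ∈ B01, x0 - x1 = ϖ ^ n * z) :
    ∃ r : R, (∃ β0 ∈ B0, x0 - algebraMap R F r = ϖ ^ n * β0) ∧
      (∃ β1 ∈ B1, x1 - algebraMap R F r = ϖ ^ n * β1) := by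
  induction n with
  | zero =>
    exact ⟨0, ⟨x0, hx0, by simp⟩, ⟨x1, hx1, by simp⟩⟩
  | succ n ih =>
    obtain ⟨z, hz, hxz⟩ := hx
    have hϖ01 : ϖ ∈ B01 := pi_mem_of_range B01 h.pi_mem
    obtain ⟨r, ⟨y0, hy0, hr0⟩, ⟨y1, hy1, hr1⟩⟩ :=
      ih ⟨ϖ * z, B01.mul_mem hϖ01 hz, by rw [hxz]; ring⟩
    have hn : ϖ ^ n ≠ 0 := pow_ne_zero n h.pi_ne
    have hy : y0 - y1 = ϖ * z := by
      apply mul_left_cancel₀ hn
      have : ϖ ^ n * (y0 - y1) = (x0 - algebraMap R F r) - (x1 - algebraMap R F r) := by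
        rw [hr0, hr1]; ring
      rw [this]
      have : (x0 - algebraMap R F r) - (x1 - algebraMap R F r) = x0 - x1 := by ring
      rw [this, hxz]; ring
    obtain ⟨r1, z1, hz1, hr1'⟩ := h.h0k y0 hy0 y1 hy1 ⟨z, hz, hy⟩
    have hz1B0 : z1 ∈ B0 := h.sat0 z1 hz1 (by
      rw [← hr1']; exact B0.sub_mem hy0 (B0.algebraMap_mem r1))
    have hz1' : y1 - algebraMap R F r1 = ϖ * (z1 - z) := by
      have : y1 - algebraMap R F r1 = (y0 - algebraMap R F r1) - (y0 - y1) := by ring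
      rw [this, hr1', hy]; ring
    have hz1B1 : z1 - z ∈ B1 := h.sat1 (z1 - z) (B01.sub_mem hz1 hz) (by
      rw [← hz1']; exact B1.sub_mem hy1 (B1.algebraMap_mem r1))
    obtain ⟨ρ, hρ⟩ := h.pi_mem
    refine ⟨r + ρ ^ n * r1, ⟨z1, hz1B0, ?_⟩, ⟨z1 - z, hz1B1, ?_⟩⟩
    · have : x0 - algebraMap R F (r + ρ ^ n * r1)
          = (x0 - algebraMap R F r) - ϖ ^ n * algebraMap R F r1 := by
        rw [map_add, map_mul, map_pow, hρ]; ring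
      rw [this, hr0]
      have : y0 = algebraMap R F r1 + ϖ * z1 := by rw [← hr1']; ring
      rw [this]; ring
    · have : x1 - algebraMap R F (r + ρ ^ n * r1)
          = (x1 - algebraMap R F r) - ϖ ^ n * algebraMap R F r1 := by
        rw [map_add, map_mul, map_pow, hρ]; ring
      rw [this, hr1]
      have : y1 = algebraMap R F r1 + ϖ * (z1 - z) := by rw [← hz1']; ring
      rw [this]; ring

section gen

variable {B : Subalgebra R F} {I : Submodule R F}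

/-- Decomposition of `z ∈ I` along a generator modulo `ϖ`. -/
theorem Gen.decomp {g : F} (hg : Gen B I ϖ g) (hst : ∀ b ∈ B, ∀ z ∈ I, b * z ∈ I) {z : F}
    (hz : z ∈ I) : ∃ a ∈ B, ∃ y ∈ I, z = a * g + ϖ * y := by
  obtain ⟨_, w, hw, b, hb, hgw⟩ := hg
  refine ⟨w * z, hw z hz, -(b * z), I.neg_mem (hst b hb z hz), ?_⟩
  linear_combination (-z) * hgw

/-- Change of generator to any order. -/
theorem Gen.change {g g' : F} (hg : Gen B I ϖ g) (hst : ∀ b ∈ B, ∀ z ∈ I, b * z ∈ I)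
    (hϖB : ϖ ∈ B) (hg' : g' ∈ I) (m : ℕ) : ∃ a ∈ B, ∃ y ∈ I, g' = a * g + ϖ ^ m * y := by
  induction m with
  | zero => exact ⟨0, B.zero_mem, g', hg', by simp⟩
  | succ m ih =>
    obtain ⟨a, ha, y, hy, hgy⟩ := ih
    obtain ⟨a', ha', y', hy', hyy⟩ := Gen.decomp hg hst hy
    refine ⟨a + ϖ ^ m * a', B.add_mem ha (B.mul_mem (B.pow_mem hϖB m) ha'), y', hy', ?_⟩
    rw [hgy, hyy]; ring

end gen

section lead

variable {P : LinePair B0 B1 B01}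

/-- `w * I01 ⊆ B01` for `w` in the dual of `I0`. -/
theorem dual_I01_0 (h0 : B0 ≤ B01) {w : F} (hw : ∀ z ∈ P.I0, w * z ∈ B0) {z : F}
    (hz : z ∈ P.I01) : w * z ∈ B01 := by
  unfold LinePair.I01 at hz
  refine Submodule.mul_induction_on hz ?_ ?_
  · intro m hm n hn
    have : w * (m * n) = m * (w * n) := by ring
    rw [this]; exact B01.mul_mem hm (h0 (hw n hn))
  · intro x y hx hy
    rw [mul_add]; exact B01.add_mem hx hy

/-- `w * I01 ⊆ B01` for `w` in the dual of `I1`. -/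
theorem dual_I01_1 (h1 : B1 ≤ B01) {w : F} (hw : ∀ z ∈ P.I1, w * z ∈ B1) {z : F}
    (hz : z ∈ P.I01) : w * z ∈ B01 := by
  rw [LinePair.I01_eq'] at hz
  refine Submodule.mul_induction_on hz ?_ ?_
  · intro m hm n hn
    have : w * (m * n) = m * (w * n) := by ring
    rw [this]; exact B01.mul_mem hm (h1 (hw n hn))
  · intro x y hx hy
    rw [mul_add]; exact B01.add_mem hx hy

/-- **(R2), existence.** Every trivialisation has a leading coefficient. -/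
theorem exists_lead (h : TwoChart ϖ B0 B1 B01) {n : ℕ} {g0 g1 : F}
    (hT : IsTriv ϖ n P g0 g1) : ∃ c, IsLead ϖ n P g0 g1 c := by
  obtain ⟨⟨hg0, w0, hw0, b0, hb0, hgw0⟩, _, hl⟩ := hT
  obtain ⟨z, hz, hzg⟩ := mem_scale.mp hl
  refine ⟨w0 * z, dual_I01_0 h.le0 hw0 hz, mem_scale.mpr ⟨-(b0 * z), ?_, ?_⟩⟩
  · exact P.I01.neg_mem (P.stable01 (h.le0 hb0) hz)
  · linear_combination hzg + (ϖ ^ n * z) * hgw0

/-- **(R2), uniqueness for a fixed trivialisation**: modulo `ϖ B01`. -/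
theorem lead_unique_same (h : TwoChart ϖ B0 B1 B01) {n : ℕ} {g0 g1 c c' : F}
    (hg0 : Gen B0 P.I0 ϖ g0) (hc : IsLead ϖ n P g0 g1 c) (hc' : IsLead ϖ n P g0 g1 c') :
    ∃ z ∈ B01, c - c' = ϖ * z := by
  obtain ⟨_, w0, hw0, b0, hb0, hgw0⟩ := hg0
  obtain ⟨hcB, hcl⟩ := hc
  obtain ⟨hcB', hcl'⟩ := hc'
  obtain ⟨y, hy, hyg⟩ := mem_scale.mp hcl
  obtain ⟨y', hy', hyg'⟩ := mem_scale.mp hcl'
  have key : (c - c') * g0 = ϖ * (y' - y) := by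
    apply mul_left_cancel₀ (pow_ne_zero n h.pi_ne)
    linear_combination hyg - hyg'
  refine ⟨w0 * (y' - y) - b0 * (c - c'), B01.sub_mem
    (dual_I01_0 h.le0 hw0 (P.I01.sub_mem hy' hy))
    (B01.mul_mem (h.le0 hb0) (B01.sub_mem hcB hcB')), ?_⟩
  linear_combination w0 * key - (c - c') * hgw0

/-- Two trivialisations of level `n` differ by a constant modulo `ϖ ^ n`. -/
theorem transition (h : TwoChart ϖ B0 B1 B01) {n : ℕ} {g0 g1 g0' g1' : F}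
    (hT : IsTriv ϖ n P g0 g1) (hT' : IsTriv ϖ n P g0' g1') :
    ∃ A0 ∈ B0, ∃ A1 ∈ B1, ∃ y0 ∈ P.I0, ∃ y1 ∈ P.I1, ∃ r : R, ∃ β0 ∈ B0, ∃ β1 ∈ B1,
      g0' = A0 * g0 + ϖ ^ (n + 1) * y0 ∧ g1' = A1 * g1 + ϖ ^ (n + 1) * y1 ∧
      A0 = algebraMap R F r + ϖ ^ n * β0 ∧ A1 = algebraMap R F r + ϖ ^ n * β1 := by
  have hϖ0 : ϖ ∈ B0 := pi_mem_of_range B0 h.pi_mem
  have hϖ1 : ϖ ∈ B1 := pi_mem_of_range B1 h.pi_mem
  have hϖ01 : ϖ ∈ B01 := pi_mem_of_range B01 h.pi_mem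
  obtain ⟨hG0, hG1, hl⟩ := hT
  obtain ⟨hG0', hG1', hl'⟩ := hT'
  obtain ⟨A0, hA0, y0, hy0, hA0g⟩ := Gen.change hG0 P.stable0 hϖ0 hG0'.1 (n + 1)
  obtain ⟨A1, hA1, y1, hy1, hA1g⟩ := Gen.change hG1 P.stable1 hϖ1 hG1'.1 (n + 1)
  obtain ⟨z, hz, hzg⟩ := mem_scale.mp hl
  obtain ⟨z', hz', hzg'⟩ := mem_scale.mp hl'
  obtain ⟨_, w0, hw0, b0, hb0, hgw0⟩ := hG0
  -- `(A1 - A0) g0 = ϖ ^ n u`
  have hu : z' - ϖ * (y1 - y0) - A1 * z ∈ P.I01 :=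
    P.I01.sub_mem (P.I01.sub_mem hz' (P.stable01 hϖ01
      (P.I01.sub_mem (P.le_I01_1 hy1) (P.le_I01_0 hy0)))) (P.stable01 (h.le1 hA1) hz)
  have hAg : (A1 - A0) * g0 = ϖ ^ n * (z' - ϖ * (y1 - y0) - A1 * z) := by
    linear_combination hA0g - hA1g - hzg' + A1 * hzg
  have hA : ∃ a ∈ B01, A1 - A0 = ϖ ^ n * a := by
    apply cancel_one_add B01 h.pi_ne hϖ01 (B01.sub_mem (h.le1 hA1) (h.le0 hA0)) (h.le0 hb0) n
    refine ⟨w0 * (z' - ϖ * (y1 - y0) - A1 * z), dual_I01_0 h.le0 hw0 hu, ?_⟩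
    linear_combination w0 * hAg - (A1 - A0) * hgw0
  obtain ⟨a, ha, hAa⟩ := hA
  obtain ⟨r, ⟨β0, hβ0, hr0⟩, ⟨β1, hβ1, hr1⟩⟩ :=
    h0n h n hA0 hA1 ⟨-a, B01.neg_mem ha, by linear_combination -hAa⟩
  exact ⟨A0, hA0, A1, hA1, y0, hy0, y1, hy1, r, β0, hβ0, β1, hβ1, hA0g, hA1g,
    by linear_combination hr0, by linear_combination hr1⟩

/-- **(R2), independence of the trivialisation** (needs `n ≥ 1` and `H⁰(X_n, O) = R / π ^ n`):
the leading coefficient is well defined modulo `Bdry = B0 + B1 + ϖ B01`. -/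
theorem lead_indep (h : TwoChart ϖ B0 B1 B01) {n : ℕ} (hn : 1 ≤ n) {g0 g1 g0' g1' c c' : F}
    (hT : IsTriv ϖ n P g0 g1) (hT' : IsTriv ϖ n P g0' g1')
    (hc : IsLead ϖ n P g0 g1 c) (hc' : IsLead ϖ n P g0' g1' c') :
    c - c' ∈ Bdry ϖ B0 B1 B01 := by
  obtain ⟨m, rfl⟩ : ∃ m, n = m + 1 := ⟨n - 1, by omega⟩
  have hϖ0 : ϖ ∈ B0 := pi_mem_of_range B0 h.pi_mem
  have hϖ01 : ϖ ∈ B01 := pi_mem_of_range B01 h.pi_mem
  obtain ⟨A0, hA0, A1, hA1, y0, hy0, y1, hy1, r, β0, hβ0, β1, hβ1, hA0g, hA1g, hA0r, hA1r⟩ :=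
    transition h hT hT'
  obtain ⟨A0', hA0', A1', _, y0', hy0', y1', _, r', β0', hβ0', β1', _, hA0g', _, hA0r', _⟩ :=
    transition h hT' hT
  obtain ⟨hcB, hcl⟩ := hc
  obtain ⟨hcB', hcl'⟩ := hc'
  obtain ⟨v, hv, hvg⟩ := mem_scale.mp hcl
  obtain ⟨v', hv', hvg'⟩ := mem_scale.mp hcl'
  obtain ⟨⟨_, w0, hw0, b0, hb0, hgw0⟩, _, _⟩ := hT
  have hpow01 : ∀ k : ℕ, ϖ ^ k ∈ B01 := fun k => B01.pow_mem hϖ01 k
  -- Step E
  have hV : v' - y1 - A1 * v + (1 + ϖ ^ (m + 1) * c') * y0 ∈ P.I01 :=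
    P.I01.add_mem (P.I01.sub_mem (P.I01.sub_mem hv' (P.le_I01_1 hy1))
      (P.stable01 (h.le1 hA1) hv))
      (P.stable01 (B01.add_mem B01.one_mem (B01.mul_mem (hpow01 _) hcB')) (P.le_I01_0 hy0))
  have hEB : A1 * (1 + ϖ ^ (m + 1) * c) - A0 * (1 + ϖ ^ (m + 1) * c') ∈ B01 :=
    B01.sub_mem (B01.mul_mem (h.le1 hA1) (B01.add_mem B01.one_mem (B01.mul_mem (hpow01 _) hcB)))
      (B01.mul_mem (h.le0 hA0) (B01.add_mem B01.one_mem (B01.mul_mem (hpow01 _) hcB')))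
  have hEg : (A1 * (1 + ϖ ^ (m + 1) * c) - A0 * (1 + ϖ ^ (m + 1) * c')) * g0
      = ϖ ^ (m + 1 + 1) * (v' - y1 - A1 * v + (1 + ϖ ^ (m + 1) * c') * y0) := by
    linear_combination A1 * hvg - hvg' + (1 + ϖ ^ (m + 1) * c') * hA0g - hA1g
  obtain ⟨ε, hε, hEε⟩ : ∃ ε ∈ B01, A1 * (1 + ϖ ^ (m + 1) * c) - A0 * (1 + ϖ ^ (m + 1) * c')
      = ϖ ^ (m + 1 + 1) * ε := by
    apply cancel_one_add B01 h.pi_ne hϖ01 hEB (h.le0 hb0) (m + 1 + 1)
    refine ⟨w0 * (v' - y1 - A1 * v + (1 + ϖ ^ (m + 1) * c') * y0),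
      dual_I01_0 h.le0 hw0 hV, ?_⟩
    linear_combination w0 * hEg
      - (A1 * (1 + ϖ ^ (m + 1) * c) - A0 * (1 + ϖ ^ (m + 1) * c')) * hgw0
  -- `r (c - c') ∈ Bdry`
  have hrc : algebraMap R F r * (c - c')
      = β0 - β1 + ϖ * (ε - ϖ ^ m * (β1 * c - β0 * c')) := by
    apply mul_left_cancel₀ (pow_ne_zero (m + 1) h.pi_ne)
    rw [hA0r, hA1r] at hEε
    linear_combination hEε
  -- `r r' ≡ 1 mod ϖ`
  have h1g : (1 - A0' * A0) * g0 = ϖ ^ (m + 1 + 1) * (A0' * y0 + y0') := by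
    linear_combination hA0g' + A0' * hA0g
  obtain ⟨a', ha', h1a⟩ : ∃ a' ∈ B01, 1 - A0' * A0 = ϖ ^ (m + 1 + 1) * a' := by
    apply cancel_one_add B01 h.pi_ne hϖ01
      (B01.sub_mem B01.one_mem (B01.mul_mem (h.le0 hA0') (h.le0 hA0))) (h.le0 hb0) (m + 1 + 1)
    refine ⟨w0 * (A0' * y0 + y0'), h.le0 (hw0 _ (P.I0.add_mem (P.stable0 _ hA0' _ hy0) hy0')), ?_⟩
    linear_combination w0 * h1g - (1 - A0' * A0) * hgw0
  obtain ⟨ρ, hρ⟩ := h.hk (1 - r * r') ⟨ϖ ^ (m + 1) * a' + ϖ ^ m * (algebraMap R F r' * β0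
      + algebraMap R F r * β0' + ϖ ^ (m + 1) * (β0' * β0)), by
    refine B01.add_mem (B01.mul_mem (hpow01 _) ha') (B01.mul_mem (hpow01 _) ?_)
    exact B01.add_mem (B01.add_mem (B01.mul_mem (B01.algebraMap_mem _) (h.le0 hβ0))
      (B01.mul_mem (B01.algebraMap_mem _) (h.le0 hβ0')))
      (B01.mul_mem (hpow01 _) (B01.mul_mem (h.le0 hβ0') (h.le0 hβ0))), by
    rw [hA0r, hA0r'] at h1a
    rw [map_sub, map_one, map_mul]
    linear_combination h1a⟩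
  rw [map_sub, map_one, map_mul] at hρ
  -- conclusion
  rw [mem_Bdry]
  refine ⟨algebraMap R F r' * β0, B0.mul_mem (B0.algebraMap_mem _) hβ0,
    -(algebraMap R F r' * β1), B1.neg_mem (B1.mul_mem (B1.algebraMap_mem _) hβ1),
    algebraMap R F r' * (ε - ϖ ^ m * (β1 * c - β0 * c')) + algebraMap R F ρ * (c - c'), ?_, ?_⟩
  · refine B01.add_mem (B01.mul_mem (B01.algebraMap_mem _) (B01.sub_mem hε
      (B01.mul_mem (hpow01 _) (B01.sub_mem (B01.mul_mem (h.le1 hβ1) hcB)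
        (B01.mul_mem (h.le0 hβ0) hcB'))))) (B01.mul_mem (B01.algebraMap_mem _)
        (B01.sub_mem hcB hcB'))
  · linear_combination (algebraMap R F r') * hrc + (c - c') * hρ

end lead

end Fermat.Agent.M1.Pic2.Lead60
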