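/-
M1 / chapter PIC (helper60): (R2) continued.  Leading coefficients are additive in products of
line pairs, invariant under scaling `P ↦ a • P`, vanish for the trivial pair, and
`lead ∈ Bdry ↔ level n + 1`.
-/
import Mathlib
import Fermat.Agent.M1.Pic2.Lead60

set_option autoImplicit false

namespace Fermat.Agent.M1.Pic2.LeadOps60

open Fermat.Agent.M1.Pic2.Defs60 Fermat.Agent.M1.Pic2.Lead60

variable {R F : Type*} [CommRing R] [Field F] [Algebra R F]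
variable {B0 B1 B01 : Subalgebra R F} {ϖ : F}

section gen

variable {B : Subalgebra R F}

/-- Generators multiply. -/
theorem Gen.mul (hϖB : ϖ ∈ B) {I J : Submodule R F} {g g' : F} (hg : Gen B I ϖ g)
    (hg' : Gen B J ϖ g') : Gen B (I * J) ϖ (g * g') := by
  obtain ⟨hgI, w, hw, b, hb, hgw⟩ := hg
  obtain ⟨hgJ, w', hw', b', hb', hgw'⟩ := hg'
  refine ⟨Submodule.mul_mem_mul hgI hgJ, w * w', ?_, b + b' + ϖ * (b * b'), ?_, ?_⟩
  · intro z hz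
    refine Submodule.mul_induction_on hz ?_ ?_
    · intro m hm n hn
      have : w * w' * (m * n) = (w * m) * (w' * n) := by ring
      rw [this]; exact B.mul_mem (hw m hm) (hw' n hn)
    · intro x y hx hy
      rw [mul_add]; exact B.add_mem hx hy
  · exact B.add_mem (B.add_mem hb hb') (B.mul_mem hϖB (B.mul_mem hb hb'))
  · linear_combination (g' * w') * hgw + (1 + ϖ * b) * hgw'

/-- Scaling a generator. -/
theorem Gen.scale {I : Submodule R F} {g a : F} (ha : a ≠ 0) (hg : Gen B I ϖ g) :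
    Gen B (scale a I) ϖ (a * g) := by
  obtain ⟨hgI, w, hw, b, hb, hgw⟩ := hg
  refine ⟨mul_mem_scale hgI, w / a, ?_, b, hb, ?_⟩
  · intro z hz
    obtain ⟨y, hy, rfl⟩ := mem_scale.mp hz
    have : w / a * (a * y) = w * y := by field_simp
    rw [this]; exact hw y hy
  · have : a * g * (w / a) = g * w := by field_simp
    rw [this, hgw]

/-- Multiplying a generator by a unit `≡ 1 mod ϖ`. -/
theorem Gen.mul_unit {I : Submodule R F} (hst : ∀ b ∈ B, ∀ z ∈ I, b * z ∈ I) (hϖB : ϖ ∈ B)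
    {g a : F} (ha : a ∈ B) (hg : Gen B I ϖ g) : Gen B I ϖ ((1 + ϖ * a) * g) := by
  obtain ⟨hgI, w, hw, b, hb, hgw⟩ := hg
  refine ⟨hst _ (B.add_mem B.one_mem (B.mul_mem hϖB ha)) _ hgI, w, hw,
    b + a * (1 + ϖ * b), B.add_mem hb (B.mul_mem ha (B.add_mem B.one_mem (B.mul_mem hϖB hb))), ?_⟩
  linear_combination (1 + ϖ * a) * hgw

end gen

variable {P Q : LinePair B0 B1 B01}

/-- The product of two trivialisations of level `n`. -/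
theorem IsTriv.mul (h : TwoChart ϖ B0 B1 B01) {n : ℕ} {g0 g1 g0' g1' : F}
    (hT : IsTriv ϖ n P g0 g1) (hT' : IsTriv ϖ n Q g0' g1') :
    IsTriv ϖ n (P.mul Q) (g0 * g0') (g1 * g1') := by
  obtain ⟨hG0, hG1, hl⟩ := hT
  obtain ⟨hG0', hG1', hl'⟩ := hT'
  refine ⟨Gen.mul (pi_mem_of_range B0 h.pi_mem) hG0 hG0',
    Gen.mul (pi_mem_of_range B1 h.pi_mem) hG1 hG1', ?_⟩
  obtain ⟨z, hz, hzg⟩ := mem_scale.mp hl
  obtain ⟨z', hz', hzg'⟩ := mem_scale.mp hl'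
  rw [LinePair.mul_I01]
  refine mem_scale.mpr ⟨g1 * z' + z * g0', ?_, ?_⟩
  · exact Submodule.add_mem _ (Submodule.mul_mem_mul (P.le_I01_1 hG1.1) hz')
      (Submodule.mul_mem_mul hz (Q.le_I01_0 hG0'.1))
  · linear_combination g1 * hzg' + g0' * hzg

/-- **(R2), additivity.** -/
theorem IsLead.mul {n : ℕ} (hn : 1 ≤ n) (hϖ01 : ϖ ∈ B01) {g0 g1 g0' g1' c c' : F}
    (hg0 : g0 ∈ P.I0) (hg0' : g0' ∈ Q.I0)
    (hc : IsLead ϖ n P g0 g1 c) (hc' : IsLead ϖ n Q g0' g1' c') :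
    IsLead ϖ n (P.mul Q) (g0 * g0') (g1 * g1') (c + c') := by
  obtain ⟨m, rfl⟩ : ∃ m, n = m + 1 := ⟨n - 1, by omega⟩
  obtain ⟨hcB, hcl⟩ := hc
  obtain ⟨hcB', hcl'⟩ := hc'
  obtain ⟨v, hv, hvg⟩ := mem_scale.mp hcl
  obtain ⟨v', hv', hvg'⟩ := mem_scale.mp hcl'
  refine ⟨B01.add_mem hcB hcB', ?_⟩
  rw [LinePair.mul_I01]
  have hpow01 : ∀ k : ℕ, ϖ ^ k ∈ B01 := fun k => B01.pow_mem hϖ01 k
  have h1c : (1 + ϖ ^ (m + 1) * c) ∈ B01 :=
    B01.add_mem B01.one_mem (B01.mul_mem (hpow01 _) hcB)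
  have h1c' : (1 + ϖ ^ (m + 1) * c') ∈ B01 :=
    B01.add_mem B01.one_mem (B01.mul_mem (hpow01 _) hcB')
  refine mem_scale.mpr ⟨((1 + ϖ ^ (m + 1) * c) * g0) * v' + v * ((1 + ϖ ^ (m + 1) * c') * g0')
      + (ϖ ^ (m + 1 + 1) * v) * v' + (ϖ ^ m * c * g0) * (c' * g0'), ?_, ?_⟩
  · refine Submodule.add_mem _ (Submodule.add_mem _ (Submodule.add_mem _ ?_ ?_) ?_) ?_
    · exact Submodule.mul_mem_mul (P.stable01 h1c (P.le_I01_0 hg0)) hv'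
    · exact Submodule.mul_mem_mul hv (Q.stable01 h1c' (Q.le_I01_0 hg0'))
    · exact Submodule.mul_mem_mul (P.stable01 (hpow01 _) hv) hv'
    · exact Submodule.mul_mem_mul (P.stable01 (B01.mul_mem (hpow01 _) hcB) (P.le_I01_0 hg0))
        (Q.stable01 hcB' (Q.le_I01_0 hg0'))
  · linear_combination g1' * hvg
      + (ϖ ^ (m + 1 + 1) * v + (1 + ϖ ^ (m + 1) * c) * g0) * hvg'

/-- **(R2), additivity**, for `HasLead`. -/
theorem HasLead.mul (h : TwoChart ϖ B0 B1 B01) {n : ℕ} (hn : 1 ≤ n) {c c' : F}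
    (hc : HasLead ϖ n P c) (hc' : HasLead ϖ n Q c') : HasLead ϖ n (P.mul Q) (c + c') := by
  obtain ⟨g0, g1, hT, hL⟩ := hc
  obtain ⟨g0', g1', hT', hL'⟩ := hc'
  exact ⟨g0 * g0', g1 * g1', IsTriv.mul h hT hT',
    IsLead.mul hn (pi_mem_of_range B01 h.pi_mem) hT.1.1 hT'.1.1 hL hL'⟩

/-- **(R2), well-definedness**, for `HasLead`. -/
theorem HasLead.unique (h : TwoChart ϖ B0 B1 B01) {n : ℕ} (hn : 1 ≤ n) {c c' : F}
    (hc : HasLead ϖ n P c) (hc' : HasLead ϖ n P c') : c - c' ∈ Bdry ϖ B0 B1 B01 := by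
  obtain ⟨g0, g1, hT, hL⟩ := hc
  obtain ⟨g0', g1', hT', hL'⟩ := hc'
  exact lead_indep h hn hT hT' hL hL'

theorem Level.hasLead (h : TwoChart ϖ B0 B1 B01) {n : ℕ} (hP : Level ϖ n P) :
    ∃ c, HasLead ϖ n P c := by
  obtain ⟨g0, g1, hT⟩ := hP
  obtain ⟨c, hc⟩ := exists_lead h hT
  exact ⟨c, g0, g1, hT, hc⟩

theorem HasLead.level {n : ℕ} {c : F} (hc : HasLead ϖ n P c) : Level ϖ n P := by
  obtain ⟨g0, g1, hT, _⟩ := hc
  exact ⟨g0, g1, hT⟩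

theorem HasLead.mem {n : ℕ} {c : F} (hc : HasLead ϖ n P c) : c ∈ B01 := by
  obtain ⟨g0, g1, _, hL⟩ := hc
  exact hL.1

/-- Scaling a trivialisation. -/
theorem IsTriv.smul {n : ℕ} {g0 g1 a : F} (ha : a ≠ 0) (hT : IsTriv ϖ n P g0 g1) :
    IsTriv ϖ n (P.smul a) (a * g0) (a * g1) := by
  obtain ⟨hG0, hG1, hl⟩ := hT
  refine ⟨Gen.scale ha hG0, Gen.scale ha hG1, ?_⟩
  obtain ⟨z, hz, hzg⟩ := mem_scale.mp hl
  rw [LinePair.smul_I01]
  exact mem_scale.mpr ⟨a * z, mul_mem_scale hz, by linear_combination a * hzg⟩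

theorem IsLead.smul {n : ℕ} {g0 g1 a c : F} (hL : IsLead ϖ n P g0 g1 c) :
    IsLead ϖ n (P.smul a) (a * g0) (a * g1) c := by
  obtain ⟨hcB, hcl⟩ := hL
  obtain ⟨v, hv, hvg⟩ := mem_scale.mp hcl
  refine ⟨hcB, ?_⟩
  rw [LinePair.smul_I01]
  exact mem_scale.mpr ⟨a * v, mul_mem_scale hv, by linear_combination a * hvg⟩

/-- **(R2), invariance under scaling** (i.e. the leading coefficient only depends on the
isomorphism class). -/
theorem HasLead.smul {n : ℕ} {a c : F} (ha : a ≠ 0) (hc : HasLead ϖ n P c) :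
    HasLead ϖ n (P.smul a) c := by
  obtain ⟨g0, g1, hT, hL⟩ := hc
  exact ⟨a * g0, a * g1, IsTriv.smul ha hT, IsLead.smul hL⟩

theorem Level.smul {n : ℕ} {a : F} (ha : a ≠ 0) (hP : Level ϖ n P) : Level ϖ n (P.smul a) := by
  obtain ⟨g0, g1, hT⟩ := hP
  exact ⟨a * g0, a * g1, IsTriv.smul ha hT⟩

theorem gen_one (B : Subalgebra R F) : Gen B (sm B) ϖ 1 :=
  ⟨B.one_mem, 1, fun _ hz => by simpa using hz, 0, B.zero_mem, by ring⟩

/-- The trivial pair is trivial at every level, with leading coefficient `0`. -/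
theorem hasLead_one (h0 : B0 ≤ B01) (h1 : B1 ≤ B01) (n : ℕ) :
    HasLead ϖ n (LinePair.one h0 h1 : LinePair B0 B1 B01) 0 := by
  refine ⟨1, 1, ⟨gen_one B0, gen_one B1, ?_⟩, B01.zero_mem, ?_⟩
  · rw [sub_self]; exact Submodule.zero_mem _
  · have : (1 : F) - (1 + ϖ ^ n * 0) * 1 = 0 := by ring
    rw [this]; exact Submodule.zero_mem _

/-- `ϖ ^ (n + 1) I01 ⊆ ϖ ^ n I01`. -/
theorem scale_succ_le (hϖ01 : ϖ ∈ B01) (P : LinePair B0 B1 B01) (n : ℕ) :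
    scale (ϖ ^ (n + 1)) P.I01 ≤ scale (ϖ ^ n) P.I01 :=
  scale_pow_le (fun _ hz => P.stable01 hϖ01 hz) n 1

theorem IsTriv.of_succ (hϖ01 : ϖ ∈ B01) {n : ℕ} {g0 g1 : F} (hT : IsTriv ϖ (n + 1) P g0 g1) :
    IsTriv ϖ n P g0 g1 :=
  ⟨hT.1, hT.2.1, scale_succ_le hϖ01 P n hT.2.2⟩

theorem Level.of_succ (hϖ01 : ϖ ∈ B01) {n : ℕ} (hP : Level ϖ (n + 1) P) : Level ϖ n P := by
  obtain ⟨g0, g1, hT⟩ := hP
  exact ⟨g0, g1, IsTriv.of_succ hϖ01 hT⟩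

/-- A trivialisation of level `n + 1` is one of level `n` with leading coefficient `0`. -/
theorem IsTriv.isLead_zero {n : ℕ} {g0 g1 : F} (hT : IsTriv ϖ (n + 1) P g0 g1) :
    IsLead ϖ n P g0 g1 0 := by
  refine ⟨B01.zero_mem, ?_⟩
  have : g1 - (1 + ϖ ^ n * 0) * g0 = g1 - g0 := by ring
  rw [this]; exact hT.2.2

/-- **(R2), kernel, one direction**: if the leading coefficient lies in `Bdry` the pair is trivial
at level `n + 1`. -/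
theorem HasLead.level_succ (h : TwoChart ϖ B0 B1 B01) {n : ℕ} (hn : 1 ≤ n) {c : F}
    (hc : HasLead ϖ n P c) (hcB : c ∈ Bdry ϖ B0 B1 B01) : Level ϖ (n + 1) P := by
  obtain ⟨m, rfl⟩ : ∃ m, n = m + 1 := ⟨n - 1, by omega⟩
  have hϖ0 : ϖ ∈ B0 := pi_mem_of_range B0 h.pi_mem
  have hϖ1 : ϖ ∈ B1 := pi_mem_of_range B1 h.pi_mem
  have hϖ01 : ϖ ∈ B01 := pi_mem_of_range B01 h.pi_mem
  have hpow01 : ∀ k : ℕ, ϖ ^ k ∈ B01 := fun k => B01.pow_mem hϖ01 k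
  obtain ⟨g0, g1, ⟨hG0, hG1, hl⟩, hcm, hcl⟩ := hc
  obtain ⟨b0, hb0, b1, hb1, z, hz, rfl⟩ := mem_Bdry.mp hcB
  obtain ⟨v, hv, hvg⟩ := mem_scale.mp hcl
  refine ⟨(1 + ϖ * (ϖ ^ m * b0)) * g0, (1 + ϖ * (ϖ ^ m * -b1)) * g1,
    Gen.mul_unit P.stable0 hϖ0 (B0.mul_mem (B0.pow_mem hϖ0 m) hb0) hG0,
    Gen.mul_unit P.stable1 hϖ1 (B1.mul_mem (B1.pow_mem hϖ1 m) (B1.neg_mem hb1)) hG1, ?_⟩
  refine mem_scale.mpr ⟨z * g0 - ϖ ^ m * (b1 * ((b0 + b1 + ϖ * z) * g0))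
      + (1 + ϖ ^ (m + 1) * -b1) * v, ?_, ?_⟩
  · refine P.I01.add_mem (P.I01.sub_mem (P.stable01 hz (P.le_I01_0 hG0.1)) ?_) ?_
    · exact P.stable01 (hpow01 m) (P.stable01 (h.le1 hb1) (P.stable01 hcm (P.le_I01_0 hG0.1)))
    · exact P.stable01 (B01.add_mem B01.one_mem
        (B01.mul_mem (hpow01 _) (B01.neg_mem (h.le1 hb1)))) hv
  · linear_combination (1 + ϖ ^ (m + 1) * -b1) * hvg

/-- **(R2), kernel, other direction.** -/
theorem HasLead.mem_Bdry_of_level_succ (h : TwoChart ϖ B0 B1 B01) {n : ℕ} (hn : 1 ≤ n) {c : F}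
    (hc : HasLead ϖ n P c) (hP : Level ϖ (n + 1) P) : c ∈ Bdry ϖ B0 B1 B01 := by
  obtain ⟨g0, g1, hT⟩ := hP
  have h0 : HasLead ϖ n P 0 :=
    ⟨g0, g1, IsTriv.of_succ (pi_mem_of_range B01 h.pi_mem) hT, IsTriv.isLead_zero hT⟩
  simpa using HasLead.unique h hn hc h0

/-- **(R2), kernel.** `gr^n` injects into `H¹(X_k, O) = B01 / Bdry`. -/
theorem HasLead.level_succ_iff (h : TwoChart ϖ B0 B1 B01) {n : ℕ} (hn : 1 ≤ n) {c : F}
    (hc : HasLead ϖ n P c) : Level ϖ (n + 1) P ↔ c ∈ Bdry ϖ B0 B1 B01 :=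
  ⟨HasLead.mem_Bdry_of_level_succ h hn hc, HasLead.level_succ h hn hc⟩

end Fermat.Agent.M1.Pic2.LeadOps60
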