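/-
M1 / chapter PIC (helper60): (R3) the `p`-th power map on leading coefficients.
With `(p : F) = ϖ ^ e * υ`, `υ ∈ B01`, and a trivialisation `(g0, g1)` of level `n ≥ 1` of `P` with
leading coefficient `c`, the pair `P ^ p` has the trivialisation `(g0 ^ p, g1 ^ p)`, which is
* of level `p n` with leading coefficient `c ^ p`            if `p n < n + e`  (Frobenius),
* of level `n + e` with leading coefficient `υ c`            if `n + e < p n`,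
* of level `p n = n + e` with leading coefficient `c ^ p + υ c`  if `p n = n + e`.
-/
import Mathlib
import Fermat.Agent.M1.Pic2.LeadOps60

set_option autoImplicit false

namespace Fermat.Agent.M1.Pic2.PowP60

open Polynomial Fermat.Agent.M1.Pic2.Defs60 Fermat.Agent.M1.Pic2.Lead60
  Fermat.Agent.M1.Pic2.LeadOps60

/-- `(1 + x) ^ p = 1 + x ^ p + p x (1 + x q)` with `q` an integer polynomial in `x`. -/
theorem exists_one_add_pow_prime {A : Type*} [CommRing A] {p : ℕ} (hp : p.Prime) (x : A) :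
    ∃ q ∈ Subring.closure {x}, (1 + x) ^ p = 1 + x ^ p + (p : A) * x * (1 + x * q) := by
  obtain ⟨r, hr⟩ := exists_add_pow_prime_eq hp (1 : ℤ[X]) X
  have h1 : r.coeff 0 = 1 := by
    have := congrArg (fun f => Polynomial.coeff f 1) hr
    simp only [one_pow, mul_one] at this
    rw [coeff_one_add_X_pow, coeff_add, coeff_add] at this
    have hp2 : 2 ≤ p := hp.two_le
    have hXp : (X ^ p : ℤ[X]).coeff 1 = 0 := by
      rw [coeff_X_pow]; simp; omega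
    have h1c : (1 : ℤ[X]).coeff 1 = 0 := by
      rw [coeff_one]; simp
    have hm : ((p : ℤ[X]) * X * r).coeff 1 = p * r.coeff 0 := by
      rw [mul_assoc, ← C_eq_natCast, coeff_C_mul, coeff_X_mul]
    rw [hXp, h1c, hm] at this
    simp at this
    have hp0 : (p : ℤ) ≠ 0 := by exact_mod_cast hp.ne_zero
    have : (p : ℤ) * 1 = p * r.coeff 0 := by simpa using this
    exact (mul_left_cancel₀ hp0 this).symm
  have h2 : X ∣ r - 1 := by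
    rw [X_dvd_iff]; simp [h1]
  obtain ⟨Q, hQ⟩ := h2
  have hr' : r = 1 + X * Q := by linear_combination hQ
  refine ⟨aeval x Q, ?_, ?_⟩
  · have := Polynomial.aeval_mem_adjoin_singleton ℤ x (p := Q)
    rw [Algebra.adjoin_int] at this
    exact this
  · have := congrArg (aeval x) hr
    rw [hr'] at this
    simpa using this

variable {R F : Type*} [CommRing R] [Field F] [Algebra R F]
variable {B0 B1 B01 : Subalgebra R F} {ϖ : F}

/-- The same inside a subalgebra. -/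
theorem exists_one_add_pow_prime_mem (B : Subalgebra R F) {p : ℕ} (hp : p.Prime) {x : F}
    (hx : x ∈ B) : ∃ q ∈ B, (1 + x) ^ p = 1 + x ^ p + (p : F) * x * (1 + x * q) := by
  obtain ⟨q, hq, h⟩ := exists_one_add_pow_prime hp x
  refine ⟨q, ?_, h⟩
  have hle : Subring.closure {x} ≤ B.toSubring := by
    rw [Subring.closure_le]
    intro y hy
    rw [Set.mem_singleton_iff] at hy
    subst hy
    exact hx
  exact hle hq

/-- `(c + ϖ d) ^ p ≡ c ^ p mod ϖ`. -/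
theorem exists_add_mul_pow (B : Subalgebra R F) (hϖ : ϖ ∈ B) {c d : F} (hc : c ∈ B) (hd : d ∈ B)
    (p : ℕ) : ∃ s ∈ B, (c + ϖ * d) ^ p = c ^ p + ϖ * s := by
  have h := Commute.geom_sum₂_mul (Commute.all (c + ϖ * d) c) p
  refine ⟨d * ∑ i ∈ Finset.range p, (c + ϖ * d) ^ i * c ^ (p - 1 - i), ?_, ?_⟩
  · refine B.mul_mem hd (Subalgebra.sum_mem _ fun i _ => ?_)
    exact B.mul_mem (B.pow_mem (B.add_mem hc (B.mul_mem hϖ hd)) _) (B.pow_mem hc _)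
  · linear_combination -h

variable {P : LinePair B0 B1 B01}

section npow

variable (h0 : B0 ≤ B01) (h1 : B1 ≤ B01)

theorem npow_succ_I01 (k : ℕ) :
    (LinePair.npow h0 h1 P (k + 1)).I01 = (LinePair.npow h0 h1 P k).I01 * P.I01 :=
  LinePair.mul_I01 _ _

theorem mem_npow_one {y : F} (hy : y ∈ P.I01) : y ∈ (LinePair.npow h0 h1 P 1).I01 := by
  rw [npow_succ_I01]
  show y ∈ (LinePair.one h0 h1 : LinePair B0 B1 B01).I01 * P.I01
  rw [LinePair.one_I01]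
  have : y = 1 * y := by ring
  rw [this]
  exact Submodule.mul_mem_mul B01.one_mem hy

theorem mul_pow_mem_npow {a : ℕ} {z u : F} (hz : z ∈ (LinePair.npow h0 h1 P a).I01)
    (hu : u ∈ P.I01) (b : ℕ) : z * u ^ b ∈ (LinePair.npow h0 h1 P (a + b)).I01 := by
  induction b with
  | zero => simpa using hz
  | succ b ih =>
    have : z * u ^ (b + 1) = (z * u ^ b) * u := by ring
    rw [this, ← add_assoc, npow_succ_I01]
    exact Submodule.mul_mem_mul ih hu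

theorem gen_pow0 (hϖ0 : ϖ ∈ B0) {g : F} (hg : Gen B0 P.I0 ϖ g) (k : ℕ) :
    Gen B0 (LinePair.npow h0 h1 P k).I0 ϖ (g ^ k) := by
  induction k with
  | zero =>
    show Gen B0 (sm B0) ϖ (g ^ 0)
    rw [pow_zero]; exact gen_one B0
  | succ k ih =>
    rw [pow_succ]
    exact Gen.mul hϖ0 ih hg

theorem gen_pow1 (hϖ1 : ϖ ∈ B1) {g : F} (hg : Gen B1 P.I1 ϖ g) (k : ℕ) :
    Gen B1 (LinePair.npow h0 h1 P k).I1 ϖ (g ^ k) := by
  induction k with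
  | zero =>
    show Gen B1 (sm B1) ϖ (g ^ 0)
    rw [pow_zero]; exact gen_one B1
  | succ k ih =>
    rw [pow_succ]
    exact Gen.mul hϖ1 ih hg

end npow

/-- A pair of generators with a leading coefficient at level `N` is a trivialisation of
level `N`. -/
theorem isTriv_of_isLead (hϖ01 : ϖ ∈ B01) {N : ℕ} {g0 g1 l : F} (hG0 : Gen B0 P.I0 ϖ g0)
    (hG1 : Gen B1 P.I1 ϖ g1) (hL : IsLead ϖ N P g0 g1 l) : IsTriv ϖ N P g0 g1 := by
  refine ⟨hG0, hG1, ?_⟩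
  obtain ⟨hl, hlm⟩ := hL
  have h1 : g1 - g0 = (g1 - (1 + ϖ ^ N * l) * g0) + ϖ ^ N * (l * g0) := by ring
  rw [h1]
  exact Submodule.add_mem _ (scale_succ_le hϖ01 P N hlm)
    (mul_mem_scale (P.stable01 hl (P.le_I01_0 hG0.1)))

/-- Core of (R3): `g1 ^ p = A ^ p g0 ^ p + ϖ ^ M y` with `A = 1 + ϖ ^ n c + ϖ ^ (n + 1) d`. -/
theorem pow_core (h : TwoChart ϖ B0 B1 B01) {n : ℕ} {g0 g1 c : F} (hT : IsTriv ϖ n P g0 g1)
    (hL : IsLead ϖ n P g0 g1 c) (p M' : ℕ) (hp : 1 ≤ p) :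
    ∃ A ∈ B01, ∃ d ∈ B01, ∃ y ∈ (LinePair.npow h.le0 h.le1 P p).I01,
      A = 1 + ϖ ^ n * c + ϖ ^ (n + 1) * d ∧
      g1 ^ p = A ^ p * g0 ^ p + ϖ ^ (n + 1 + M') * y := by
  have hϖ01 : ϖ ∈ B01 := pi_mem_of_range B01 h.pi_mem
  obtain ⟨hG0, hG1, _⟩ := hT
  obtain ⟨hcB, hcl⟩ := hL
  obtain ⟨v, hv, hvg⟩ := mem_scale.mp hcl
  have hg0 := hG0.1
  obtain ⟨_, w0, hw0, b0, hb0, hgw0⟩ := hG0
  have hG01 : Gen B01 P.I01 ϖ g0 :=
    ⟨P.le_I01_0 hg0, w0, fun z hz => dual_I01_0 h.le0 hw0 hz, b0, h.le0 hb0, hgw0⟩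
  obtain ⟨A, hA, y, hy, hAy⟩ := Gen.change hG01 (fun b hb z hz => P.stable01 hb hz) hϖ01
    (P.le_I01_1 hG1.1) (n + 1 + M')
  have hpow01 : ∀ k : ℕ, ϖ ^ k ∈ B01 := fun k => B01.pow_mem hϖ01 k
  -- `A - 1 - ϖ ^ n c = ϖ ^ (n + 1) d`
  have hAg : (A - 1 - ϖ ^ n * c) * g0 = ϖ ^ (n + 1) * (v - ϖ ^ M' * y) := by
    linear_combination -hvg - hAy
  obtain ⟨d, hd, hAd⟩ : ∃ d ∈ B01, A - 1 - ϖ ^ n * c = ϖ ^ (n + 1) * d := by
    apply cancel_one_add B01 h.pi_ne hϖ01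
      (B01.sub_mem (B01.sub_mem hA B01.one_mem) (B01.mul_mem (hpow01 _) hcB)) (h.le0 hb0) (n + 1)
    refine ⟨w0 * (v - ϖ ^ M' * y), dual_I01_0 h.le0 hw0
      (P.I01.sub_mem hv (P.stable01 (hpow01 _) hy)), ?_⟩
    linear_combination w0 * hAg - (A - 1 - ϖ ^ n * c) * hgw0
  -- the geometric sum
  obtain ⟨p', rfl⟩ : ∃ p', p = p' + 1 := ⟨p - 1, by omega⟩
  have hgeo := Commute.geom_sum₂_mul (Commute.all g1 (A * g0)) (p' + 1)
  have hAg0 : A * g0 ∈ P.I01 := P.stable01 hA (P.le_I01_0 hg0)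
  have hg1 : g1 ∈ P.I01 := P.le_I01_1 hG1.1
  refine ⟨A, hA, d, hd,
    ∑ i ∈ Finset.range (p' + 1), y * g1 ^ i * (A * g0) ^ (p' + 1 - 1 - i), ?_,
    by linear_combination hAd, ?_⟩
  · refine Submodule.sum_mem _ fun i hi => ?_
    have hi' : i < p' + 1 := Finset.mem_range.mp hi
    have h1 := mul_pow_mem_npow h.le0 h.le1 (mem_npow_one h.le0 h.le1 hy) hg1 i
    have h2 := mul_pow_mem_npow h.le0 h.le1 h1 hAg0 (p' + 1 - 1 - i)
    have hm : 1 + i + (p' + 1 - 1 - i) = p' + 1 := by omega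
    rw [hm] at h2
    exact h2
  · have hsum : (∑ i ∈ Finset.range (p' + 1), g1 ^ i * (A * g0) ^ (p' + 1 - 1 - i))
        * (ϖ ^ (n + 1 + M') * y)
        = ϖ ^ (n + 1 + M') * ∑ i ∈ Finset.range (p' + 1),
          y * g1 ^ i * (A * g0) ^ (p' + 1 - 1 - i) := by
      rw [Finset.sum_mul, Finset.mul_sum]
      exact Finset.sum_congr rfl fun i _ => by ring
    have hdiff : g1 - A * g0 = ϖ ^ (n + 1 + M') * y := by linear_combination hAy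
    rw [hdiff, hsum] at hgeo
    linear_combination -hgeo

/-- From an expansion `A ^ p = 1 + ϖ ^ N l + ϖ ^ (N + 1) E` to the leading coefficient of
`(g0 ^ p, g1 ^ p)`. -/
theorem isLead_pow_of_expansion (h : TwoChart ϖ B0 B1 B01) {g0 g1 A y l E : F} {p N M' : ℕ}
    (hg0 : g0 ^ p ∈ (LinePair.npow h.le0 h.le1 P p).I0)
    (hl : l ∈ B01) (hE : E ∈ B01) (hy : y ∈ (LinePair.npow h.le0 h.le1 P p).I01)
    (hA : A ^ p = 1 + ϖ ^ N * l + ϖ ^ (N + 1) * E)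
    (hg : g1 ^ p = A ^ p * g0 ^ p + ϖ ^ (N + 1 + M') * y) :
    IsLead ϖ N (LinePair.npow h.le0 h.le1 P p) (g0 ^ p) (g1 ^ p) l := by
  have hϖ01 : ϖ ∈ B01 := pi_mem_of_range B01 h.pi_mem
  refine ⟨hl, mem_scale.mpr ⟨E * g0 ^ p + ϖ ^ M' * y, ?_, ?_⟩⟩
  · exact Submodule.add_mem _ (LinePair.stable01 _ hE (LinePair.le_I01_0 _ hg0))
      (LinePair.stable01 _ (B01.pow_mem hϖ01 _) hy)
  · rw [hg, hA]; ring

/-- Data shared by the three regimes. -/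
theorem pow_expansion (h : TwoChart ϖ B0 B1 B01) {p e n : ℕ} (hp : p.Prime) {υ c d A : F}
    (hpe : (p : F) = ϖ ^ e * υ) (hc : c ∈ B01) (hd : d ∈ B01)
    (hA : A = 1 + ϖ ^ n * c + ϖ ^ (n + 1) * d) :
    ∃ s ∈ B01, ∃ q ∈ B01, A ^ p = 1 + ϖ ^ (p * n) * (c ^ p + ϖ * s)
      + ϖ ^ (n + e) * υ * (c + ϖ * d) * (1 + ϖ ^ n * (c + ϖ * d) * q) := by
  have hϖ01 : ϖ ∈ B01 := pi_mem_of_range B01 h.pi_mem
  have hct : c + ϖ * d ∈ B01 := B01.add_mem hc (B01.mul_mem hϖ01 hd)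
  obtain ⟨s, hs, hsc⟩ := exists_add_mul_pow B01 hϖ01 hc hd p
  obtain ⟨q, hq, hqx⟩ := exists_one_add_pow_prime_mem B01 hp
    (B01.mul_mem (B01.pow_mem hϖ01 n) hct)
  refine ⟨s, hs, q, hq, ?_⟩
  have hA' : A = 1 + ϖ ^ n * (c + ϖ * d) := by rw [hA]; ring
  rw [hA', hqx, hpe, mul_pow, hsc, ← pow_mul, mul_comm n p]
  ring

variable {p e n : ℕ} {υ g0 g1 c : F}

/-- **(R3), Frobenius regime** `p n < n + e`. -/
theorem isLead_pow_lt (h : TwoChart ϖ B0 B1 B01) (hp : p.Prime) (hpe : (p : F) = ϖ ^ e * υ)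
    (hυ : υ ∈ B01) (hlt : p * n < n + e) (hT : IsTriv ϖ n P g0 g1)
    (hL : IsLead ϖ n P g0 g1 c) :
    IsLead ϖ (p * n) (LinePair.npow h.le0 h.le1 P p) (g0 ^ p) (g1 ^ p) (c ^ p) := by
  have hϖ0 : ϖ ∈ B0 := pi_mem_of_range B0 h.pi_mem
  have hϖ01 : ϖ ∈ B01 := pi_mem_of_range B01 h.pi_mem
  obtain ⟨k, hk⟩ : ∃ k, n + e = p * n + 1 + k := ⟨n + e - (p * n + 1), by omega⟩
  obtain ⟨M', hM'⟩ : ∃ M', n + 1 + (p * n + e) = p * n + 1 + M' := ⟨n + e, by omega⟩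
  obtain ⟨A, hA, d, hd, y, hy, hAd, hgy⟩ := pow_core h hT hL p (p * n + e) hp.one_le
  obtain ⟨s, hs, q, hq, hAp⟩ := pow_expansion h hp hpe hL.1 hd hAd
  have hct : c + ϖ * d ∈ B01 := B01.add_mem hL.1 (B01.mul_mem hϖ01 hd)
  have hpow01 : ∀ k : ℕ, ϖ ^ k ∈ B01 := fun k => B01.pow_mem hϖ01 k
  refine isLead_pow_of_expansion h (M' := M') (A := A) (y := y)
    (E := s + ϖ ^ k * (υ * (c + ϖ * d) * (1 + ϖ ^ n * (c + ϖ * d) * q)))
    (gen_pow0 h.le0 h.le1 hϖ0 hT.1 p).1 (B01.pow_mem hL.1 p) ?_ hy ?_ ?_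
  · exact B01.add_mem hs (B01.mul_mem (hpow01 _) (B01.mul_mem (B01.mul_mem hυ hct)
      (B01.add_mem B01.one_mem (B01.mul_mem (B01.mul_mem (hpow01 _) hct) hq))))
  · rw [hAp, hk]; ring
  · rw [hgy, hM']

/-- **(R3), regime** `n + e < p n`: multiplication by `υ = p / ϖ ^ e`. -/
theorem isLead_pow_gt (h : TwoChart ϖ B0 B1 B01) (hp : p.Prime) (hpe : (p : F) = ϖ ^ e * υ)
    (hυ : υ ∈ B01) (hn : 1 ≤ n) (hgt : n + e < p * n) (hT : IsTriv ϖ n P g0 g1)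
    (hL : IsLead ϖ n P g0 g1 c) :
    IsLead ϖ (n + e) (LinePair.npow h.le0 h.le1 P p) (g0 ^ p) (g1 ^ p) (υ * c) := by
  have hϖ0 : ϖ ∈ B0 := pi_mem_of_range B0 h.pi_mem
  have hϖ01 : ϖ ∈ B01 := pi_mem_of_range B01 h.pi_mem
  obtain ⟨m, rfl⟩ : ∃ m, n = m + 1 := ⟨n - 1, by omega⟩
  obtain ⟨k, hk⟩ : ∃ k, p * (m + 1) = m + 1 + e + 1 + k := ⟨p * (m + 1) - (m + 1 + e + 1), by omega⟩
  obtain ⟨M', hM'⟩ : ∃ M', m + 1 + 1 + (p * (m + 1) + e) = m + 1 + e + 1 + M' :=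
    ⟨p * (m + 1), by omega⟩
  obtain ⟨A, hA, d, hd, y, hy, hAd, hgy⟩ := pow_core h hT hL p (p * (m + 1) + e) hp.one_le
  obtain ⟨s, hs, q, hq, hAp⟩ := pow_expansion h hp hpe hL.1 hd hAd
  have hct : c + ϖ * d ∈ B01 := B01.add_mem hL.1 (B01.mul_mem hϖ01 hd)
  have hpow01 : ∀ k : ℕ, ϖ ^ k ∈ B01 := fun k => B01.pow_mem hϖ01 k
  refine isLead_pow_of_expansion h (M' := M') (A := A) (y := y)
    (E := ϖ ^ k * (c ^ p + ϖ * s) + υ * (d + ϖ ^ m * ((c + ϖ * d) * (c + ϖ * d) * q)))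
    (gen_pow0 h.le0 h.le1 hϖ0 hT.1 p).1 (B01.mul_mem hυ hL.1) ?_ hy ?_ ?_
  · exact B01.add_mem (B01.mul_mem (hpow01 _) (B01.add_mem (B01.pow_mem hL.1 p)
      (B01.mul_mem hϖ01 hs))) (B01.mul_mem hυ (B01.add_mem hd (B01.mul_mem (hpow01 _)
      (B01.mul_mem (B01.mul_mem hct hct) hq))))
  · rw [hAp, hk]; ring
  · rw [hgy, hM']

/-- **(R3), critical regime** `p n = n + e`: `c ↦ c ^ p + υ c`. -/
theorem isLead_pow_eq (h : TwoChart ϖ B0 B1 B01) (hp : p.Prime) (hpe : (p : F) = ϖ ^ e * υ)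
    (hυ : υ ∈ B01) (hn : 1 ≤ n) (heq : p * n = n + e) (hT : IsTriv ϖ n P g0 g1)
    (hL : IsLead ϖ n P g0 g1 c) :
    IsLead ϖ (p * n) (LinePair.npow h.le0 h.le1 P p) (g0 ^ p) (g1 ^ p) (c ^ p + υ * c) := by
  have hϖ0 : ϖ ∈ B0 := pi_mem_of_range B0 h.pi_mem
  have hϖ01 : ϖ ∈ B01 := pi_mem_of_range B01 h.pi_mem
  obtain ⟨m, rfl⟩ : ∃ m, n = m + 1 := ⟨n - 1, by omega⟩
  obtain ⟨M', hM'⟩ : ∃ M', m + 1 + 1 + (p * (m + 1) + e) = p * (m + 1) + 1 + M' :=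
    ⟨m + 1 + e, by omega⟩
  obtain ⟨A, hA, d, hd, y, hy, hAd, hgy⟩ := pow_core h hT hL p (p * (m + 1) + e) hp.one_le
  obtain ⟨s, hs, q, hq, hAp⟩ := pow_expansion h hp hpe hL.1 hd hAd
  have hct : c + ϖ * d ∈ B01 := B01.add_mem hL.1 (B01.mul_mem hϖ01 hd)
  have hpow01 : ∀ k : ℕ, ϖ ^ k ∈ B01 := fun k => B01.pow_mem hϖ01 k
  refine isLead_pow_of_expansion h (M' := M') (A := A) (y := y)
    (E := s + υ * (d + ϖ ^ m * ((c + ϖ * d) * (c + ϖ * d) * q)))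
    (gen_pow0 h.le0 h.le1 hϖ0 hT.1 p).1
    (B01.add_mem (B01.pow_mem hL.1 p) (B01.mul_mem hυ hL.1)) ?_ hy ?_ ?_
  · exact B01.add_mem hs (B01.mul_mem hυ (B01.add_mem hd (B01.mul_mem (hpow01 _)
      (B01.mul_mem (B01.mul_mem hct hct) hq))))
  · rw [hAp, ← heq]; ring
  · rw [hgy, hM']

/-- The pair of `p`-th powers of generators, once it has a leading coefficient. -/
theorem isTriv_pow (h : TwoChart ϖ B0 B1 B01) {N : ℕ} {l : F} (p : ℕ) (hT : IsTriv ϖ n P g0 g1)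
    (hL : IsLead ϖ N (LinePair.npow h.le0 h.le1 P p) (g0 ^ p) (g1 ^ p) l) :
    IsTriv ϖ N (LinePair.npow h.le0 h.le1 P p) (g0 ^ p) (g1 ^ p) :=
  isTriv_of_isLead (pi_mem_of_range B01 h.pi_mem)
    (gen_pow0 h.le0 h.le1 (pi_mem_of_range B0 h.pi_mem) hT.1 p)
    (gen_pow1 h.le0 h.le1 (pi_mem_of_range B1 h.pi_mem) hT.2.1 p) hL

/-- **(R3)** for `HasLead`, Frobenius regime. -/
theorem HasLead.pow_lt (h : TwoChart ϖ B0 B1 B01) (hp : p.Prime) (hpe : (p : F) = ϖ ^ e * υ)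
    (hυ : υ ∈ B01) (hlt : p * n < n + e) (hc : HasLead ϖ n P c) :
    HasLead ϖ (p * n) (LinePair.npow h.le0 h.le1 P p) (c ^ p) := by
  obtain ⟨g0, g1, hT, hL⟩ := hc
  have hL' := isLead_pow_lt h hp hpe hυ hlt hT hL
  exact ⟨g0 ^ p, g1 ^ p, isTriv_pow h p hT hL', hL'⟩

/-- **(R3)** for `HasLead`, regime `n + e < p n`. -/
theorem HasLead.pow_gt (h : TwoChart ϖ B0 B1 B01) (hp : p.Prime) (hpe : (p : F) = ϖ ^ e * υ)
    (hυ : υ ∈ B01) (hn : 1 ≤ n) (hgt : n + e < p * n) (hc : HasLead ϖ n P c) :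
    HasLead ϖ (n + e) (LinePair.npow h.le0 h.le1 P p) (υ * c) := by
  obtain ⟨g0, g1, hT, hL⟩ := hc
  have hL' := isLead_pow_gt h hp hpe hυ hn hgt hT hL
  exact ⟨g0 ^ p, g1 ^ p, isTriv_pow h p hT hL', hL'⟩

/-- **(R3)** for `HasLead`, critical regime. -/
theorem HasLead.pow_eq (h : TwoChart ϖ B0 B1 B01) (hp : p.Prime) (hpe : (p : F) = ϖ ^ e * υ)
    (hυ : υ ∈ B01) (hn : 1 ≤ n) (heq : p * n = n + e) (hc : HasLead ϖ n P c) :
    HasLead ϖ (p * n) (LinePair.npow h.le0 h.le1 P p) (c ^ p + υ * c) := by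
  obtain ⟨g0, g1, hT, hL⟩ := hc
  have hL' := isLead_pow_eq h hp hpe hυ hn heq hT hL
  exact ⟨g0 ^ p, g1 ^ p, isTriv_pow h p hT hL', hL'⟩

end Fermat.Agent.M1.Pic2.PowP60
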