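/-
Programme M1 (S44, row 38), chapter PIC ("Pic2 calculus over a DVR"), brick (R4): SEPARATEDNESS of
the depth filtration, in pure module form.  Owner: helper15.  Mathlib only.

Setting: a two-chart family `R0 → R01 ← R1` over a local ring `O` (`R01 = R0[1/t] = R1[1/s]`,
`t s = 1`, `R0` integral over `O[t]`, `R1` integral over `O[s]`: the chart form of properness),
`π` in the maximal ideal of `O`, and a diagram of modules `M0 → M01 ← M1` (localisations, `M0`, `M1`
finitely generated).  If the diagram is trivial modulo `π ^ n` for every `n`, and the `π`-power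
torsion of `H¹ = M01 / (M0 + M1)` has bounded exponent (e.g. `H¹` finite over a noetherian `O`),
then the diagram is trivial: there are generators `g0`, `g1` with `ρ0 g0 = ρ1 g1`.

Main statements:
* `ideal_eq_top_of_disjoint_special` : properness in chart form (a closed subscheme which does not
  meet the special fibre is empty), via a valuation ring dominating `O`.
* `exists_generators_of_trivial_mod_pow_succ`, `exists_generators_of_trivial_mod_pow` : the
  separatedness statement (sharp one-level form, and the `∀ n` form).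
* `exists_bound_of_noetherian` : supplies the bounded-torsion hypothesis.
-/
import Mathlib

set_option autoImplicit false

namespace Fermat.Agent.M1.Pic2.Separated15

section Proper

variable {O : Type*} [CommRing O]
  {R : Type*} [CommRing R] [Algebra O R]
  {K : Type*} [Field K]

/-- If `R` is integral over `O[t]`, and a ring hom `ψ : R → K` sends `O` and `t` into a
valuation subring `V`, then it sends all of `R` into `V`. -/
theorem map_mem_valuationSubring_of_integral (t : R)
    (hint : ∀ x : R, IsIntegral (Algebra.adjoin O {t}) x)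
    (ψ : R →+* K) (V : ValuationSubring K)
    (hO : ∀ a : O, ψ (algebraMap O R a) ∈ V) (ht : ψ t ∈ V) (x : R) : ψ x ∈ V := by
  have hS : ∀ y : Algebra.adjoin O {t}, ψ (y : R) ∈ V := by
    rintro ⟨y, hy⟩
    induction hy using Algebra.adjoin_induction with
    | mem z hz =>
      rw [Set.mem_singleton_iff] at hz
      subst hz
      exact ht
    | algebraMap a => exact hO a
    | add a b _ _ ha hb =>
      simp only [map_add]
      exact V.add_mem _ _ ha hb
    | mul a b _ _ ha hb =>
      simp only [map_mul]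
      exact V.mul_mem _ _ ha hb
  let φ : Algebra.adjoin O {t} →+* V :=
    (ψ.comp (Algebra.adjoin O {t}).val.toRingHom).codRestrict V.toSubring (fun y => hS y)
  have hcomm : (algebraMap V K).comp φ = ψ.comp (algebraMap (Algebra.adjoin O {t}) R) := by
    ext y
    rfl
  have hi : IsIntegral V (ψ x) := IsIntegral.map_of_comp_eq φ ψ hcomm (hint x)
  obtain ⟨y, hy⟩ := (IsIntegrallyClosed.isIntegral_iff (R := V) (K := K)).mp hi
  rw [← hy]
  exact y.2

end Proper

section Proper2

variable {O : Type*} [CommRing O] [IsLocalRing O]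
  {R0 R1 R01 : Type*} [CommRing R0] [CommRing R1] [CommRing R01]
  [Algebra O R0] [Algebra O R1] [Algebra O R01] [Algebra R0 R01] [Algebra R1 R01]
  [IsScalarTower O R0 R01] [IsScalarTower O R1 R01]

/-- **Properness in chart form** (one-sided).  `X = Spec R0 ∪ Spec R1` glued along
`Spec R01 = D(t) = D(s)`, `t s = 1`, with `R0` integral over `O[t]` and `R1` integral over `O[s]`.
A closed subscheme `(I0, I1)` which does not meet the special fibre `π = 0` is empty. -/
theorem ideal_eq_top_of_disjoint_special (t : R0) (s : R1) [IsLocalization.Away t R01]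
    (hts : algebraMap R0 R01 t * algebraMap R1 R01 s = 1)
    (hint0 : ∀ x : R0, IsIntegral (Algebra.adjoin O {t}) x)
    (hint1 : ∀ y : R1, IsIntegral (Algebra.adjoin O {s}) y)
    (π : O) (hπ : π ∈ IsLocalRing.maximalIdeal O)
    (I0 : Ideal R0) (I1 : Ideal R1)
    (hI : I1.map (algebraMap R1 R01) ≤ I0.map (algebraMap R0 R01))
    (h0 : ∃ i ∈ I0, ∃ r : R0, i + algebraMap O R0 π * r = 1)
    (h1 : ∃ i ∈ I1, ∃ r : R1, i + algebraMap O R1 π * r = 1) :
    I0 = ⊤ := by
  by_contra hne
  obtain ⟨m, hm, hIm⟩ := Ideal.exists_le_maximal I0 hne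
  let _ : Field (R0 ⧸ m) := Ideal.Quotient.field m
  let K := R0 ⧸ m
  let ψ0 : R0 →+* K := Ideal.Quotient.mk m
  let f : O →+* K := ψ0.comp (algebraMap O R0)
  obtain ⟨V, hV, hloc⟩ := IsLocalRing.exists_factor_valuationRing f
  -- `f π` is a non-unit of `V`
  have hπV : ¬ IsUnit (⟨f π, hV π⟩ : V) := by
    intro hu
    have : IsUnit π := hloc.map_nonunit π hu
    exact (IsLocalRing.mem_maximalIdeal π).mp hπ this
  -- but a unit of `V` as soon as `f π * z = 1` with `z ∈ V`
  have key : ∀ z : K, z ∈ V → f π * z ≠ 1 := by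
    intro z hz h
    apply hπV
    exact isUnit_iff_exists_inv.mpr ⟨⟨z, hz⟩, Subtype.ext h⟩
  obtain ⟨i0, hi0, r0, hr0⟩ := h0
  obtain ⟨i1, hi1, r1, hr1⟩ := h1
  have hi0' : ψ0 i0 = 0 := Ideal.Quotient.eq_zero_iff_mem.mpr (hIm hi0)
  have e0 : f π * ψ0 r0 = 1 := by
    have := congrArg ψ0 hr0
    simpa [hi0', f] using this
  by_cases htV : ψ0 t ∈ V
  · exact key _ (map_mem_valuationSubring_of_integral t hint0 ψ0 V hV htV r0) e0
  · -- `t` is invertible in `K`, with inverse in `V`
    have ht0 : ψ0 t ≠ 0 := by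
      intro h
      exact htV (h ▸ V.zero_mem)
    have htinv : (ψ0 t)⁻¹ ∈ V := (V.mem_or_inv_mem (ψ0 t)).resolve_left htV
    let ψ01 : R01 →+* K := IsLocalization.Away.lift t (g := ψ0) (isUnit_iff_ne_zero.mpr ht0)
    have hψ01 : ∀ x : R0, ψ01 (algebraMap R0 R01 x) = ψ0 x := fun x =>
      IsLocalization.Away.lift_eq t _ x
    let ψ1 : R1 →+* K := ψ01.comp (algebraMap R1 R01)
    have hs : ψ1 s = (ψ0 t)⁻¹ := by
      have := congrArg ψ01 hts
      rw [map_mul, hψ01, map_one] at this
      exact eq_inv_of_mul_eq_one_right this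
    have hO1 : ∀ a : O, ψ1 (algebraMap O R1 a) ∈ V := by
      intro a
      have : ψ1 (algebraMap O R1 a) = f a := by
        simp only [ψ1, f, RingHom.comp_apply]
        rw [← IsScalarTower.algebraMap_apply O R1 R01, IsScalarTower.algebraMap_apply O R0 R01,
          hψ01]
      rw [this]
      exact hV a
    have hker : ∀ x ∈ I0.map (algebraMap R0 R01), ψ01 x = 0 := by
      intro x hx
      have : I0.map (algebraMap R0 R01) ≤ RingHom.ker ψ01 := by
        rw [Ideal.map_le_iff_le_comap]
        intro y hy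
        rw [Ideal.mem_comap, RingHom.mem_ker, hψ01]
        exact Ideal.Quotient.eq_zero_iff_mem.mpr (hIm hy)
      exact this hx
    have hi1' : ψ1 i1 = 0 := hker _ (hI (Ideal.mem_map_of_mem _ hi1))
    have e1 : f π * ψ1 r1 = 1 := by
      have := congrArg ψ1 hr1
      rw [map_add, map_mul, hi1', zero_add, map_one] at this
      rw [← this]
      congr 1
      simp only [ψ1, f, RingHom.comp_apply]
      rw [← IsScalarTower.algebraMap_apply O R1 R01, IsScalarTower.algebraMap_apply O R0 R01,
          hψ01]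
    exact key _ (map_mem_valuationSubring_of_integral s hint1 ψ1 V hO1 (hs ▸ htinv) r1) e1

end Proper2

section Colon

variable {R : Type*} [CommRing R] {M : Type*} [AddCommGroup M] [Module R M]

/-- The ideal of all `r` with `r M ⊆ R g`. -/
def genIdeal (g : M) : Ideal R := (Submodule.span R {g}).colon Set.univ

theorem mem_genIdeal {g : M} {r : R} : r ∈ genIdeal g ↔ ∀ x : M, ∃ a : R, a • g = r • x := by
  unfold genIdeal
  rw [Submodule.mem_colon]
  simp only [Set.mem_univ, forall_const, Submodule.mem_span_singleton]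

theorem span_eq_top_of_genIdeal_eq_top {g : M} (h : genIdeal (R := R) g = ⊤) :
    Submodule.span R {g} = ⊤ := by
  rw [eq_top_iff]
  intro x _
  have h1 : (1 : R) ∈ genIdeal g := h ▸ Submodule.mem_top
  obtain ⟨a, ha⟩ := mem_genIdeal.mp h1 x
  rw [one_smul] at ha
  rw [← ha]
  exact Submodule.smul_mem _ _ (Submodule.mem_span_singleton_self g)

/-- Nakayama: if `g` generates `M` modulo `p`, some `1 + p r` lies in `genIdeal g`. -/
theorem exists_mem_genIdeal_of_gen_mod [Module.Finite R M] (g : M) (p : R)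
    (hgen : ∀ x : M, ∃ (a : R) (y : M), x = a • g + p • y) :
    ∃ i ∈ genIdeal (R := R) g, ∃ r : R, i + p * r = 1 := by
  let N : Submodule R M := Submodule.span R {g}
  let Q := M ⧸ N
  have hfg : (⊤ : Submodule R Q).FG := Module.Finite.fg_top
  have hle : (⊤ : Submodule R Q) ≤ Ideal.span {p} • (⊤ : Submodule R Q) := by
    intro q _
    obtain ⟨x, rfl⟩ := Submodule.Quotient.mk_surjective N q
    obtain ⟨a, y, hxy⟩ := hgen x
    have : (Submodule.Quotient.mk x : Q) = p • Submodule.Quotient.mk y := by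
      rw [hxy, Submodule.Quotient.mk_add, Submodule.Quotient.mk_smul, Submodule.Quotient.mk_smul]
      have : (Submodule.Quotient.mk g : Q) = 0 :=
        (Submodule.Quotient.mk_eq_zero N).mpr (Submodule.mem_span_singleton_self g)
      rw [this, smul_zero, zero_add]
    rw [this]
    exact Submodule.smul_mem_smul (Ideal.mem_span_singleton_self p) Submodule.mem_top
  obtain ⟨r, hr1, hr0⟩ :=
    Submodule.exists_sub_one_mem_and_smul_eq_zero_of_fg_of_le_smul _ _ hfg hle
  obtain ⟨c, hc⟩ := Ideal.mem_span_singleton'.mp hr1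
  refine ⟨r, ?_, -c, ?_⟩
  · rw [mem_genIdeal]
    intro x
    have h0 := hr0 (Submodule.Quotient.mk x) Submodule.mem_top
    rw [← Submodule.Quotient.mk_smul, Submodule.Quotient.mk_eq_zero] at h0
    exact Submodule.mem_span_singleton.mp h0
  · linear_combination (-1 : R) * hc

theorem exists_pow_smul_mem_of_fg [Module.Finite R M] (t : R) (N : Submodule R M)
    (h : ∀ x : M, ∃ L : ℕ, t ^ L • x ∈ N) : ∃ L : ℕ, ∀ x : M, t ^ L • x ∈ N := by
  obtain ⟨S, hS⟩ := (Module.Finite.fg_top : (⊤ : Submodule R M).FG)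
  choose Lx hLx using h
  refine ⟨S.sup Lx, fun x => ?_⟩
  have hx : x ∈ Submodule.span R (S : Set M) := hS ▸ Submodule.mem_top
  induction hx using Submodule.span_induction with
  | mem y hy =>
    have hle : Lx y ≤ S.sup Lx := Finset.le_sup (f := Lx) hy
    obtain ⟨d, hd⟩ := Nat.exists_eq_add_of_le hle
    rw [hd, pow_add, mul_comm, mul_smul]
    exact N.smul_mem _ (hLx y)
  | zero => rw [smul_zero]; exact N.zero_mem
  | add a b _ _ ha hb => rw [smul_add]; exact N.add_mem ha hb
  | smul c a _ ha => rw [smul_comm]; exact N.smul_mem _ ha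

variable {R' : Type*} [CommRing R'] [Algebra R R'] {M' : Type*} [AddCommGroup M'] [Module R' M']
  [Module R M'] [IsScalarTower R R' M']

/-- `genIdeal` commutes with localisation, easy direction. -/
theorem exists_smul_eq_of_mem_genIdeal (t : R) [IsLocalization.Away t R'] (ρ : M →ₗ[R] M')
    [IsLocalizedModule (Submonoid.powers t) ρ] {g : M} {r : R} (hr : r ∈ genIdeal g) (x' : M') :
    ∃ a' : R', a' • ρ g = algebraMap R R' r • x' := by
  obtain ⟨⟨x, u⟩, hx⟩ := IsLocalizedModule.surj (Submonoid.powers t) ρ x'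
  obtain ⟨a, ha⟩ := mem_genIdeal.mp hr x
  have hu : IsUnit (algebraMap R R' (u : R)) := IsLocalization.map_units R' u
  obtain ⟨v, hv⟩ := hu.exists_left_inv
  refine ⟨v * algebraMap R R' a, ?_⟩
  have h1 : ρ x = algebraMap R R' (u : R) • x' := by
    rw [← hx, algebraMap_smul]
    rfl
  calc (v * algebraMap R R' a) • ρ g = v • ρ (a • g) := by
        rw [mul_smul, map_smul, algebraMap_smul]
    _ = v • ρ (r • x) := by rw [ha]
    _ = v • (algebraMap R R' r • (algebraMap R R' (u : R) • x')) := by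
        simp only [map_smul, h1, algebraMap_smul]
    _ = (v * algebraMap R R' (u : R)) • (algebraMap R R' r • x') := by
        rw [smul_smul, smul_smul, smul_smul]; congr 1; ring
    _ = algebraMap R R' r • x' := by rw [hv, one_smul]

/-- `genIdeal` commutes with localisation, the direction that uses finite generation. -/
theorem mem_map_genIdeal_of_forall [Module.Finite R M] (t : R) [IsLocalization.Away t R']
    (ρ : M →ₗ[R] M') [IsLocalizedModule (Submonoid.powers t) ρ] {g : M} {r' : R'}
    (hr' : ∀ x' : M', ∃ a' : R', a' • ρ g = r' • x') :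
    r' ∈ (genIdeal (R := R) g).map (algebraMap R R') := by
  obtain ⟨⟨r, u⟩, hru⟩ := IsLocalization.surj (Submonoid.powers t) r'
  -- hru : r' * algebraMap u = algebraMap r
  have hu : IsUnit (algebraMap R R' (u : R)) := IsLocalization.map_units R' u
  have key : ∀ x : M, ∃ L : ℕ, t ^ L • x ∈
      (Submodule.span R {g}).comap (LinearMap.lsmul R M r) := by
    intro x
    obtain ⟨a', ha'⟩ := hr' (ρ x)
    obtain ⟨⟨a, w⟩, haw⟩ := IsLocalization.surj (Submonoid.powers t) a'
    -- ρ ((w * r) • x) = ρ ((u * a) • g)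
    have e : ρ (((w : R) * r) • x) = ρ (((u : R) * a) • g) := by
      rw [map_smul, map_smul, ← algebraMap_smul R' ((w : R) * r), ← algebraMap_smul R' ((u : R) * a),
        map_mul, map_mul, ← hru, ← haw]
      calc (algebraMap R R' (w : R) * (r' * algebraMap R R' (u : R))) • ρ x
          = (algebraMap R R' (w : R) * algebraMap R R' (u : R)) • (r' • ρ x) := by
            rw [smul_smul]; congr 1; ring
        _ = (algebraMap R R' (w : R) * algebraMap R R' (u : R)) • (a' • ρ g) := by rw [ha']
        _ = (algebraMap R R' (u : R) * (a' * algebraMap R R' (w : R))) • ρ g := by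
            rw [smul_smul]; congr 1; ring
    obtain ⟨c, hc⟩ := IsLocalizedModule.exists_of_eq (S := Submonoid.powers t) (f := ρ) e
    obtain ⟨l, hl⟩ := c.2
    obtain ⟨k, hk⟩ := w.2
    have hl' : t ^ l = (c : R) := hl
    have hk' : t ^ k = (w : R) := hk
    have hc' : (c : R) • ((w : R) * r) • x = (c : R) • ((u : R) * a) • g := hc
    refine ⟨l + k, ?_⟩
    rw [Submodule.mem_comap, LinearMap.lsmul_apply]
    have : r • t ^ (l + k) • x = ((c : R) * ((u : R) * a)) • g := by
      rw [mul_smul, ← hc', ← hl', ← hk', smul_smul, smul_smul]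
      congr 1
      rw [pow_add]; ring
    rw [this]
    exact Submodule.smul_mem _ _ (Submodule.mem_span_singleton_self g)
  obtain ⟨L, hL⟩ := exists_pow_smul_mem_of_fg t _ key
  have hmem : t ^ L * r ∈ genIdeal (R := R) g := by
    rw [mem_genIdeal]
    intro x
    have := hL x
    rw [Submodule.mem_comap, LinearMap.lsmul_apply] at this
    obtain ⟨a, ha⟩ := Submodule.mem_span_singleton.mp this
    exact ⟨a, by rw [ha, smul_smul, mul_comm]⟩
  have htL : IsUnit (algebraMap R R' (t ^ L)) :=
    IsLocalization.map_units R' (⟨t ^ L, L, rfl⟩ : Submonoid.powers t)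
  have h2 : r' * (algebraMap R R' (u : R) * algebraMap R R' (t ^ L)) ∈
      (genIdeal (R := R) g).map (algebraMap R R') := by
    have := Ideal.mem_map_of_mem (algebraMap R R') hmem
    rw [map_mul, ← hru] at this
    convert this using 1
    ring
  exact (Ideal.mul_unit_mem_iff_mem _ (hu.mul htL)).mp h2

end Colon

section Torsion

/-- In a noetherian module the `π`-power torsion has bounded exponent. -/
theorem exists_bound_of_noetherian {O : Type*} [CommRing O] {H : Type*} [AddCommGroup H]
    [Module O H] [IsNoetherian O H] (π : O) :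
    ∃ N : ℕ, ∀ (n : ℕ) (x : H), π ^ n • x = 0 → π ^ N • x = 0 := by
  let f : ℕ →o Submodule O H :=
    ⟨fun n => LinearMap.ker (LinearMap.lsmul O H (π ^ n)), by
      intro a b hab x hx
      rw [LinearMap.mem_ker, LinearMap.lsmul_apply] at hx ⊢
      obtain ⟨d, rfl⟩ := Nat.exists_eq_add_of_le hab
      rw [pow_add, mul_comm, mul_smul, hx, smul_zero]⟩
  obtain ⟨N, hN⟩ := (monotone_stabilizes_iff_noetherian.mpr inferInstance) f
  refine ⟨N, fun n x hx => ?_⟩
  rcases le_total N n with h | h
  · have : x ∈ f n := by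
      change x ∈ LinearMap.ker (LinearMap.lsmul O H (π ^ n))
      rw [LinearMap.mem_ker, LinearMap.lsmul_apply]; exact hx
    rw [← hN n h] at this
    change x ∈ LinearMap.ker (LinearMap.lsmul O H (π ^ N)) at this
    rwa [LinearMap.mem_ker, LinearMap.lsmul_apply] at this
  · obtain ⟨d, rfl⟩ := Nat.exists_eq_add_of_le h
    rw [pow_add, mul_comm, mul_smul, hx, smul_zero]

end Torsion

section Main

variable {O : Type*} [CommRing O] [IsLocalRing O]
  {R0 R1 R01 : Type*} [CommRing R0] [CommRing R1] [CommRing R01]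
  [Algebra O R0] [Algebra O R1] [Algebra O R01] [Algebra R0 R01] [Algebra R1 R01]
  [IsScalarTower O R0 R01] [IsScalarTower O R1 R01]
  {M0 M1 M01 : Type*} [AddCommGroup M0] [AddCommGroup M1] [AddCommGroup M01]
  [Module R0 M0] [Module R1 M1] [Module R01 M01] [Module R0 M01] [Module R1 M01]
  [IsScalarTower R0 R01 M01] [IsScalarTower R1 R01 M01]
  [Module.Finite R0 M0] [Module.Finite R1 M1]

/-- A compatible pair of sections generating modulo `π` generates (properness). -/
theorem span_eq_top_of_gen_mod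
    (t : R0) (s : R1) [IsLocalization.Away t R01] [IsLocalization.Away s R01]
    (hts : algebraMap R0 R01 t * algebraMap R1 R01 s = 1)
    (hint0 : ∀ x : R0, IsIntegral (Algebra.adjoin O {t}) x)
    (hint1 : ∀ y : R1, IsIntegral (Algebra.adjoin O {s}) y)
    (π : O) (hπ : π ∈ IsLocalRing.maximalIdeal O)
    (ρ0 : M0 →ₗ[R0] M01) (ρ1 : M1 →ₗ[R1] M01)
    [IsLocalizedModule (Submonoid.powers t) ρ0] [IsLocalizedModule (Submonoid.powers s) ρ1]
    (g0 : M0) (g1 : M1) (hg : ρ0 g0 = ρ1 g1)
    (hgen0 : ∀ x : M0, ∃ (a : R0) (y : M0), x = a • g0 + algebraMap O R0 π • y)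
    (hgen1 : ∀ x : M1, ∃ (a : R1) (y : M1), x = a • g1 + algebraMap O R1 π • y) :
    Submodule.span R0 {g0} = ⊤ ∧ Submodule.span R1 {g1} = ⊤ := by
  have h0 := exists_mem_genIdeal_of_gen_mod g0 (algebraMap O R0 π) hgen0
  have h1 := exists_mem_genIdeal_of_gen_mod g1 (algebraMap O R1 π) hgen1
  have hI10 : (genIdeal (R := R1) g1).map (algebraMap R1 R01) ≤
      (genIdeal (R := R0) g0).map (algebraMap R0 R01) := by
    rw [Ideal.map_le_iff_le_comap]
    intro r hr
    rw [Ideal.mem_comap]
    refine mem_map_genIdeal_of_forall (R' := R01) t ρ0 ?_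
    intro x'
    obtain ⟨a', ha'⟩ := exists_smul_eq_of_mem_genIdeal (R' := R01) s ρ1 hr x'
    exact ⟨a', by rw [hg, ha']⟩
  have hI01 : (genIdeal (R := R0) g0).map (algebraMap R0 R01) ≤
      (genIdeal (R := R1) g1).map (algebraMap R1 R01) := by
    rw [Ideal.map_le_iff_le_comap]
    intro r hr
    rw [Ideal.mem_comap]
    refine mem_map_genIdeal_of_forall (R' := R01) s ρ1 ?_
    intro x'
    obtain ⟨a', ha'⟩ := exists_smul_eq_of_mem_genIdeal (R' := R01) t ρ0 hr x'
    exact ⟨a', by rw [← hg, ha']⟩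
  constructor
  · exact span_eq_top_of_genIdeal_eq_top
      (ideal_eq_top_of_disjoint_special t s hts hint0 hint1 π hπ _ _ hI10 h0 h1)
  · exact span_eq_top_of_genIdeal_eq_top
      (ideal_eq_top_of_disjoint_special s t (by rw [mul_comm]; exact hts) hint1 hint0 π hπ _ _
        hI01 h1 h0)

/-- **Separatedness, sharp one-level form.**  If the `π ^ (N + 1)`-torsion of
`H¹ = M01 / (ρ0 M0 + ρ1 M1)` is killed by `π ^ N`, a trivialisation modulo `π ^ (N + 1)`
(generators modulo `π` which agree modulo `π ^ (N + 1)`) can be corrected to a global one. -/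
theorem exists_generators_of_trivial_mod_pow_succ
    (t : R0) (s : R1) [IsLocalization.Away t R01] [IsLocalization.Away s R01]
    (hts : algebraMap R0 R01 t * algebraMap R1 R01 s = 1)
    (hint0 : ∀ x : R0, IsIntegral (Algebra.adjoin O {t}) x)
    (hint1 : ∀ y : R1, IsIntegral (Algebra.adjoin O {s}) y)
    (π : O) (hπ : π ∈ IsLocalRing.maximalIdeal O)
    (ρ0 : M0 →ₗ[R0] M01) (ρ1 : M1 →ₗ[R1] M01)
    [IsLocalizedModule (Submonoid.powers t) ρ0] [IsLocalizedModule (Submonoid.powers s) ρ1]
    (N : ℕ)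
    (hN : ∀ c : M01, (∃ (a : M0) (b : M1), algebraMap O R01 π ^ (N + 1) • c = ρ0 a - ρ1 b) →
      ∃ (a : M0) (b : M1), algebraMap O R01 π ^ N • c = ρ0 a - ρ1 b)
    (g0 : M0) (g1 : M1) (c : M01)
    (hgen0 : ∀ x : M0, ∃ (a : R0) (y : M0), x = a • g0 + algebraMap O R0 π • y)
    (hgen1 : ∀ x : M1, ∃ (a : R1) (y : M1), x = a • g1 + algebraMap O R1 π • y)
    (hc : ρ0 g0 - ρ1 g1 = algebraMap O R01 π ^ (N + 1) • c) :
    ∃ (a : M0) (b : M1),
      ρ0 (g0 - algebraMap O R0 π • a) = ρ1 (g1 - algebraMap O R1 π • b) ∧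
      Submodule.span R0 {g0 - algebraMap O R0 π • a} = ⊤ ∧
      Submodule.span R1 {g1 - algebraMap O R1 π • b} = ⊤ := by
  obtain ⟨a, b, hab⟩ := hN c ⟨g0, g1, hc.symm⟩
  have e0 : ∀ m : M01, algebraMap O R0 π • m = algebraMap O R01 π • m := by
    intro m
    rw [← algebraMap_smul R01 (algebraMap O R0 π) m, ← IsScalarTower.algebraMap_apply]
  have e1 : ∀ m : M01, algebraMap O R1 π • m = algebraMap O R01 π • m := by
    intro m
    rw [← algebraMap_smul R01 (algebraMap O R1 π) m, ← IsScalarTower.algebraMap_apply]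
  have hg : ρ0 (g0 - algebraMap O R0 π • a) = ρ1 (g1 - algebraMap O R1 π • b) := by
    rw [map_sub, map_sub, map_smul, map_smul, e0, e1]
    have : ρ0 g0 - ρ1 g1 = algebraMap O R01 π • (ρ0 a - ρ1 b) := by
      rw [hc, ← hab, smul_smul, pow_succ']
    rw [smul_sub] at this
    calc ρ0 g0 - algebraMap O R01 π • ρ0 a
        = (ρ0 g0 - ρ1 g1) - (algebraMap O R01 π • ρ0 a - algebraMap O R01 π • ρ1 b)
          + (ρ1 g1 - algebraMap O R01 π • ρ1 b) := by abel
      _ = ρ1 g1 - algebraMap O R01 π • ρ1 b := by rw [this]; abel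
  refine ⟨a, b, hg, span_eq_top_of_gen_mod t s hts hint0 hint1 π hπ ρ0 ρ1 _ _ hg ?_ ?_⟩
  · intro x
    obtain ⟨r, y, hxy⟩ := hgen0 x
    refine ⟨r, r • a + y, ?_⟩
    rw [hxy]
    module
  · intro x
    obtain ⟨r, y, hxy⟩ := hgen1 x
    refine ⟨r, r • b + y, ?_⟩
    rw [hxy]
    module

/-- **Separatedness of the depth filtration** (module form of (R4)).  A diagram
`M0 → M01 ← M1` over a proper two-chart family which is trivial modulo every power of `π`
(generators modulo `π` which agree modulo `π ^ n`), and whose `H¹` has `π`-power torsion of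
bounded exponent, is trivial. -/
theorem exists_generators_of_trivial_mod_pow
    (t : R0) (s : R1) [IsLocalization.Away t R01] [IsLocalization.Away s R01]
    (hts : algebraMap R0 R01 t * algebraMap R1 R01 s = 1)
    (hint0 : ∀ x : R0, IsIntegral (Algebra.adjoin O {t}) x)
    (hint1 : ∀ y : R1, IsIntegral (Algebra.adjoin O {s}) y)
    (π : O) (hπ : π ∈ IsLocalRing.maximalIdeal O)
    (ρ0 : M0 →ₗ[R0] M01) (ρ1 : M1 →ₗ[R1] M01)
    [IsLocalizedModule (Submonoid.powers t) ρ0] [IsLocalizedModule (Submonoid.powers s) ρ1]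
    (hfin : ∃ N : ℕ, ∀ (n : ℕ) (c : M01),
      (∃ (a : M0) (b : M1), algebraMap O R01 π ^ n • c = ρ0 a - ρ1 b) →
        ∃ (a : M0) (b : M1), algebraMap O R01 π ^ N • c = ρ0 a - ρ1 b)
    (htriv : ∀ n : ℕ, ∃ (g0 : M0) (g1 : M1) (c : M01),
      (∀ x : M0, ∃ (a : R0) (y : M0), x = a • g0 + algebraMap O R0 π • y) ∧
      (∀ x : M1, ∃ (a : R1) (y : M1), x = a • g1 + algebraMap O R1 π • y) ∧
      ρ0 g0 - ρ1 g1 = algebraMap O R01 π ^ n • c) :
    ∃ (g0 : M0) (g1 : M1), ρ0 g0 = ρ1 g1 ∧
      Submodule.span R0 {g0} = ⊤ ∧ Submodule.span R1 {g1} = ⊤ := by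
  obtain ⟨N, hN⟩ := hfin
  obtain ⟨g0, g1, c, hgen0, hgen1, hc⟩ := htriv (N + 1)
  obtain ⟨a, b, h⟩ := exists_generators_of_trivial_mod_pow_succ t s hts hint0 hint1 π hπ ρ0 ρ1 N
    (hN (N + 1)) g0 g1 c hgen0 hgen1 hc
  exact ⟨_, _, h⟩

end Main

end Fermat.Agent.M1.Pic2.Separated15
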