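/-
Programme M1 (S44, row 38), chapter PIC, plumbing for the FIELD FORM.  Owner: helper15.
Mathlib only.

Charts in field form are subalgebras `B ≤ C` of a field `F` with `C = B[1/t]` given elementwise
(`t ∈ B`, `t⁻¹ ∈ C`, `∀ x ∈ C, ∃ k, t ^ k * x ∈ B`), and fractional ideals are submodules of `F`.
This file turns such data into the Mathlib typeclasses `IsLocalization.Away`, `IsLocalizedModule`,
`Module.Finite`, and transports integrality over `R[t]` from `F` to the subalgebra.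
-/
import Mathlib

set_option autoImplicit false

namespace Fermat.Agent.M1.Pic2.SubalgLoc15

variable {R F : Type*} [CommRing R] [Field F] [Algebra R F]

/-- The algebra structure on `C` over `B` for subalgebras `B ≤ C`. -/
@[reducible] def inclAlgebra {B C : Subalgebra R F} (h : B ≤ C) : Algebra B C :=
  (Subalgebra.inclusion h).toRingHom.toAlgebra

theorem inclAlgebra_algebraMap_coe {B C : Subalgebra R F} (h : B ≤ C) (b : B) :
    letI := inclAlgebra h
    ((algebraMap B C b : C) : F) = (b : F) := rfl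

/-- `R → B → C` is a scalar tower. -/
theorem isScalarTower_incl {B C : Subalgebra R F} (h : B ≤ C) :
    letI := inclAlgebra h
    IsScalarTower R B C := by
  let _i1 := inclAlgebra h
  exact IsScalarTower.of_algebraMap_eq (fun _ => rfl)

/-- **Localisation of charts in field form.** -/
theorem isLocalization_away_incl {B C : Subalgebra R F} (h : B ≤ C) (t : F) (ht : t ∈ B)
    (ht0 : t ≠ 0) (hinv : t⁻¹ ∈ C) (hov : ∀ x ∈ C, ∃ k : ℕ, t ^ k * x ∈ B) :
    letI := inclAlgebra h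
    IsLocalization.Away (⟨t, ht⟩ : B) C := by
  let _i2 := inclAlgebra h
  refine ⟨?_, ?_, ?_⟩
  · rintro ⟨y, k, rfl⟩
    refine isUnit_iff_exists_inv.mpr ⟨⟨t⁻¹ ^ k, C.pow_mem hinv k⟩, Subtype.ext ?_⟩
    change t ^ k * t⁻¹ ^ k = 1
    rw [← mul_pow, mul_inv_cancel₀ ht0, one_pow]
  · rintro ⟨z, hz⟩
    obtain ⟨k, hk⟩ := hov z hz
    refine ⟨(⟨t ^ k * z, hk⟩, ⟨⟨t, ht⟩ ^ k, k, rfl⟩), Subtype.ext ?_⟩
    change z * t ^ k = t ^ k * z
    ring
  · intro x y hxy
    refine ⟨1, ?_⟩
    have : (x : F) = (y : F) := congrArg (fun z : C => (z : F)) hxy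
    rw [Subtype.ext this]

section Module

variable {B C : Subalgebra R F}

/-- A `C`-submodule of `F` as a `B`-module, `B ≤ C`. -/
@[reducible] def inclModule (h : B ≤ C) (N' : Submodule C F) : Module B N' :=
  Module.compHom N' (Subalgebra.inclusion h).toRingHom

theorem isScalarTower_inclModule (h : B ≤ C) (N' : Submodule C F) :
    letI := inclAlgebra h
    letI := inclModule h N'
    IsScalarTower B C N' := by
  let _i3 := inclAlgebra h
  let _i4 := inclModule h N'
  refine ⟨fun b c x => ?_⟩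
  change ((Subalgebra.inclusion h b) * c) • x = (Subalgebra.inclusion h b) • (c • x)
  rw [mul_smul]

/-- The inclusion of a `B`-submodule `N` of `F` into a `C`-submodule `N'`, as a `B`-linear map. -/
def inclLinear (h : B ≤ C) (N : Submodule B F) (N' : Submodule C F) (hN : ∀ x ∈ N, x ∈ N') :
    letI := inclModule h N'
    N →ₗ[B] N' :=
  let _i5 := inclModule h N'
  { toFun := fun x => ⟨x.1, hN x.1 x.2⟩
    map_add' := fun _ _ => rfl
    map_smul' := fun _ _ => rfl }

theorem inclLinear_coe (h : B ≤ C) (N : Submodule B F) (N' : Submodule C F)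
    (hN : ∀ x ∈ N, x ∈ N') (x : N) : ((inclLinear h N N' hN x : N') : F) = (x : F) := rfl

/-- **Localisation of fractional ideals in field form.** -/
theorem isLocalizedModule_incl (h : B ≤ C) (t : F) (ht : t ∈ B) (ht0 : t ≠ 0) (hinv : t⁻¹ ∈ C)
    (N : Submodule B F) (N' : Submodule C F) (hN : ∀ x ∈ N, x ∈ N')
    (hov : ∀ x ∈ N', ∃ k : ℕ, t ^ k * x ∈ N) :
    letI := inclModule h N'
    IsLocalizedModule (Submonoid.powers (⟨t, ht⟩ : B)) (inclLinear h N N' hN) := by
  let _i6 := inclModule h N'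
  refine ⟨?_, ?_, ?_⟩
  · rintro ⟨y, k, rfl⟩
    rw [Module.End.isUnit_iff]
    constructor
    · intro x y hxy
      have h1 : t ^ k * (x : F) = t ^ k * (y : F) := congrArg (fun z : N' => (z : F)) hxy
      exact Subtype.ext (mul_left_cancel₀ (pow_ne_zero k ht0) h1)
    · intro y
      refine ⟨(⟨t⁻¹ ^ k, C.pow_mem hinv k⟩ : C) • y, Subtype.ext ?_⟩
      change t ^ k * (t⁻¹ ^ k * (y : F)) = (y : F)
      rw [← mul_assoc, ← mul_pow, mul_inv_cancel₀ ht0, one_pow, one_mul]
  · rintro ⟨y, hy⟩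
    obtain ⟨k, hk⟩ := hov y hy
    exact ⟨(⟨t ^ k * y, hk⟩, ⟨⟨t, ht⟩ ^ k, k, rfl⟩), Subtype.ext rfl⟩
  · intro x y hxy
    refine ⟨1, ?_⟩
    have : (x : F) = (y : F) := congrArg (fun z : N' => (z : F)) hxy
    rw [Subtype.ext this]

end Module

/-- A `B`-stable `R`-submodule of `F` as a `B`-submodule. -/
def toSubmodule (B : Subalgebra R F) (I : Submodule R F) (hst : ∀ b ∈ B, ∀ x ∈ I, b * x ∈ I) :
    Submodule B F where
  carrier := I
  add_mem' := I.add_mem
  zero_mem' := I.zero_mem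
  smul_mem' := fun b _ hx => hst b.1 b.2 _ hx

@[simp] theorem mem_toSubmodule (B : Subalgebra R F) (I : Submodule R F)
    (hst : ∀ b ∈ B, ∀ x ∈ I, b * x ∈ I) (x : F) : x ∈ toSubmodule B I hst ↔ x ∈ I := Iff.rfl

/-- Finite generation in field form gives `Module.Finite`. -/
theorem finite_toSubmodule (B : Subalgebra R F) (I : Submodule R F)
    (hst : ∀ b ∈ B, ∀ x ∈ I, b * x ∈ I)
    (hfg : ∃ S : Finset F, (∀ s ∈ S, s ∈ I) ∧
      ∀ x ∈ I, ∃ c : F → F, (∀ s ∈ S, c s ∈ B) ∧ x = ∑ s ∈ S, c s * s) :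
    Module.Finite B (toSubmodule B I hst) := by
  classical
  obtain ⟨S, hS, hgen⟩ := hfg
  refine ⟨⟨S.attach.image (fun s => (⟨s.1, hS s.1 s.2⟩ : toSubmodule B I hst)), ?_⟩⟩
  rw [eq_top_iff]
  rintro ⟨x, hx⟩ -
  obtain ⟨c, hc, hxc⟩ := hgen x hx
  have : (⟨x, hx⟩ : toSubmodule B I hst) =
      ∑ s ∈ S.attach, (⟨c s.1, hc s.1 s.2⟩ : B) • (⟨s.1, hS s.1 s.2⟩ : toSubmodule B I hst) := by
    apply Subtype.ext
    rw [Submodule.coe_sum]
    change x = ∑ s ∈ S.attach, c s.1 * s.1
    rw [hxc, ← Finset.sum_attach S (fun s => c s * s)]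
  rw [this]
  refine Submodule.sum_mem _ fun s _ => Submodule.smul_mem _ _ (Submodule.subset_span ?_)
  exact Finset.mem_coe.mpr (Finset.mem_image.mpr ⟨s, Finset.mem_attach _ _, rfl⟩)

/-- Transport of integrality over `R[t]` from the field to the chart. -/
theorem isIntegral_adjoin_subtype (B : Subalgebra R F) {t x : F} (ht : t ∈ B) (hx : x ∈ B)
    (h : IsIntegral (Algebra.adjoin R {t}) x) :
    IsIntegral (Algebra.adjoin R {(⟨t, ht⟩ : B)}) (⟨x, hx⟩ : B) := by
  obtain ⟨p, hmonic, hroot⟩ := h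
  -- every element of `R[t] ⊆ F` comes from `R[⟨t, ht⟩] ⊆ B`
  have hmap : (Algebra.adjoin R {(⟨t, ht⟩ : B)}).map B.val = Algebra.adjoin R {t} := by
    rw [AlgHom.map_adjoin]
    simp
  have hlift : ∀ y : Algebra.adjoin R {t}, ∃ z : Algebra.adjoin R {(⟨t, ht⟩ : B)},
      ((z : B) : F) = (y : F) := by
    rintro ⟨y, hy⟩
    rw [← hmap] at hy
    obtain ⟨z, hz, rfl⟩ := hy
    exact ⟨⟨z, hz⟩, rfl⟩
  choose φ hφ using hlift
  -- `φ` is a ring homomorphism because `B → F` is injective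
  let φr : Algebra.adjoin R {t} →+* Algebra.adjoin R {(⟨t, ht⟩ : B)} :=
    { toFun := φ
      map_one' := Subtype.ext (Subtype.ext (by rw [hφ]; rfl))
      map_mul' := fun a b => Subtype.ext (Subtype.ext (by
        change ((φ (a * b) : B) : F) = ((φ a : B) : F) * ((φ b : B) : F)
        rw [hφ, hφ, hφ]; rfl))
      map_zero' := Subtype.ext (Subtype.ext (by rw [hφ]; rfl))
      map_add' := fun a b => Subtype.ext (Subtype.ext (by
        change ((φ (a + b) : B) : F) = ((φ a : B) : F) + ((φ b : B) : F)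
        rw [hφ, hφ, hφ]; rfl)) }
  refine ⟨p.map φr, hmonic.map φr, ?_⟩
  apply Subtype.val_injective
  change B.val.toRingHom (Polynomial.eval₂ _ _ _) = B.val.toRingHom 0
  rw [map_zero, Polynomial.hom_eval₂, Polynomial.eval₂_map]
  rw [← hroot]
  congr 1
  ext y
  exact hφ y

end Fermat.Agent.M1.Pic2.SubalgLoc15
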