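/-
Programme M1 (S44, row 38), chapter PIC, brick (R4) in FIELD FORM.  Owner: helper15.

* `exists_torsion_bound_field` : (fin).  If `I0` is finite over `R[t]` (N34's `fin0` pattern) and
  `R` is noetherian, then `I01 = I0 + I1 + (finite R-module)`, hence the `π`-power torsion of
  `H¹ = I01 / (I0 + I1)` has bounded exponent.
* `exists_generator_field_succ` : separatedness, field form of
  `Separated15.exists_generators_of_trivial_mod_pow_succ`: charts `B0, B1 ≤ B01 ⊆ F`,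
  fractional ideals `I0, I1 ≤ I01 ⊆ F`, all hypotheses elementwise.
* `exists_generator_field` : the `∀ n` form with (fin) plugged in.
-/
import Mathlib
import Fermat.Agent.M1.Pic2.Separated15
import Fermat.Agent.M1.Pic2.SubalgLoc15

set_option autoImplicit false
set_option linter.style.haveILetI false

namespace Fermat.Agent.M1.Pic2.SeparatedField15

open Polynomial

section Fin

variable {R F : Type*} [CommRing R] [Field F] [Algebra R F]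

/-- `ℤ`-powers of `t` times a generator land in `I0`, `I1`, or the finite window. -/
theorem zpow_mul_mem_sup (t : F) (I0 I1 : Submodule R F)
    (hR0 : ∀ x ∈ I0, t * x ∈ I0) (hR1 : ∀ x ∈ I1, t⁻¹ * x ∈ I1)
    (f : F) (hf : f ∈ I0) (m : ℕ) (hm : t⁻¹ ^ m * f ∈ I1) (G : Submodule R F)
    (hG : ∀ a : ℕ, a < m → t⁻¹ ^ a * f ∈ G) (e : ℤ) :
    t ^ e * f ∈ I0 ⊔ I1 ⊔ G := by
  have h0 : ∀ k : ℕ, t ^ k * f ∈ I0 := by
    intro k
    induction k with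
    | zero => simpa using hf
    | succ k ih =>
      rw [pow_succ', mul_assoc]
      exact hR0 _ ih
  have h1 : ∀ k : ℕ, t⁻¹ ^ (m + k) * f ∈ I1 := by
    intro k
    induction k with
    | zero => simpa using hm
    | succ k ih =>
      rw [← add_assoc, pow_succ', mul_assoc]
      exact hR1 _ ih
  rcases le_or_gt 0 e with he | he
  · obtain ⟨k, rfl⟩ := Int.eq_ofNat_of_zero_le he
    rw [zpow_natCast]
    exact Submodule.mem_sup_left (Submodule.mem_sup_left (h0 k))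
  · obtain ⟨a, ha⟩ : ∃ a : ℕ, e = -(a : ℤ) := ⟨(-e).toNat, by omega⟩
    have e1 : t ^ e = t⁻¹ ^ a := by
      rw [ha, zpow_neg, zpow_natCast, inv_pow]
    rw [e1]
    rcases lt_or_ge a m with h | h
    · exact Submodule.mem_sup_right (hG a h)
    · obtain ⟨k, rfl⟩ := Nat.exists_eq_add_of_le h
      exact Submodule.mem_sup_left (Submodule.mem_sup_right (h1 k))

/-- **(fin) in field form**: if `I0` is finite over `R[t]` and `R` is noetherian, the `π`-power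
torsion of `H¹ = I01 / (I0 + I1)` has bounded exponent. -/
theorem exists_torsion_bound_field [IsNoetherianRing R] (π : R) (t : F) (ht : t ≠ 0)
    (I0 I1 I01 : Submodule R F)
    (hR0 : ∀ x ∈ I0, t * x ∈ I0) (hR1 : ∀ x ∈ I1, t⁻¹ * x ∈ I1)
    (gl1 : ∀ x ∈ I0, ∃ k : ℕ, t⁻¹ ^ k * x ∈ I1)
    (gl0 : ∀ x ∈ I01, ∃ k : ℕ, t ^ k * x ∈ I0)
    (fin0 : ∃ (r : ℕ) (f : Fin r → F), (∀ j, f j ∈ I0) ∧
      ∀ x ∈ I0, ∃ P : Fin r → R[X], x = ∑ j, aeval t (P j) * f j) :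
    ∃ N : ℕ, ∀ (n : ℕ), ∀ c ∈ I01,
      (∃ a ∈ I0, ∃ b ∈ I1, algebraMap R F π ^ n * c = a - b) →
        ∃ a ∈ I0, ∃ b ∈ I1, algebraMap R F π ^ N * c = a - b := by
  classical
  obtain ⟨r, f, hf, hgen⟩ := fin0
  choose mj hmj using fun j => gl1 (f j) (hf j)
  let m : ℕ := Finset.univ.sup mj
  have hm : ∀ j, t⁻¹ ^ m * f j ∈ I1 := by
    intro j
    have hle : mj j ≤ m := Finset.le_sup (f := mj) (Finset.mem_univ j)
    obtain ⟨d, hd⟩ := Nat.exists_eq_add_of_le hle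
    rw [hd, add_comm, pow_add, mul_assoc]
    have : ∀ k : ℕ, ∀ x ∈ I1, t⁻¹ ^ k * x ∈ I1 := by
      intro k
      induction k with
      | zero => intro x hx; simpa using hx
      | succ k ih =>
        intro x hx
        rw [pow_succ', mul_assoc]
        exact hR1 _ (ih x hx)
    exact this d _ (hmj j)
  -- the finite window
  let gen : Finset F := (Finset.univ ×ˢ Finset.range m).image
    (fun ja : Fin r × ℕ => t⁻¹ ^ ja.2 * f ja.1)
  let G : Submodule R F := Submodule.span R (gen : Set F)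
  have hGfg : G.FG := ⟨gen, rfl⟩
  have hG : ∀ j, ∀ a : ℕ, a < m → t⁻¹ ^ a * f j ∈ G := by
    intro j a ha
    apply Submodule.subset_span
    exact Finset.mem_coe.mpr (Finset.mem_image.mpr
      ⟨(j, a), Finset.mem_product.mpr ⟨Finset.mem_univ _, Finset.mem_range.mpr ha⟩, rfl⟩)
  let E : Submodule R F := I0 ⊔ I1
  have hI01 : ∀ c ∈ I01, c ∈ E ⊔ G := by
    intro c hc
    obtain ⟨k, hk⟩ := gl0 c hc
    obtain ⟨P, hP⟩ := hgen _ hk
    have hc' : c = ∑ j, ∑ i ∈ Finset.range ((P j).natDegree + 1),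
        (P j).coeff i • (t ^ ((i : ℤ) - k) * f j) := by
      have : c = t⁻¹ ^ k * (t ^ k * c) := by
        rw [← mul_assoc, ← mul_pow, inv_mul_cancel₀ ht, one_pow, one_mul]
      rw [this, hP, Finset.mul_sum]
      refine Finset.sum_congr rfl fun j _ => ?_
      rw [aeval_eq_sum_range, Finset.sum_mul, Finset.mul_sum]
      refine Finset.sum_congr rfl fun i _ => ?_
      rw [zpow_sub₀ ht, zpow_natCast, zpow_natCast, Algebra.smul_def, Algebra.smul_def, inv_pow]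
      field_simp
    rw [hc']
    refine Submodule.sum_mem _ fun j _ => Submodule.sum_mem _ fun i _ => Submodule.smul_mem _ _ ?_
    exact zpow_mul_mem_sup t I0 I1 hR0 hR1 (f j) (hf j) m (hm j) G (hG j) _
  have hG' : (G.map E.mkQ).FG := hGfg.map _
  have : IsNoetherian R (G.map E.mkQ) := isNoetherian_of_fg_of_noetherian _ hG'
  obtain ⟨N, hN⟩ := Separated15.exists_bound_of_noetherian (H := G.map E.mkQ) π
  have hE : ∀ x : F, x ∈ E ↔ ∃ a ∈ I0, ∃ b ∈ I1, x = a - b := by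
    intro x
    constructor
    · intro hx
      obtain ⟨a, ha, b, hb, rfl⟩ := Submodule.mem_sup.mp hx
      exact ⟨a, ha, -b, I1.neg_mem hb, by ring⟩
    · rintro ⟨a, ha, b, hb, rfl⟩
      exact Submodule.sub_mem _ (Submodule.mem_sup_left ha) (Submodule.mem_sup_right hb)
  refine ⟨N, fun n c hc hn => ?_⟩
  rw [← hE] at hn ⊢
  obtain ⟨e, he, g, hg, rfl⟩ := Submodule.mem_sup.mp (hI01 c hc)
  have hmem : E.mkQ g ∈ G.map E.mkQ := Submodule.mem_map_of_mem hg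
  have h1 : π ^ n • (⟨E.mkQ g, hmem⟩ : G.map E.mkQ) = 0 := by
    apply Subtype.ext
    change π ^ n • E.mkQ g = 0
    rw [← map_smul, Submodule.mkQ_apply, Submodule.Quotient.mk_eq_zero]
    have : π ^ n • g = algebraMap R F π ^ n * (e + g) - π ^ n • e := by
      rw [Algebra.smul_def, Algebra.smul_def, map_pow]; ring
    rw [this]
    exact Submodule.sub_mem _ hn (Submodule.smul_mem _ _ he)
  have h2 := hN n _ h1
  have h3 : π ^ N • g ∈ E := by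
    have := congrArg (fun z : G.map E.mkQ => (z : F ⧸ E)) h2
    change π ^ N • E.mkQ g = 0 at this
    rwa [← map_smul, Submodule.mkQ_apply, Submodule.Quotient.mk_eq_zero] at this
  have : algebraMap R F π ^ N * (e + g) = π ^ N • e + π ^ N • g := by
    rw [Algebra.smul_def, Algebra.smul_def, map_pow]; ring
  rw [this]
  exact Submodule.add_mem _ (Submodule.smul_mem _ _ he) h3

end Fin

section Main

open SubalgLoc15 Separated15

variable {R F : Type*} [CommRing R] [IsLocalRing R] [Field F] [Algebra R F]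

set_option maxHeartbeats 2000000 in
-- many local instances (charts in field form as rings and modules): instance search is slow
/-- **Separatedness in field form**, sharp one-level version.  Charts `B0, B1 ≤ B01` in a field
`F` (`B01 = B0[1/t] = B1[t]`, `B0` integral over `R[t]`, `B1` over `R[t⁻¹]`), fractional ideals
`I0, I1 ≤ I01` (stable under `B0, B1, B01`, finitely generated, `I01 = I0[1/t] = I1[t]`).
If the `π ^ (N + 1)`-torsion of `I01 / (I0 + I1)` is killed by `π ^ N`, and `g0 ∈ I0`, `g1 ∈ I1`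
generate modulo `π` and agree modulo `π ^ (N + 1) I01`, then `g0 - π a = g1 - π b` generates both
`I0` and `I1`, for suitable `a ∈ I0`, `b ∈ I1`. -/
theorem exists_generator_field_succ
    (π : R) (hπ : π ∈ IsLocalRing.maximalIdeal R)
    (t : F) (ht : t ≠ 0) (B0 B1 B01 : Subalgebra R F)
    (h0 : B0 ≤ B01) (h1 : B1 ≤ B01) (ht0 : t ∈ B0) (ht1 : t⁻¹ ∈ B1)
    (int0 : ∀ x ∈ B0, IsIntegral (Algebra.adjoin R {t}) x)
    (int1 : ∀ x ∈ B1, IsIntegral (Algebra.adjoin R {t⁻¹}) x)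
    (ov0 : ∀ x ∈ B01, ∃ k : ℕ, t ^ k * x ∈ B0)
    (ov1 : ∀ x ∈ B01, ∃ k : ℕ, t⁻¹ ^ k * x ∈ B1)
    (I0 I1 I01 : Submodule R F)
    (st0 : ∀ b ∈ B0, ∀ x ∈ I0, b * x ∈ I0) (st1 : ∀ b ∈ B1, ∀ x ∈ I1, b * x ∈ I1)
    (st01 : ∀ b ∈ B01, ∀ x ∈ I01, b * x ∈ I01)
    (le0 : ∀ x ∈ I0, x ∈ I01) (le1 : ∀ x ∈ I1, x ∈ I01)
    (gl0 : ∀ x ∈ I01, ∃ k : ℕ, t ^ k * x ∈ I0)
    (gl1 : ∀ x ∈ I01, ∃ k : ℕ, t⁻¹ ^ k * x ∈ I1)
    (fg0 : ∃ S : Finset F, (∀ s ∈ S, s ∈ I0) ∧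
      ∀ x ∈ I0, ∃ c : F → F, (∀ s ∈ S, c s ∈ B0) ∧ x = ∑ s ∈ S, c s * s)
    (fg1 : ∃ S : Finset F, (∀ s ∈ S, s ∈ I1) ∧
      ∀ x ∈ I1, ∃ c : F → F, (∀ s ∈ S, c s ∈ B1) ∧ x = ∑ s ∈ S, c s * s)
    (N : ℕ)
    (hN : ∀ c ∈ I01, (∃ a ∈ I0, ∃ b ∈ I1, algebraMap R F π ^ (N + 1) * c = a - b) →
      ∃ a ∈ I0, ∃ b ∈ I1, algebraMap R F π ^ N * c = a - b)
    (g0 g1 c : F) (hg0 : g0 ∈ I0) (hg1 : g1 ∈ I1) (hc : c ∈ I01)
    (hgen0 : ∀ x ∈ I0, ∃ b ∈ B0, ∃ y ∈ I0, x = b * g0 + algebraMap R F π * y)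
    (hgen1 : ∀ x ∈ I1, ∃ b ∈ B1, ∃ y ∈ I1, x = b * g1 + algebraMap R F π * y)
    (hgc : g0 - g1 = algebraMap R F π ^ (N + 1) * c) :
    ∃ a ∈ I0, ∃ b ∈ I1,
      g0 - algebraMap R F π * a = g1 - algebraMap R F π * b ∧
      (∀ x ∈ I0, ∃ r ∈ B0, x = r * (g0 - algebraMap R F π * a)) ∧
      (∀ x ∈ I1, ∃ r ∈ B1, x = r * (g1 - algebraMap R F π * b)) := by
  letI alg0 : Algebra B0 B01 := inclAlgebra h0
  letI alg1 : Algebra B1 B01 := inclAlgebra h1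
  haveI tow0 : IsScalarTower R B0 B01 := isScalarTower_incl h0
  haveI tow1 : IsScalarTower R B1 B01 := isScalarTower_incl h1
  let t0 : B0 := ⟨t, ht0⟩
  let s1 : B1 := ⟨t⁻¹, ht1⟩
  haveI loc0 : IsLocalization.Away t0 B01 :=
    isLocalization_away_incl h0 t ht0 ht (h1 ht1) ov0
  haveI loc1 : IsLocalization.Away s1 B01 :=
    isLocalization_away_incl h1 t⁻¹ ht1 (inv_ne_zero ht) (by rw [inv_inv]; exact h0 ht0) ov1
  have hts : algebraMap B0 B01 t0 * algebraMap B1 B01 s1 = 1 :=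
    Subtype.ext (mul_inv_cancel₀ ht)
  have hint0 : ∀ x : B0, IsIntegral (Algebra.adjoin R {t0}) x := fun x =>
    isIntegral_adjoin_subtype B0 ht0 x.2 (int0 x.1 x.2)
  have hint1 : ∀ x : B1, IsIntegral (Algebra.adjoin R {s1}) x := fun x =>
    isIntegral_adjoin_subtype B1 ht1 x.2 (int1 x.1 x.2)
  let N0 : Submodule B0 F := toSubmodule B0 I0 st0
  let N1 : Submodule B1 F := toSubmodule B1 I1 st1
  let N01 : Submodule B01 F := toSubmodule B01 I01 st01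
  letI mod0 : Module B0 N01 := inclModule h0 N01
  letI mod1 : Module B1 N01 := inclModule h1 N01
  haveI st0' : IsScalarTower B0 B01 N01 := isScalarTower_inclModule h0 N01
  haveI st1' : IsScalarTower B1 B01 N01 := isScalarTower_inclModule h1 N01
  haveI fin0 : Module.Finite B0 N0 := finite_toSubmodule B0 I0 st0 fg0
  haveI fin1 : Module.Finite B1 N1 := finite_toSubmodule B1 I1 st1 fg1
  let ρ0 : N0 →ₗ[B0] N01 := inclLinear h0 N0 N01 le0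
  let ρ1 : N1 →ₗ[B1] N01 := inclLinear h1 N1 N01 le1
  haveI lm0 : IsLocalizedModule (Submonoid.powers t0) ρ0 :=
    isLocalizedModule_incl h0 t ht0 ht (h1 ht1) N0 N01 le0 gl0
  haveI lm1 : IsLocalizedModule (Submonoid.powers s1) ρ1 :=
    isLocalizedModule_incl h1 t⁻¹ ht1 (inv_ne_zero ht) (by rw [inv_inv]; exact h0 ht0) N1 N01 le1
      gl1
  -- the hypotheses of the module form
  have hN' : ∀ c : N01,
      (∃ (a : N0) (b : N1), algebraMap R B01 π ^ (N + 1) • c = ρ0 a - ρ1 b) →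
        ∃ (a : N0) (b : N1), algebraMap R B01 π ^ N • c = ρ0 a - ρ1 b := by
    rintro ⟨c, hc⟩ ⟨⟨a, ha⟩, ⟨b, hb⟩, hab⟩
    have hab' : algebraMap R F π ^ (N + 1) * c = a - b :=
      congrArg (fun z : N01 => (z : F)) hab
    obtain ⟨a', ha', b', hb', h'⟩ := hN c hc ⟨a, ha, b, hb, hab'⟩
    exact ⟨⟨a', ha'⟩, ⟨b', hb'⟩, Subtype.ext h'⟩
  have hgen0' : ∀ x : N0, ∃ (a : B0) (y : N0), x = a • (⟨g0, hg0⟩ : N0) + algebraMap R B0 π • y := by
    rintro ⟨x, hx⟩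
    obtain ⟨b, hb, y, hy, hxy⟩ := hgen0 x hx
    exact ⟨⟨b, hb⟩, ⟨y, hy⟩, Subtype.ext hxy⟩
  have hgen1' : ∀ x : N1, ∃ (a : B1) (y : N1), x = a • (⟨g1, hg1⟩ : N1) + algebraMap R B1 π • y := by
    rintro ⟨x, hx⟩
    obtain ⟨b, hb, y, hy, hxy⟩ := hgen1 x hx
    exact ⟨⟨b, hb⟩, ⟨y, hy⟩, Subtype.ext hxy⟩
  have hc' : ρ0 (⟨g0, hg0⟩ : N0) - ρ1 (⟨g1, hg1⟩ : N1) =
      algebraMap R B01 π ^ (N + 1) • (⟨c, hc⟩ : N01) := Subtype.ext hgc
  obtain ⟨⟨a, ha⟩, ⟨b, hb⟩, hab, hs0, hs1⟩ :=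
    exists_generators_of_trivial_mod_pow_succ (O := R) (R0 := B0) (R1 := B1) (R01 := B01)
      (M0 := N0) (M1 := N1) (M01 := N01) t0 s1 hts hint0 hint1 π hπ ρ0 ρ1 N hN'
      ⟨g0, hg0⟩ ⟨g1, hg1⟩ ⟨c, hc⟩ hgen0' hgen1' hc'
  refine ⟨a, ha, b, hb, congrArg (fun z : N01 => (z : F)) hab, ?_, ?_⟩
  · intro x hx
    have hmem : (⟨x, hx⟩ : N0) ∈ Submodule.span B0
        {(⟨g0, hg0⟩ : N0) - algebraMap R B0 π • (⟨a, ha⟩ : N0)} := by
      rw [hs0]; exact Submodule.mem_top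
    obtain ⟨r, hr⟩ := Submodule.mem_span_singleton.mp hmem
    exact ⟨r.1, r.2, (congrArg (fun z : N0 => (z : F)) hr).symm⟩
  · intro x hx
    have hmem : (⟨x, hx⟩ : N1) ∈ Submodule.span B1
        {(⟨g1, hg1⟩ : N1) - algebraMap R B1 π • (⟨b, hb⟩ : N1)} := by
      rw [hs1]; exact Submodule.mem_top
    obtain ⟨r, hr⟩ := Submodule.mem_span_singleton.mp hmem
    exact ⟨r.1, r.2, (congrArg (fun z : N1 => (z : F)) hr).symm⟩

end Main

section Final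

variable {R F : Type*} [CommRing R] [IsLocalRing R] [IsNoetherianRing R] [Field F] [Algebra R F]

/-- **Separatedness in field form**, `∀ n` version, with (fin) supplied by
`exists_torsion_bound_field`: a pair of fractional ideals which is trivial modulo `π ^ n` for every
`n` is trivial. -/
theorem exists_generator_field
    (π : R) (hπ : π ∈ IsLocalRing.maximalIdeal R)
    (t : F) (ht : t ≠ 0) (B0 B1 B01 : Subalgebra R F)
    (h0 : B0 ≤ B01) (h1 : B1 ≤ B01) (ht0 : t ∈ B0) (ht1 : t⁻¹ ∈ B1)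
    (int0 : ∀ x ∈ B0, IsIntegral (Algebra.adjoin R {t}) x)
    (int1 : ∀ x ∈ B1, IsIntegral (Algebra.adjoin R {t⁻¹}) x)
    (ov0 : ∀ x ∈ B01, ∃ k : ℕ, t ^ k * x ∈ B0)
    (ov1 : ∀ x ∈ B01, ∃ k : ℕ, t⁻¹ ^ k * x ∈ B1)
    (I0 I1 I01 : Submodule R F)
    (st0 : ∀ b ∈ B0, ∀ x ∈ I0, b * x ∈ I0) (st1 : ∀ b ∈ B1, ∀ x ∈ I1, b * x ∈ I1)
    (st01 : ∀ b ∈ B01, ∀ x ∈ I01, b * x ∈ I01)
    (le0 : ∀ x ∈ I0, x ∈ I01) (le1 : ∀ x ∈ I1, x ∈ I01)
    (gl0 : ∀ x ∈ I01, ∃ k : ℕ, t ^ k * x ∈ I0)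
    (gl1 : ∀ x ∈ I01, ∃ k : ℕ, t⁻¹ ^ k * x ∈ I1)
    (fg0 : ∃ S : Finset F, (∀ s ∈ S, s ∈ I0) ∧
      ∀ x ∈ I0, ∃ c : F → F, (∀ s ∈ S, c s ∈ B0) ∧ x = ∑ s ∈ S, c s * s)
    (fg1 : ∃ S : Finset F, (∀ s ∈ S, s ∈ I1) ∧
      ∀ x ∈ I1, ∃ c : F → F, (∀ s ∈ S, c s ∈ B1) ∧ x = ∑ s ∈ S, c s * s)
    (fin0 : ∃ (r : ℕ) (f : Fin r → F), (∀ j, f j ∈ I0) ∧
      ∀ x ∈ I0, ∃ P : Fin r → R[X], x = ∑ j, aeval t (P j) * f j)
    (htriv : ∀ n : ℕ, ∃ g0 ∈ I0, ∃ g1 ∈ I1, ∃ c ∈ I01,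
      (∀ x ∈ I0, ∃ b ∈ B0, ∃ y ∈ I0, x = b * g0 + algebraMap R F π * y) ∧
      (∀ x ∈ I1, ∃ b ∈ B1, ∃ y ∈ I1, x = b * g1 + algebraMap R F π * y) ∧
      g0 - g1 = algebraMap R F π ^ n * c) :
    ∃ g : F, g ∈ I0 ∧ g ∈ I1 ∧ (∀ x ∈ I0, ∃ r ∈ B0, x = r * g) ∧ (∀ x ∈ I1, ∃ r ∈ B1, x = r * g) := by
  obtain ⟨N, hN⟩ := exists_torsion_bound_field π t ht I0 I1 I01
    (fun x hx => st0 t ht0 x hx) (fun x hx => st1 t⁻¹ ht1 x hx)
    (fun x hx => gl1 x (le0 x hx)) gl0 fin0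
  obtain ⟨g0, hg0, g1, hg1, c, hc, hgen0, hgen1, hgc⟩ := htriv (N + 1)
  obtain ⟨a, ha, b, hb, hab, hs0, hs1⟩ := exists_generator_field_succ π hπ t ht B0 B1 B01 h0 h1
    ht0 ht1 int0 int1 ov0 ov1 I0 I1 I01 st0 st1 st01 le0 le1 gl0 gl1 fg0 fg1 N (hN (N + 1))
    g0 g1 c hg0 hg1 hc hgen0 hgen1 hgc
  refine ⟨g0 - algebraMap R F π * a, ?_, ?_, hs0, ?_⟩
  · exact I0.sub_mem hg0 (st0 _ (B0.algebraMap_mem π) a ha)
  · rw [hab]
    exact I1.sub_mem hg1 (st1 _ (B1.algebraMap_mem π) b hb)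
  · rw [hab]
    exact hs1

end Final

end Fermat.Agent.M1.Pic2.SeparatedField15
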