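/-
M1 / chapter PIC (helper60): the FINAL pair-level statements (T5), (T7) of the TRI contract.

Notation of `Defs60`: charts `B0, B1 ≤ B01 ⊆ F`, `ϖ ∈ R`, `(p : F) = ϖ ^ e * υ`, a line pair `P`,
`Level ϖ n P` = `P` trivial modulo `ϖ ^ n`, `HasLead ϖ n P c` = `c ∈ B01` is a leading
coefficient at level `n`, `Bdry = B0 + B1 + ϖ B01` (`B01 / Bdry = H¹(X_k, O)`).

* `level_of_principal`          : a principal pair `(a B0, a B1)` has every level.
* (T5) `HasLead.pow_mem_Bdry_lt` : `1 ≤ n`, `p n < n + e`, `P ^ p` of level `p n + 1`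
                                    ⟹ `c ^ p ∈ Bdry`  (`[p]` is Frobenius on `grⁿ`);
        `Level.succ_of_pow_lt`   : … and Frobenius injective on the class of `c` ⟹ level `n + 1`.
* (T7) `Level.succ_of_pow_gt`    : `1 ≤ n`, `n + e < p n`, `P ^ p` of level `n + e + 1`,
                                    `υ` invertible on `B01 / Bdry` ⟹ `P` of level `n + 1`;
        `Level.all_of_pow_gt`    : if `P ^ p` has all levels, so does `P`;
        `exists_generator_of_pow_gt` : … hence (separatedness, helper15) `P` is principal.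
-/
import Mathlib
import Fermat.Agent.M1.Pic2.PowP60
import Fermat.Agent.M1.Pic2.SeparatedField15

set_option autoImplicit false

namespace Fermat.Agent.M1.Pic2.Final60

open Polynomial Fermat.Agent.M1.Pic2.Defs60 Fermat.Agent.M1.Pic2.Lead60
  Fermat.Agent.M1.Pic2.LeadOps60 Fermat.Agent.M1.Pic2.PowP60

variable {R F : Type*} [CommRing R] [Field F] [Algebra R F]
variable {B0 B1 B01 : Subalgebra R F} {ϖ : F} {P : LinePair B0 B1 B01}

/-- a principal pair has every level. -/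
theorem level_of_principal {a : F} (ha : a ≠ 0) (Q : LinePair B0 B1 B01)
    (hQ0 : Q.I0 = scale a (sm B0)) (hQ1 : Q.I1 = scale a (sm B1)) (N : ℕ) : Level ϖ N Q := by
  have hgen : ∀ (B : Subalgebra R F) (I : Submodule R F), I = scale a (sm B) → Gen B I ϖ a := by
    intro B I hI
    refine ⟨?_, a⁻¹, ?_, 0, B.zero_mem, ?_⟩
    · rw [hI]
      exact mem_scale.mpr ⟨1, B.one_mem, mul_one a⟩
    · intro z hz
      rw [hI] at hz
      obtain ⟨y, hy, rfl⟩ := mem_scale.mp hz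
      rw [inv_mul_cancel_left₀ ha]
      exact hy
    · rw [mul_inv_cancel₀ ha, sub_self, mul_zero]
  refine ⟨a, a, hgen B0 Q.I0 hQ0, hgen B1 Q.I1 hQ1, ?_⟩
  rw [sub_self]
  exact Submodule.zero_mem _

variable {p e n : ℕ} {υ c : F}

/-- **(T5), pair level**: in the Frobenius regime the leading coefficient of `P ^ p` is `c ^ p`;
if `P ^ p` is trivial one level further then `c ^ p` dies in `H¹(X_k, O)`. -/
theorem HasLead.pow_mem_Bdry_lt (h : TwoChart ϖ B0 B1 B01) (hp : p.Prime)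
    (hpe : (p : F) = ϖ ^ e * υ) (hυ : υ ∈ B01) (hn : 1 ≤ n) (hlt : p * n < n + e)
    (hc : HasLead ϖ n P c) (hpow : Level ϖ (p * n + 1) (LinePair.npow h.le0 h.le1 P p)) :
    c ^ p ∈ Bdry ϖ B0 B1 B01 :=
  HasLead.mem_Bdry_of_level_succ h (le_trans hn (Nat.le_mul_of_pos_left n hp.pos))
    (HasLead.pow_lt h hp hpe hυ hlt hc) hpow

/-- **(T5), pair level, with Frobenius injectivity as a hypothesis.** -/
theorem Level.succ_of_pow_lt (h : TwoChart ϖ B0 B1 B01) (hp : p.Prime)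
    (hpe : (p : F) = ϖ ^ e * υ) (hυ : υ ∈ B01) (hn : 1 ≤ n) (hlt : p * n < n + e)
    (hc : HasLead ϖ n P c) (hpow : Level ϖ (p * n + 1) (LinePair.npow h.le0 h.le1 P p))
    (hfrob : c ^ p ∈ Bdry ϖ B0 B1 B01 → c ∈ Bdry ϖ B0 B1 B01) : Level ϖ (n + 1) P :=
  HasLead.level_succ h hn hc (hfrob (HasLead.pow_mem_Bdry_lt h hp hpe hυ hn hlt hc hpow))

/-- **(T7), pair level, one step.** -/
theorem Level.succ_of_pow_gt (h : TwoChart ϖ B0 B1 B01) (hp : p.Prime)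
    (hpe : (p : F) = ϖ ^ e * υ) (hυ : υ ∈ B01)
    (hυB : ∀ c ∈ B01, υ * c ∈ Bdry ϖ B0 B1 B01 → c ∈ Bdry ϖ B0 B1 B01)
    (hn : 1 ≤ n) (hgt : n + e < p * n) (hP : Level ϖ n P)
    (hpow : Level ϖ (n + e + 1) (LinePair.npow h.le0 h.le1 P p)) : Level ϖ (n + 1) P := by
  obtain ⟨c, hc⟩ := Level.hasLead h hP
  have h1 : υ * c ∈ Bdry ϖ B0 B1 B01 :=
    HasLead.mem_Bdry_of_level_succ h (le_trans hn (Nat.le_add_right n e))
      (HasLead.pow_gt h hp hpe hυ hn hgt hc) hpow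
  exact HasLead.level_succ h hn hc (hυB c (HasLead.mem hc) h1)

/-- **(T7), pair level**: above the critical level `e / (p - 1)`, if `P ^ p` has every level then
so does `P`. -/
theorem Level.all_of_pow_gt (h : TwoChart ϖ B0 B1 B01) (hp : p.Prime)
    (hpe : (p : F) = ϖ ^ e * υ) (hυ : υ ∈ B01)
    (hυB : ∀ c ∈ B01, υ * c ∈ Bdry ϖ B0 B1 B01 → c ∈ Bdry ϖ B0 B1 B01)
    (hn : 1 ≤ n) (hgt : n + e < p * n) (hP : Level ϖ n P)
    (hpow : ∀ N : ℕ, Level ϖ N (LinePair.npow h.le0 h.le1 P p)) (k : ℕ) :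
    Level ϖ (n + k) P := by
  induction k with
  | zero => exact hP
  | succ k ih =>
    have hgt' : n + k + e < p * (n + k) := by
      have : k ≤ p * k := Nat.le_mul_of_pos_left k hp.pos
      rw [Nat.mul_add]
      omega
    exact Level.succ_of_pow_gt h hp hpe hυ hυB (le_trans hn (Nat.le_add_right n k)) hgt' ih
      (hpow _)

/-- a unit of `R` is invertible on `B01 / Bdry`. -/
theorem unit_mul_mem_Bdry {u : R} (hu : IsUnit u) {c : F}
    (hc : algebraMap R F u * c ∈ Bdry ϖ B0 B1 B01) : c ∈ Bdry ϖ B0 B1 B01 := by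
  obtain ⟨v, hv⟩ := hu.exists_left_inv
  have h1 : c = v • (algebraMap R F u * c) := by
    rw [Algebra.smul_def, ← mul_assoc, ← map_mul, hv, map_one, one_mul]
  rw [h1]
  exact Submodule.smul_mem _ _ hc

section Separated

variable [IsLocalRing R] [IsNoetherianRing R]

/-- **(T7), pair level, final form**: a line pair of level `n > e / (p - 1)` whose `p`-th power
has every level (e.g. is principal) is principal.  Chart hypotheses as in
`SeparatedField15.exists_generator_field` (helper15). -/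
theorem exists_generator_of_pow_gt
    (π : R) (hπ : π ∈ IsLocalRing.maximalIdeal R)
    (h : TwoChart (algebraMap R F π) B0 B1 B01) (hp : p.Prime)
    (hpe : (p : F) = algebraMap R F π ^ e * υ) (hυ : υ ∈ B01)
    (hυB : ∀ c ∈ B01, υ * c ∈ Bdry (algebraMap R F π) B0 B1 B01 →
      c ∈ Bdry (algebraMap R F π) B0 B1 B01)
    (t : F) (ht : t ≠ 0) (ht0 : t ∈ B0) (ht1 : t⁻¹ ∈ B1)
    (int0 : ∀ x ∈ B0, IsIntegral (Algebra.adjoin R {t}) x)
    (int1 : ∀ x ∈ B1, IsIntegral (Algebra.adjoin R {t⁻¹}) x)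
    (ov0 : ∀ x ∈ B01, ∃ k : ℕ, t ^ k * x ∈ B0)
    (ov1 : ∀ x ∈ B01, ∃ k : ℕ, t⁻¹ ^ k * x ∈ B1)
    (gl0 : ∀ x ∈ P.I01, ∃ k : ℕ, t ^ k * x ∈ P.I0)
    (gl1 : ∀ x ∈ P.I01, ∃ k : ℕ, t⁻¹ ^ k * x ∈ P.I1)
    (fg0 : ∃ S : Finset F, (∀ s ∈ S, s ∈ P.I0) ∧
      ∀ x ∈ P.I0, ∃ c : F → F, (∀ s ∈ S, c s ∈ B0) ∧ x = ∑ s ∈ S, c s * s)
    (fg1 : ∃ S : Finset F, (∀ s ∈ S, s ∈ P.I1) ∧
      ∀ x ∈ P.I1, ∃ c : F → F, (∀ s ∈ S, c s ∈ B1) ∧ x = ∑ s ∈ S, c s * s)
    (fin0 : ∃ (r : ℕ) (f : Fin r → F), (∀ j, f j ∈ P.I0) ∧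
      ∀ x ∈ P.I0, ∃ Q : Fin r → R[X], x = ∑ j, aeval t (Q j) * f j)
    (hn : 1 ≤ n) (hgt : n + e < p * n) (hP : Level (algebraMap R F π) n P)
    (hpow : ∀ N : ℕ, Level (algebraMap R F π) N (LinePair.npow h.le0 h.le1 P p)) :
    ∃ g : F, g ∈ P.I0 ∧ g ∈ P.I1 ∧ (∀ x ∈ P.I0, ∃ r ∈ B0, x = r * g) ∧
      (∀ x ∈ P.I1, ∃ r ∈ B1, x = r * g) := by
  have hall : ∀ m : ℕ, Level (algebraMap R F π) m P := by
    intro m
    rcases le_total m n with hmn | hnm
    · -- go down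
      obtain ⟨k, rfl⟩ := Nat.exists_eq_add_of_le hmn
      clear hmn hgt hn
      induction k with
      | zero => exact hP
      | succ k ih =>
        exact ih (Level.of_succ (pi_mem_of_range B01 h.pi_mem) hP)
    · obtain ⟨k, rfl⟩ := Nat.exists_eq_add_of_le hnm
      exact Level.all_of_pow_gt h hp hpe hυ hυB hn hgt hP hpow k
  refine SeparatedField15.exists_generator_field π hπ t ht B0 B1 B01 h.le0 h.le1 ht0 ht1
    int0 int1 ov0 ov1 P.I0 P.I1 P.I01 P.stable0 P.stable1 (fun b hb x hx => P.stable01 hb hx)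
    (fun x hx => P.le_I01_0 hx) (fun x hx => P.le_I01_1 hx) gl0 gl1 fg0 fg1 fin0 ?_
  intro m
  obtain ⟨g0, g1, hG0, hG1, hd⟩ := hall m
  obtain ⟨y, hy, hyd⟩ := mem_scale.mp hd
  refine ⟨g0, hG0.1, g1, hG1.1, -y, P.I01.neg_mem hy, ?_, ?_, ?_⟩
  · intro x hx
    obtain ⟨a, ha, z, hz, hxz⟩ := Gen.decomp hG0 P.stable0 hx
    exact ⟨a, ha, z, hz, hxz⟩
  · intro x hx
    obtain ⟨a, ha, z, hz, hxz⟩ := Gen.decomp hG1 P.stable1 hx
    exact ⟨a, ha, z, hz, hxz⟩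
  · rw [mul_neg, hyd]
    ring

end Separated

end Fermat.Agent.M1.Pic2.Final60
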