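/-
Programme M1 (S44, row 38), chapter PIC, brick (R4), ADAPTER to the PIC core objects of helper60
(`Defs60.LinePair`, `Defs60.Level`).  Owner: helper15.

`exists_smul_one_of_forall_level` : **separatedness of the depth filtration `J_n`**.  Over a
noetherian local base `R`, for a two-chart family in N34's shape (`t ∈ B0`, `t⁻¹ ∈ B1`,
`B01 = B0[1/t] = B1[t]`, `B0` integral over `R[t]` and finite over it in the `fin0` form,
`B1` integral over `R[t⁻¹]`, `B0`, `B1` noetherian), a line pair `P` with `Level ϖ n P` for every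
`n` is principal: `P = (LinePair.one).smul a` with `a ≠ 0`.
-/
import Mathlib
import Fermat.Agent.M1.Pic2.Defs60
import Fermat.Agent.M1.Pic2.SeparatedField15

set_option autoImplicit false

namespace Fermat.Agent.M1.Pic2.SeparatedPic15

open Polynomial Defs60

variable {R F : Type*} [CommRing R] [Field F] [Algebra R F]

section Helpers

variable {B0 B1 B01 : Subalgebra R F}

/-- `1 + ϖ b ≠ 0`: the special fibre of the overlap is not empty. -/
theorem one_add_mul_ne_zero [IsLocalRing R] (π : R) (hπ : π ∈ IsLocalRing.maximalIdeal R)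
    (h : TwoChart (algebraMap R F π) B0 B1 B01) {b : F} (hb : b ∈ B01) :
    1 + algebraMap R F π * b ≠ 0 := by
  intro h0
  have h1 : algebraMap R F (-1) = algebraMap R F π * b := by
    rw [map_neg, map_one]
    linear_combination -h0
  obtain ⟨r', hr'⟩ := h.hk (-1) ⟨b, hb, h1⟩
  have h2 : algebraMap R F (1 + π * r') = 0 := by
    rw [map_add, map_one, map_mul, ← hr', map_neg, map_one]
    ring
  have hu : IsUnit (1 + π * r') := by
    by_contra hnu
    have hm : 1 + π * r' ∈ IsLocalRing.maximalIdeal R := (IsLocalRing.mem_maximalIdeal _).mpr hnu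
    have : (1 : R) ∈ IsLocalRing.maximalIdeal R := by
      have h1 : (1 : R) = (1 + π * r') - π * r' := by ring
      rw [h1]
      exact Ideal.sub_mem _ hm (Ideal.mul_mem_right r' _ hπ)
    exact (Ideal.ne_top_iff_one _).mp (IsLocalRing.maximalIdeal.isMaximal R).ne_top this
  have : IsUnit (algebraMap R F (1 + π * r')) := hu.map _
  rw [h2] at this
  exact not_isUnit_zero this

/-- A generator modulo `ϖ` in the sense of `Gen` generates modulo `ϖ` elementwise. -/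
theorem gen_decomp {B : Subalgebra R F} {I : Submodule R F} {ϖ g : F}
    (hst : ∀ b ∈ B, ∀ z ∈ I, b * z ∈ I) (hg : Gen B I ϖ g) :
    ∀ x ∈ I, ∃ b ∈ B, ∃ y ∈ I, x = b * g + ϖ * y := by
  obtain ⟨-, w, hw, b, hb, e⟩ := hg
  intro x hx
  refine ⟨w * x, hw x hx, -(b * x), I.neg_mem (hst b hb x hx), ?_⟩
  linear_combination -x * e

/-- A submodule `I` with a `Gen`-witness over a noetherian chart is finitely generated over the
chart. -/
theorem fg_of_gen [IsLocalRing R] (π : R) (hπ : π ∈ IsLocalRing.maximalIdeal R)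
    (h : TwoChart (algebraMap R F π) B0 B1 B01) {B : Subalgebra R F} (hB : B ≤ B01)
    [IsNoetherianRing B] {I : Submodule R F} (hst : ∀ b ∈ B, ∀ z ∈ I, b * z ∈ I) {g : F}
    (hg : Gen B I (algebraMap R F π) g) :
    (SubalgLoc15.toSubmodule B I hst).FG := by
  obtain ⟨-, w, hw, b, hb, e⟩ := hg
  have hw0 : w ≠ 0 := by
    rintro rfl
    have : 1 + algebraMap R F π * b = 0 := by linear_combination -e
    exact one_add_mul_ne_zero π hπ h (hB hb) this
  let φ : B →ₗ[B] F := LinearMap.toSpanSingleton B F w⁻¹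
  have hφ : ∀ r : B, φ r = (r : F) * w⁻¹ := fun r => rfl
  have hle : SubalgLoc15.toSubmodule B I hst ≤ LinearMap.range φ := by
    intro x hx
    refine ⟨⟨w * x, hw x hx⟩, ?_⟩
    rw [hφ]
    change w * x * w⁻¹ = x
    rw [mul_comm w x, mul_assoc, mul_inv_cancel₀ hw0, mul_one]
  have : SubalgLoc15.toSubmodule B I hst =
      Submodule.map φ (Submodule.comap φ (SubalgLoc15.toSubmodule B I hst)) := by
    rw [Submodule.map_comap_eq, inf_eq_right.mpr hle]
  rw [this]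
  exact Submodule.FG.map φ ((isNoetherianRing_iff_ideal_fg B).mp inferInstance _)

/-- Finite generation over the chart, elementwise. -/
theorem elementwise_of_fg {B : Subalgebra R F} {I : Submodule R F}
    (hst : ∀ b ∈ B, ∀ z ∈ I, b * z ∈ I) (hfg : (SubalgLoc15.toSubmodule B I hst).FG) :
    ∃ S : Finset F, (∀ s ∈ S, s ∈ I) ∧
      ∀ x ∈ I, ∃ c : F → F, (∀ s ∈ S, c s ∈ B) ∧ x = ∑ s ∈ S, c s * s := by
  obtain ⟨S, hS⟩ := hfg
  refine ⟨S, ?_, ?_⟩
  · intro s hs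
    have : s ∈ Submodule.span B (S : Set F) := Submodule.subset_span (Finset.mem_coe.mpr hs)
    rw [hS] at this
    exact this
  · intro x hx
    have hx' : x ∈ Submodule.span B (S : Set F) := by rw [hS]; exact hx
    obtain ⟨f, -, hf⟩ := Submodule.mem_span_finset.mp hx'
    exact ⟨fun s => (f s : F), fun s _ => (f s).2, hf.symm⟩

/-- `I01 = B01 * I0` is `I0[1/t]`. -/
theorem exists_pow_mul_mem {B B' : Subalgebra R F} {I : Submodule R F} (t : F) (ht : t ∈ B)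
    (hst : ∀ b ∈ B, ∀ z ∈ I, b * z ∈ I) (hov : ∀ x ∈ B', ∃ k : ℕ, t ^ k * x ∈ B) :
    ∀ x ∈ sm B' * I, ∃ k : ℕ, t ^ k * x ∈ I := by
  have hpow : ∀ (k : ℕ), ∀ z ∈ I, t ^ k * z ∈ I := fun k z hz => hst _ (B.pow_mem ht k) z hz
  intro x hx
  refine Submodule.mul_induction_on hx ?_ ?_
  · intro b hb z hz
    obtain ⟨k, hk⟩ := hov b hb
    exact ⟨k, by rw [← mul_assoc]; exact hst _ hk z hz⟩
  · rintro x y ⟨k, hk⟩ ⟨l, hl⟩
    refine ⟨k + l, ?_⟩
    have : t ^ (k + l) * (x + y) = t ^ l * (t ^ k * x) + t ^ k * (t ^ l * y) := by ring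
    rw [this]
    exact I.add_mem (hpow l _ hk) (hpow k _ hl)

end Helpers

section Main

variable [IsLocalRing R] [IsNoetherianRing R] {B0 B1 B01 : Subalgebra R F}

/-- **Separatedness of the depth filtration.**  A line pair which is trivial modulo `ϖ ^ n` for
every `n` is principal. -/
theorem exists_smul_one_of_forall_level
    (π : R) (hπ : π ∈ IsLocalRing.maximalIdeal R)
    (h : TwoChart (algebraMap R F π) B0 B1 B01)
    (t : F) (ht : t ≠ 0) (ht0 : t ∈ B0) (ht1 : t⁻¹ ∈ B1)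
    (int0 : ∀ x ∈ B0, IsIntegral (Algebra.adjoin R {t}) x)
    (int1 : ∀ x ∈ B1, IsIntegral (Algebra.adjoin R {t⁻¹}) x)
    (ov0 : ∀ x ∈ B01, ∃ k : ℕ, t ^ k * x ∈ B0)
    (ov1 : ∀ x ∈ B01, ∃ k : ℕ, t⁻¹ ^ k * x ∈ B1)
    [IsNoetherianRing B0] [IsNoetherianRing B1]
    (fin0 : ∃ (r : ℕ) (e : Fin r → F), (∀ i, e i ∈ B0) ∧
      ∀ x ∈ B0, ∃ P : Fin r → R[X], x = ∑ i, aeval t (P i) * e i)
    (P : LinePair B0 B1 B01) (hlevel : ∀ n : ℕ, Level (algebraMap R F π) n P) :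
    ∃ a : F, a ≠ 0 ∧ P.I0 = scale a (sm B0) ∧ P.I1 = scale a (sm B1) := by
  classical
  obtain ⟨γ0, γ1, hγ0, hγ1, -⟩ := hlevel 0
  have fg0 := elementwise_of_fg P.stable0 (fg_of_gen π hπ h h.le0 P.stable0 hγ0)
  have fg1 := elementwise_of_fg P.stable1 (fg_of_gen π hπ h h.le1 P.stable1 hγ1)
  -- `I0` is finite over `R[t]`
  have fin0' : ∃ (r : ℕ) (f : Fin r → F), (∀ j, f j ∈ P.I0) ∧
      ∀ x ∈ P.I0, ∃ Q : Fin r → R[X], x = ∑ j, aeval t (Q j) * f j := by
    obtain ⟨r, e, he, hgen⟩ := fin0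
    obtain ⟨S, hS, hSgen⟩ := fg0
    let m := S.card
    let σ : Fin m → F := fun l => ((S.equivFin.symm l : S) : F)
    have hσ : ∀ l, σ l ∈ P.I0 := fun l => hS _ (S.equivFin.symm l).2
    have hgen' : ∀ x ∈ P.I0, ∃ c : Fin m → F, (∀ l, c l ∈ B0) ∧ x = ∑ l, c l * σ l := by
      intro x hx
      obtain ⟨c, hc, hxc⟩ := hSgen x hx
      refine ⟨fun l => c (σ l), fun l => hc _ (S.equivFin.symm l).2, ?_⟩
      rw [hxc, ← Finset.sum_coe_sort S (fun s => c s * s)]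
      exact (Fintype.sum_equiv S.equivFin.symm (fun l => c (σ l) * σ l)
        (fun s : S => c s * (s : F)) (fun _ => rfl)).symm
    let fpf : Fin r × Fin m ≃ Fin (r * m) := finProdFinEquiv
    refine ⟨r * m, fun j => e (fpf.symm j).1 * σ (fpf.symm j).2, ?_, ?_⟩
    · intro j
      exact P.stable0 _ (he _) _ (hσ _)
    · intro x hx
      obtain ⟨c, hc, hxc⟩ := hgen' x hx
      choose Q hQ using fun l => hgen (c l) (hc l)
      refine ⟨fun j => Q (fpf.symm j).2 (fpf.symm j).1, ?_⟩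
      have key : ∑ j, aeval t (Q (fpf.symm j).2 (fpf.symm j).1) *
            (e (fpf.symm j).1 * σ (fpf.symm j).2) =
          ∑ q : Fin r × Fin m, aeval t (Q q.2 q.1) * (e q.1 * σ q.2) :=
        Fintype.sum_equiv fpf.symm _ (fun q : Fin r × Fin m => aeval t (Q q.2 q.1) *
          (e q.1 * σ q.2)) (fun _ => rfl)
      rw [key, Fintype.sum_prod_type, Finset.sum_comm, hxc]
      refine Finset.sum_congr rfl fun l _ => ?_
      rw [hQ l, Finset.sum_mul]
      refine Finset.sum_congr rfl fun i _ => ?_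
      ring
  have st01 : ∀ b ∈ B01, ∀ x ∈ P.I01, b * x ∈ P.I01 := fun b hb x hx => P.stable01 hb hx
  have gl0 : ∀ x ∈ P.I01, ∃ k : ℕ, t ^ k * x ∈ P.I0 :=
    exists_pow_mul_mem t ht0 P.stable0 ov0
  have gl1 : ∀ x ∈ P.I01, ∃ k : ℕ, t⁻¹ ^ k * x ∈ P.I1 := by
    rw [P.I01_eq']
    exact exists_pow_mul_mem t⁻¹ ht1 P.stable1 ov1
  have htriv : ∀ n : ℕ, ∃ g0 ∈ P.I0, ∃ g1 ∈ P.I1, ∃ c ∈ P.I01,
      (∀ x ∈ P.I0, ∃ b ∈ B0, ∃ y ∈ P.I0, x = b * g0 + algebraMap R F π * y) ∧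
      (∀ x ∈ P.I1, ∃ b ∈ B1, ∃ y ∈ P.I1, x = b * g1 + algebraMap R F π * y) ∧
      g0 - g1 = algebraMap R F π ^ n * c := by
    intro n
    obtain ⟨g0, g1, hg0, hg1, hd⟩ := hlevel n
    obtain ⟨z, hz, hzd⟩ := mem_scale.mp hd
    exact ⟨g0, hg0.1, g1, hg1.1, -z, P.I01.neg_mem hz, gen_decomp P.stable0 hg0,
      gen_decomp P.stable1 hg1, by linear_combination hzd⟩
  obtain ⟨g, hgI0, hgI1, hs0, hs1⟩ := SeparatedField15.exists_generator_field π hπ t ht B0 B1 B01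
    h.le0 h.le1 ht0 ht1 int0 int1 ov0 ov1 P.I0 P.I1 P.I01 P.stable0 P.stable1 st01
    P.le_I01_0 P.le_I01_1 gl0 gl1 fg0 fg1 fin0' htriv
  have hg0 : g ≠ 0 := by
    rintro rfl
    obtain ⟨hγ, w, -, b, hb, e⟩ := hγ0
    obtain ⟨r, -, hr⟩ := hs0 γ0 hγ
    rw [mul_zero] at hr
    rw [hr, zero_mul] at e
    have : 1 + algebraMap R F π * b = 0 := by linear_combination -e
    exact one_add_mul_ne_zero π hπ h (h.le0 hb) this
  refine ⟨g, hg0, ?_, ?_⟩
  · ext x
    rw [mem_scale]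
    constructor
    · intro hx
      obtain ⟨r, hr, rfl⟩ := hs0 x hx
      exact ⟨r, hr, mul_comm _ _⟩
    · rintro ⟨z, hz, rfl⟩
      rw [mul_comm]
      exact P.stable0 z hz g hgI0
  · ext x
    rw [mem_scale]
    constructor
    · intro hx
      obtain ⟨r, hr, rfl⟩ := hs1 x hx
      exact ⟨r, hr, mul_comm _ _⟩
    · rintro ⟨z, hz, rfl⟩
      rw [mul_comm]
      exact P.stable1 z hz g hgI1

/-- The same, as an equality of line pairs. -/
theorem eq_smul_one_of_forall_level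
    (π : R) (hπ : π ∈ IsLocalRing.maximalIdeal R)
    (h : TwoChart (algebraMap R F π) B0 B1 B01)
    (t : F) (ht : t ≠ 0) (ht0 : t ∈ B0) (ht1 : t⁻¹ ∈ B1)
    (int0 : ∀ x ∈ B0, IsIntegral (Algebra.adjoin R {t}) x)
    (int1 : ∀ x ∈ B1, IsIntegral (Algebra.adjoin R {t⁻¹}) x)
    (ov0 : ∀ x ∈ B01, ∃ k : ℕ, t ^ k * x ∈ B0)
    (ov1 : ∀ x ∈ B01, ∃ k : ℕ, t⁻¹ ^ k * x ∈ B1)
    [IsNoetherianRing B0] [IsNoetherianRing B1]
    (fin0 : ∃ (r : ℕ) (e : Fin r → F), (∀ i, e i ∈ B0) ∧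
      ∀ x ∈ B0, ∃ P : Fin r → R[X], x = ∑ i, aeval t (P i) * e i)
    (P : LinePair B0 B1 B01) (hlevel : ∀ n : ℕ, Level (algebraMap R F π) n P) :
    ∃ a : F, a ≠ 0 ∧ P = (LinePair.one h.le0 h.le1).smul a := by
  obtain ⟨a, ha, e0, e1⟩ := exists_smul_one_of_forall_level π hπ h t ht ht0 ht1 int0 int1 ov0 ov1
    fin0 P hlevel
  refine ⟨a, ha, ?_⟩
  obtain ⟨I0, I1, s0, s1, c⟩ := P
  simp only at e0 e1
  subst e0 e1
  rfl

end Main

end Fermat.Agent.M1.Pic2.SeparatedPic15
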