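/-
Programme M1 (S44, row 38), chapter PIC, brick (R5): the TORIC part of `H¹(X_k, O)` of a nodal
two-component special fibre, in "ambient" elementwise form.  Owner: helper15.  Mathlib only.

Ambient commutative ring `Ω` (in the application: the function field `F`), subrings
`B0, B1 ≤ B01` (the charts and their overlap), a subring of constants `k' ≤ B0 ⊓ B1` (the image of
`R`), additive subgroups `I ≤ P1, P2` of `Ω` (in the application `I = π B01`, `Pj = π O_j`, the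
branch "ideals"), with `B01 ∩ P1 ∩ P2 ⊆ I` (the special fibre is reduced with the two components
`C_1, C_2`) and `p B01 ⊆ I`.

`H¹(X_k, O) = B01 / (B0 + B1 + I)`; a class `c` is TORIC if both abelian parts vanish:
`c ∈ B0 + B1 + Pj` for `j = 1, 2`, say `c ≡ a_j + b_j mod Pj`.  The node values of such a class
are `x = (a_1 - a_2)|_Σ0 = -(b_1 - b_2)|_Σ1 ∈ k^Σ`; "vanishing at all nodes of the chart `B_i`" is
membership in `(Pi1 ∩ B_i) + (P2 ∩ B_i)` (`NodeSum`).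

* `ToricSetup.const_of_mem` : if the toric class `c` is trivial in `H¹` then `x` is a constant
  (injectivity of `k^Σ / diag → H¹(X_k, O)`; uses "regular functions on a component are constant").
* `ToricSetup.mem_of_const` : conversely (uses reducedness).
* `ToricSetup.frobenius_injective` : **Frobenius is injective on toric classes**: if `c` is toric
  and `c ^ p` is trivial in `H¹`, then `c` is trivial (uses: node ideals are radical, `k` perfect).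
-/
import Mathlib

set_option autoImplicit false

namespace Fermat.Agent.M1.Pic2.Toric15

variable {Ω : Type*} [CommRing Ω]

/-- `d ∈ (P1 ∩ Bi) + (P2 ∩ Bi)`: "`d` vanishes at all the nodes of the chart `Bi`". -/
def NodeSum (Bi : Subring Ω) (P1 P2 : AddSubgroup Ω) (d : Ω) : Prop :=
  ∃ v1 ∈ P1, ∃ v2 ∈ P2, v1 ∈ Bi ∧ v2 ∈ Bi ∧ d = v1 + v2

namespace NodeSum

variable {Bi : Subring Ω} {P1 P2 : AddSubgroup Ω}

theorem add {d d' : Ω} (h : NodeSum Bi P1 P2 d) (h' : NodeSum Bi P1 P2 d') :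
    NodeSum Bi P1 P2 (d + d') := by
  obtain ⟨v1, h1, v2, h2, m1, m2, rfl⟩ := h
  obtain ⟨w1, k1, w2, k2, n1, n2, rfl⟩ := h'
  exact ⟨v1 + w1, P1.add_mem h1 k1, v2 + w2, P2.add_mem h2 k2, Bi.add_mem m1 n1,
    Bi.add_mem m2 n2, by ring⟩

theorem neg {d : Ω} (h : NodeSum Bi P1 P2 d) : NodeSum Bi P1 P2 (-d) := by
  obtain ⟨v1, h1, v2, h2, m1, m2, rfl⟩ := h
  exact ⟨-v1, P1.neg_mem h1, -v2, P2.neg_mem h2, Bi.neg_mem m1, Bi.neg_mem m2, by ring⟩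

theorem sub {d d' : Ω} (h : NodeSum Bi P1 P2 d) (h' : NodeSum Bi P1 P2 d') :
    NodeSum Bi P1 P2 (d - d') := by
  rw [sub_eq_add_neg]
  exact h.add h'.neg

theorem of_mem_left {d : Ω} (h : d ∈ P1) (hB : d ∈ Bi) : NodeSum Bi P1 P2 d :=
  ⟨d, h, 0, P2.zero_mem, hB, Bi.zero_mem, by ring⟩

theorem of_mem_right {d : Ω} (h : d ∈ P2) (hB : d ∈ Bi) : NodeSum Bi P1 P2 d :=
  ⟨0, P1.zero_mem, d, h, Bi.zero_mem, hB, by ring⟩

theorem mem {d : Ω} (h : NodeSum Bi P1 P2 d) : d ∈ Bi := by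
  obtain ⟨v1, -, v2, -, m1, m2, rfl⟩ := h
  exact Bi.add_mem m1 m2

end NodeSum

/-- Freshman's dream in a subring, modulo `p`. -/
theorem exists_add_pow_prime_eq_mem {p : ℕ} (hp : p.Prime) (S : Subring Ω) {x y : Ω}
    (hx : x ∈ S) (hy : y ∈ S) : ∃ r ∈ S, (x + y) ^ p = x ^ p + y ^ p + (p : Ω) * r := by
  refine ⟨x * y * ∑ k ∈ Finset.Ioo 0 p, x ^ (k - 1) * y ^ (p - k - 1) * ((p.choose k / p : ℕ) : Ω),
    ?_, ?_⟩
  · refine S.mul_mem (S.mul_mem hx hy) (S.sum_mem fun k _ => ?_)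
    exact S.mul_mem (S.mul_mem (S.pow_mem hx _) (S.pow_mem hy _)) (natCast_mem S _)
  · rw [add_pow_prime_eq hp x y]
    ring

/-- The data of the special fibre needed for the toric part of `H¹(X_k, O)`. -/
structure ToricSetup (p : ℕ) (B0 B1 B01 k' : Subring Ω) (I P1 P2 : AddSubgroup Ω) : Prop where
  prime : p.Prime
  le0 : B0 ≤ B01
  le1 : B1 ≤ B01
  k0 : k' ≤ B0
  k1 : k' ≤ B1
  I_le1 : I ≤ P1
  I_le2 : I ≤ P2
  /-- the special fibre is reduced and `C_1 ∪ C_2` is all of it -/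
  inf_le : ∀ x ∈ B01, x ∈ P1 → x ∈ P2 → x ∈ I
  mul1 : ∀ b ∈ B01, ∀ x ∈ P1, b * x ∈ P1
  mul2 : ∀ b ∈ B01, ∀ x ∈ P2, b * x ∈ P2
  /-- residue characteristic `p` -/
  p_mem : ∀ b ∈ B01, (p : Ω) * b ∈ I
  /-- a regular function on the component `C_j` is constant -/
  const1 : ∀ α ∈ B0, ∀ β ∈ B1, α + β ∈ P1 → ∃ r ∈ k', α - r ∈ P1
  const2 : ∀ α ∈ B0, ∀ β ∈ B1, α + β ∈ P2 → ∃ r ∈ k', α - r ∈ P2
  /-- the node ideals of the two charts are radical -/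
  rad0 : ∀ d ∈ B0, NodeSum B0 P1 P2 (d ^ p) → NodeSum B0 P1 P2 d
  rad1 : ∀ d ∈ B1, NodeSum B1 P1 P2 (d ^ p) → NodeSum B1 P1 P2 d
  /-- the residue field is perfect -/
  perf : ∀ r ∈ k', ∃ ρ ∈ k', ρ ^ p - r ∈ I

namespace ToricSetup

variable {p : ℕ} {B0 B1 B01 k' : Subring Ω} {I P1 P2 : AddSubgroup Ω}

/-- **Injectivity of `k^Σ / diag → H¹(X_k, O)`.**  If a toric class `c ≡ a_j + b_j mod Pj` is
trivial in `H¹` (`c ∈ B0 + B1 + I`), its node values are constant: there is a constant `ρ` with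
`a_1 - a_2 = ρ` at all nodes of `B0` and `b_1 - b_2 = -ρ` at all nodes of `B1`. -/
theorem const_of_mem (T : ToricSetup p B0 B1 B01 k' I P1 P2) {c a1 a2 b1 b2 : Ω}
    (ha1 : a1 ∈ B0) (ha2 : a2 ∈ B0) (hb1 : b1 ∈ B1) (hb2 : b2 ∈ B1)
    (h1 : c - a1 - b1 ∈ P1) (h2 : c - a2 - b2 ∈ P2)
    (hc : ∃ a ∈ B0, ∃ b ∈ B1, c - a - b ∈ I) :
    ∃ ρ ∈ k', NodeSum B0 P1 P2 (a1 - a2 - ρ) ∧ NodeSum B1 P1 P2 (b1 - b2 + ρ) := by
  obtain ⟨a, ha, b, hb, hi⟩ := hc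
  have e1 : (a - a1) + (b - b1) ∈ P1 := by
    have : (a - a1) + (b - b1) = (c - a1 - b1) - (c - a - b) := by ring
    rw [this]
    exact P1.sub_mem h1 (T.I_le1 hi)
  have e2 : (a - a2) + (b - b2) ∈ P2 := by
    have : (a - a2) + (b - b2) = (c - a2 - b2) - (c - a - b) := by ring
    rw [this]
    exact P2.sub_mem h2 (T.I_le2 hi)
  obtain ⟨r1, hr1, hr1'⟩ := T.const1 _ (B0.sub_mem ha ha1) _ (B1.sub_mem hb hb1) e1
  obtain ⟨r2, hr2, hr2'⟩ := T.const2 _ (B0.sub_mem ha ha2) _ (B1.sub_mem hb hb2) e2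
  have f1 : b - b1 + r1 ∈ P1 := by
    have : b - b1 + r1 = ((a - a1) + (b - b1)) - (a - a1 - r1) := by ring
    rw [this]
    exact P1.sub_mem e1 hr1'
  have f2 : b - b2 + r2 ∈ P2 := by
    have : b - b2 + r2 = ((a - a2) + (b - b2)) - (a - a2 - r2) := by ring
    rw [this]
    exact P2.sub_mem e2 hr2'
  refine ⟨r2 - r1, k'.sub_mem hr2 hr1, ?_, ?_⟩
  · have : a1 - a2 - (r2 - r1) = (a - a2 - r2) - (a - a1 - r1) := by ring
    rw [this]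
    exact (NodeSum.of_mem_right hr2' (B0.sub_mem (B0.sub_mem ha ha2) (T.k0 hr2))).sub
      (NodeSum.of_mem_left hr1' (B0.sub_mem (B0.sub_mem ha ha1) (T.k0 hr1)))
  · have : b1 - b2 + (r2 - r1) = (b - b2 + r2) - (b - b1 + r1) := by ring
    rw [this]
    exact (NodeSum.of_mem_right f2 (B1.add_mem (B1.sub_mem hb hb2) (T.k1 hr2))).sub
      (NodeSum.of_mem_left f1 (B1.add_mem (B1.sub_mem hb hb1) (T.k1 hr1)))

/-- **Exactness at `k^Σ`, converse direction.**  A toric class with constant node values is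
trivial in `H¹`. -/
theorem mem_of_const (T : ToricSetup p B0 B1 B01 k' I P1 P2) {c a1 a2 b1 b2 ρ : Ω}
    (hc : c ∈ B01) (ha1 : a1 ∈ B0) (hb1 : b1 ∈ B1) (hρ : ρ ∈ k')
    (h1 : c - a1 - b1 ∈ P1) (h2 : c - a2 - b2 ∈ P2)
    (hA : NodeSum B0 P1 P2 (a1 - a2 - ρ)) (hB : NodeSum B1 P1 P2 (b1 - b2 + ρ)) :
    ∃ a ∈ B0, ∃ b ∈ B1, c - a - b ∈ I := by
  obtain ⟨v1, hv1, v2, hv2, mv1, mv2, hv⟩ := hA
  obtain ⟨w1, hw1, w2, hw2, mw1, mw2, hw⟩ := hB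
  refine ⟨a1 - ρ - v1, B0.sub_mem (B0.sub_mem ha1 (T.k0 hρ)) mv1,
    b1 + ρ - w1, B1.sub_mem (B1.add_mem hb1 (T.k1 hρ)) mw1, ?_⟩
  have hmem : c - (a1 - ρ - v1) - (b1 + ρ - w1) ∈ B01 :=
    B01.sub_mem (B01.sub_mem hc (T.le0 (B0.sub_mem (B0.sub_mem ha1 (T.k0 hρ)) mv1)))
      (T.le1 (B1.sub_mem (B1.add_mem hb1 (T.k1 hρ)) mw1))
  apply T.inf_le _ hmem
  · have : c - (a1 - ρ - v1) - (b1 + ρ - w1) = (c - a1 - b1) + v1 + w1 := by ring
    rw [this]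
    exact P1.add_mem (P1.add_mem h1 hv1) hw1
  · have : c - (a1 - ρ - v1) - (b1 + ρ - w1) = (c - a2 - b2) - v2 - w2 := by
      linear_combination -hv - hw
    rw [this]
    exact P2.sub_mem (P2.sub_mem h2 hv2) hw2

/-- `p`-th powers of a congruence modulo a branch. -/
theorem pow_sub_mem (T : ToricSetup p B0 B1 B01 k' I P1 P2) {P : AddSubgroup Ω} (hIP : I ≤ P)
    (hmul : ∀ b ∈ B01, ∀ x ∈ P, b * x ∈ P) {c a b : Ω}
    (hc : c ∈ B01) (ha : a ∈ B0) (hb : b ∈ B1) (h : c - a - b ∈ P) :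
    c ^ p - a ^ p - b ^ p ∈ P := by
  have hp := T.prime
  have ha' := T.le0 ha
  have hb' := T.le1 hb
  have hu : c - a - b ∈ B01 := B01.sub_mem (B01.sub_mem hc ha') hb'
  obtain ⟨r, hr, e⟩ := exists_add_pow_prime_eq_mem hp B01 (B01.add_mem ha' hb') hu
  obtain ⟨r', hr', e'⟩ := exists_add_pow_prime_eq_mem hp B01 ha' hb'
  have hc' : c = (a + b) + (c - a - b) := by ring
  have : c ^ p - a ^ p - b ^ p = (c - a - b) ^ p + ((p : Ω) * r + (p : Ω) * r') := by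
    conv_lhs => rw [hc', e, e']
    ring
  rw [this]
  refine P.add_mem ?_ (P.add_mem (hIP (T.p_mem r hr)) (hIP (T.p_mem r' hr')))
  obtain ⟨n, hn⟩ : ∃ n, p = n + 1 := ⟨p - 1, (Nat.succ_pred_eq_of_pos hp.pos).symm⟩
  rw [hn, pow_succ]
  exact hmul _ (B01.pow_mem hu n) _ h

/-- **Frobenius is injective on toric classes.**  If `c ≡ a_j + b_j mod Pj` (`j = 1, 2`) and
`c ^ p` is trivial in `H¹ = B01 / (B0 + B1 + I)`, then `c` is trivial in `H¹`. -/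
theorem frobenius_injective (T : ToricSetup p B0 B1 B01 k' I P1 P2) {c a1 a2 b1 b2 : Ω}
    (hc : c ∈ B01) (ha1 : a1 ∈ B0) (ha2 : a2 ∈ B0) (hb1 : b1 ∈ B1) (hb2 : b2 ∈ B1)
    (h1 : c - a1 - b1 ∈ P1) (h2 : c - a2 - b2 ∈ P2)
    (hcp : ∃ a ∈ B0, ∃ b ∈ B1, c ^ p - a - b ∈ I) :
    ∃ a ∈ B0, ∃ b ∈ B1, c - a - b ∈ I := by
  have hp := T.prime
  have h1p := T.pow_sub_mem T.I_le1 T.mul1 hc ha1 hb1 h1
  have h2p := T.pow_sub_mem T.I_le2 T.mul2 hc ha2 hb2 h2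
  obtain ⟨ρ', hρ', hA', hB'⟩ := T.const_of_mem (B0.pow_mem ha1 p) (B0.pow_mem ha2 p)
    (B1.pow_mem hb1 p) (B1.pow_mem hb2 p) h1p h2p hcp
  obtain ⟨ρ, hρ, hρρ'⟩ := T.perf ρ' hρ'
  have hρ0 := T.k0 hρ
  have hρ1 := T.k1 hρ
  -- elements of `I` lying in a chart vanish at the nodes
  have hI0 : ∀ x ∈ I, x ∈ B0 → NodeSum B0 P1 P2 x := fun x hx hxB =>
    NodeSum.of_mem_left (T.I_le1 hx) hxB
  have hI1 : ∀ x ∈ I, x ∈ B1 → NodeSum B1 P1 P2 x := fun x hx hxB =>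
    NodeSum.of_mem_left (T.I_le1 hx) hxB
  -- node values of `c` itself are the constant `ρ`
  have hA : NodeSum B0 P1 P2 (a1 - a2 - ρ) := by
    apply T.rad0 _ (B0.sub_mem (B0.sub_mem ha1 ha2) hρ0)
    obtain ⟨r1, hr1, e1⟩ := exists_add_pow_prime_eq_mem hp B0
      (B0.sub_mem (B0.sub_mem ha1 ha2) hρ0) (B0.add_mem ha2 hρ0)
    obtain ⟨r2, hr2, e2⟩ := exists_add_pow_prime_eq_mem hp B0 ha2 hρ0
    have e0 : a1 - a2 - ρ + (a2 + ρ) = a1 := by ring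
    rw [e0, e2] at e1
    have : (a1 - a2 - ρ) ^ p = (a1 ^ p - a2 ^ p - ρ') - (ρ ^ p - ρ') -
        ((p : Ω) * r2 + (p : Ω) * r1) := by
      linear_combination -e1
    rw [this]
    refine (hA'.sub (hI0 _ hρρ' (B0.sub_mem (B0.pow_mem hρ0 p) (T.k0 hρ')))).sub ?_
    refine (hI0 _ (T.p_mem r2 (T.le0 hr2)) ?_).add (hI0 _ (T.p_mem r1 (T.le0 hr1)) ?_)
    · exact B0.mul_mem (natCast_mem B0 p) hr2
    · exact B0.mul_mem (natCast_mem B0 p) hr1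
  have hB : NodeSum B1 P1 P2 (b1 - b2 + ρ) := by
    apply T.rad1 _ (B1.add_mem (B1.sub_mem hb1 hb2) hρ1)
    obtain ⟨r1, hr1, e1⟩ := exists_add_pow_prime_eq_mem hp B1
      (B1.add_mem (B1.sub_mem hb1 hb2) hρ1) hb2
    obtain ⟨r2, hr2, e2⟩ := exists_add_pow_prime_eq_mem hp B1 hb1 hρ1
    have e0 : b1 - b2 + ρ + b2 = b1 + ρ := by ring
    rw [e0, e2] at e1
    have : (b1 - b2 + ρ) ^ p = (b1 ^ p - b2 ^ p + ρ') + (ρ ^ p - ρ') +
        ((p : Ω) * r2 - (p : Ω) * r1) := by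
      linear_combination -e1
    rw [this]
    refine (hB'.add (hI1 _ hρρ' (B1.sub_mem (B1.pow_mem hρ1 p) (T.k1 hρ')))).add ?_
    refine (hI1 _ (T.p_mem r2 (T.le1 hr2)) ?_).sub (hI1 _ (T.p_mem r1 (T.le1 hr1)) ?_)
    · exact B1.mul_mem (natCast_mem B1 p) hr2
    · exact B1.mul_mem (natCast_mem B1 p) hr1
  exact T.mem_of_const hc ha1 hb1 hρ h1 h2 hA hB

end ToricSetup

end Fermat.Agent.M1.Pic2.Toric15
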