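/-
Programme M1 (S44, row 38), chapter PIC, brick (R5) in FIELD FORM.  Owner: helper15.

Instantiates `Toric15.ToricSetup` for a nodal two-chart model in N34's vocabulary: charts
`B0, B1 ≤ B01` (subalgebras of the function field `F` over `R`), Gauss valuation rings `O1, O2`,
`I = π B01`, `Pj = π O_j`, constants `= ` image of `R`.  All hypotheses are elementwise, in the
shapes chapter FIB (helper98, report #546: F2 `sat01`, F4 node ideals, F6 constants) delivers.

* `toricSetup_of_field` : the `ToricSetup`.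
* `frobenius_injective_field` : Frobenius is injective on toric classes of
  `H¹(X_k, O) = B01 / (B0 + B1 + π B01)`.
* `const_of_mem_field`, `mem_of_const_field` : exactness at `k^Σ`.
-/
import Mathlib
import Fermat.Agent.M1.Pic2.Toric15

set_option autoImplicit false

namespace Fermat.Agent.M1.Pic2.ToricField15

open Toric15

variable {F : Type*} [Field F]

/-- `x · S` for an additive subgroup `S` of a field. -/
def mulSub (x : F) (S : AddSubgroup F) : AddSubgroup F where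
  carrier := {y | ∃ c ∈ S, y = x * c}
  zero_mem' := ⟨0, S.zero_mem, by ring⟩
  add_mem' := by
    rintro _ _ ⟨c, hc, rfl⟩ ⟨d, hd, rfl⟩
    exact ⟨c + d, S.add_mem hc hd, by ring⟩
  neg_mem' := by
    rintro _ ⟨c, hc, rfl⟩
    exact ⟨-c, S.neg_mem hc, by ring⟩

theorem mem_mulSub {x : F} {S : AddSubgroup F} {y : F} :
    y ∈ mulSub x S ↔ ∃ c ∈ S, y = x * c := Iff.rfl

variable {R : Type*} [CommRing R] [Algebra R F]

/-- **The toric setup of a nodal two-chart model in field form.** -/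
theorem toricSetup_of_field (p : ℕ) (hp : p.Prime) (π : R) (hπ : algebraMap R F π ≠ 0)
    (B0 B1 B01 : Subalgebra R F) (O1 O2 : ValuationSubring F)
    (h0 : B0 ≤ B01) (h1 : B1 ≤ B01)
    (hO1 : ∀ x ∈ B01, x ∈ O1) (hO2 : ∀ x ∈ B01, x ∈ O2)
    (sat01 : ∀ x ∈ B01, ∀ c : F, x = algebraMap R F π * c → c ∈ O1 → c ∈ O2 → c ∈ B01)
    (hpπ : ∃ u : R, (p : R) = π * u)
    (const1 : ∀ α ∈ B0, ∀ β ∈ B1, (∃ o ∈ O1, α + β = algebraMap R F π * o) →
      ∃ r : R, ∃ o ∈ O1, α - algebraMap R F r = algebraMap R F π * o)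
    (const2 : ∀ α ∈ B0, ∀ β ∈ B1, (∃ o ∈ O2, α + β = algebraMap R F π * o) →
      ∃ r : R, ∃ o ∈ O2, α - algebraMap R F r = algebraMap R F π * o)
    (rad0 : ∀ d ∈ B0,
      NodeSum B0.toSubring (mulSub (algebraMap R F π) O1.toAddSubgroup)
        (mulSub (algebraMap R F π) O2.toAddSubgroup) (d ^ p) →
      NodeSum B0.toSubring (mulSub (algebraMap R F π) O1.toAddSubgroup)
        (mulSub (algebraMap R F π) O2.toAddSubgroup) d)
    (rad1 : ∀ d ∈ B1,
      NodeSum B1.toSubring (mulSub (algebraMap R F π) O1.toAddSubgroup)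
        (mulSub (algebraMap R F π) O2.toAddSubgroup) (d ^ p) →
      NodeSum B1.toSubring (mulSub (algebraMap R F π) O1.toAddSubgroup)
        (mulSub (algebraMap R F π) O2.toAddSubgroup) d)
    (perf : ∀ r : R, ∃ ρ u : R, ρ ^ p - r = π * u) :
    ToricSetup p B0.toSubring B1.toSubring B01.toSubring (algebraMap R F).range
      (mulSub (algebraMap R F π) B01.toSubring.toAddSubgroup)
      (mulSub (algebraMap R F π) O1.toAddSubgroup)
      (mulSub (algebraMap R F π) O2.toAddSubgroup) where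
  prime := hp
  le0 := h0
  le1 := h1
  k0 := by
    rintro _ ⟨r, rfl⟩
    exact B0.algebraMap_mem r
  k1 := by
    rintro _ ⟨r, rfl⟩
    exact B1.algebraMap_mem r
  I_le1 := by
    rintro _ ⟨c, hc, rfl⟩
    exact ⟨c, hO1 c hc, rfl⟩
  I_le2 := by
    rintro _ ⟨c, hc, rfl⟩
    exact ⟨c, hO2 c hc, rfl⟩
  inf_le := by
    rintro x hx ⟨c1, hc1, e1⟩ ⟨c2, hc2, e2⟩
    have : c1 = c2 := mul_left_cancel₀ hπ (e1.symm.trans e2)
    subst this
    exact ⟨c1, sat01 x hx c1 e1 hc1 hc2, e1⟩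
  mul1 := by
    rintro b hb _ ⟨c, hc, rfl⟩
    exact ⟨b * c, O1.mul_mem _ _ (hO1 b hb) hc, by ring⟩
  mul2 := by
    rintro b hb _ ⟨c, hc, rfl⟩
    exact ⟨b * c, O2.mul_mem _ _ (hO2 b hb) hc, by ring⟩
  p_mem := by
    intro b hb
    obtain ⟨u, hu⟩ := hpπ
    refine ⟨algebraMap R F u * b, B01.mul_mem (B01.algebraMap_mem u) hb, ?_⟩
    have : (p : F) = algebraMap R F π * algebraMap R F u := by
      rw [← map_mul, ← hu, map_natCast]
    rw [this]
    ring
  const1 := by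
    intro α hα β hβ h
    obtain ⟨r, o, ho, e⟩ := const1 α hα β hβ h
    exact ⟨algebraMap R F r, ⟨r, rfl⟩, o, ho, e⟩
  const2 := by
    intro α hα β hβ h
    obtain ⟨r, o, ho, e⟩ := const2 α hα β hβ h
    exact ⟨algebraMap R F r, ⟨r, rfl⟩, o, ho, e⟩
  rad0 := rad0
  rad1 := rad1
  perf := by
    rintro _ ⟨r, rfl⟩
    obtain ⟨ρ, u, e⟩ := perf r
    refine ⟨algebraMap R F ρ, ⟨ρ, rfl⟩, algebraMap R F u, B01.algebraMap_mem u, ?_⟩
    rw [← map_pow, ← map_sub, e, map_mul]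

section Corollaries

variable {p : ℕ} {π : R} {B0 B1 B01 : Subalgebra R F} {O1 O2 : ValuationSubring F}

/-- **Frobenius is injective on toric classes**, field form.  `c ∈ B01` with vanishing abelian
parts (`c ≡ a_j + b_j mod π O_j`), and `c ^ p ∈ B0 + B1 + π B01`; then `c ∈ B0 + B1 + π B01`. -/
theorem frobenius_injective_field
    (T : ToricSetup p B0.toSubring B1.toSubring B01.toSubring (algebraMap R F).range
      (mulSub (algebraMap R F π) B01.toSubring.toAddSubgroup)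
      (mulSub (algebraMap R F π) O1.toAddSubgroup)
      (mulSub (algebraMap R F π) O2.toAddSubgroup))
    {c a1 a2 b1 b2 : F} (hc : c ∈ B01) (ha1 : a1 ∈ B0) (ha2 : a2 ∈ B0) (hb1 : b1 ∈ B1)
    (hb2 : b2 ∈ B1)
    (h1 : ∃ o ∈ O1, c - a1 - b1 = algebraMap R F π * o)
    (h2 : ∃ o ∈ O2, c - a2 - b2 = algebraMap R F π * o)
    (hcp : ∃ a ∈ B0, ∃ b ∈ B1, ∃ d ∈ B01, c ^ p - a - b = algebraMap R F π * d) :
    ∃ a ∈ B0, ∃ b ∈ B1, ∃ d ∈ B01, c - a - b = algebraMap R F π * d :=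
  T.frobenius_injective hc ha1 ha2 hb1 hb2 h1 h2 hcp

/-- **Injectivity of `k^Σ / diag → H¹(X_k, O)`**, field form. -/
theorem const_of_mem_field
    (T : ToricSetup p B0.toSubring B1.toSubring B01.toSubring (algebraMap R F).range
      (mulSub (algebraMap R F π) B01.toSubring.toAddSubgroup)
      (mulSub (algebraMap R F π) O1.toAddSubgroup)
      (mulSub (algebraMap R F π) O2.toAddSubgroup))
    {c a1 a2 b1 b2 : F} (ha1 : a1 ∈ B0) (ha2 : a2 ∈ B0) (hb1 : b1 ∈ B1) (hb2 : b2 ∈ B1)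
    (h1 : ∃ o ∈ O1, c - a1 - b1 = algebraMap R F π * o)
    (h2 : ∃ o ∈ O2, c - a2 - b2 = algebraMap R F π * o)
    (hc : ∃ a ∈ B0, ∃ b ∈ B1, ∃ d ∈ B01, c - a - b = algebraMap R F π * d) :
    ∃ r : R,
      NodeSum B0.toSubring (mulSub (algebraMap R F π) O1.toAddSubgroup)
        (mulSub (algebraMap R F π) O2.toAddSubgroup) (a1 - a2 - algebraMap R F r) ∧
      NodeSum B1.toSubring (mulSub (algebraMap R F π) O1.toAddSubgroup)
        (mulSub (algebraMap R F π) O2.toAddSubgroup) (b1 - b2 + algebraMap R F r) := by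
  obtain ⟨_, ⟨r, rfl⟩, hA, hB⟩ := T.const_of_mem ha1 ha2 hb1 hb2 h1 h2 hc
  exact ⟨r, hA, hB⟩

/-- **Exactness at `k^Σ`, converse**, field form. -/
theorem mem_of_const_field
    (T : ToricSetup p B0.toSubring B1.toSubring B01.toSubring (algebraMap R F).range
      (mulSub (algebraMap R F π) B01.toSubring.toAddSubgroup)
      (mulSub (algebraMap R F π) O1.toAddSubgroup)
      (mulSub (algebraMap R F π) O2.toAddSubgroup))
    {c a1 a2 b1 b2 : F} (r : R) (hc : c ∈ B01) (ha1 : a1 ∈ B0) (hb1 : b1 ∈ B1)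
    (h1 : ∃ o ∈ O1, c - a1 - b1 = algebraMap R F π * o)
    (h2 : ∃ o ∈ O2, c - a2 - b2 = algebraMap R F π * o)
    (hA : NodeSum B0.toSubring (mulSub (algebraMap R F π) O1.toAddSubgroup)
        (mulSub (algebraMap R F π) O2.toAddSubgroup) (a1 - a2 - algebraMap R F r))
    (hB : NodeSum B1.toSubring (mulSub (algebraMap R F π) O1.toAddSubgroup)
        (mulSub (algebraMap R F π) O2.toAddSubgroup) (b1 - b2 + algebraMap R F r)) :
    ∃ a ∈ B0, ∃ b ∈ B1, ∃ d ∈ B01, c - a - b = algebraMap R F π * d :=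
  T.mem_of_const hc ha1 hb1 ⟨r, rfl⟩ h1 h2 hA hB

end Corollaries

end Fermat.Agent.M1.Pic2.ToricField15
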