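/-
Programme M1 (S44, row 38), chapter PIC, brick (R5), ADAPTER to `Defs60.Bdry`
(`B01 / Bdry = H¹(X_k, O)`).  Owner: helper15.

`pow_mem_Bdry_imp` : **Frobenius is injective on the toric part of `H¹(X_k, O)`**:
for a toric `c ∈ B01` (both abelian parts vanish), `c ^ p ∈ Bdry → c ∈ Bdry`.

The additive subgroups `I = ϖ B01`, `Pj = ϖ O_j` of the `ToricSetup` are arbitrary, with elementwise
characterisations as hypotheses (`Iff.rfl` both for `ToricField15.mulSub` and for FIB's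
`ToricInst98.piSub / piGroup`).
-/
import Mathlib
import Fermat.Agent.M1.Pic2.Defs60
import Fermat.Agent.M1.Pic2.ToricField15

set_option autoImplicit false

namespace Fermat.Agent.M1.Pic2.ToricPic15

open Defs60 Toric15 ToricField15

variable {R F : Type*} [CommRing R] [Field F] [Algebra R F]
  {p : ℕ} {π : R} {B0 B1 B01 : Subalgebra R F} {O1 O2 : ValuationSubring F}

/-- `c` is TORIC: its images in `H¹(C_1, O)` and `H¹(C_2, O)` vanish. -/
def IsToric (π : R) (B0 B1 : Subalgebra R F) (O1 O2 : ValuationSubring F) (c : F) : Prop :=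
  (∃ a ∈ B0, ∃ b ∈ B1, ∃ o ∈ O1, c - a - b = algebraMap R F π * o) ∧
  (∃ a ∈ B0, ∃ b ∈ B1, ∃ o ∈ O2, c - a - b = algebraMap R F π * o)

theorem mem_Bdry_iff {c : F} : c ∈ Bdry (algebraMap R F π) B0 B1 B01 ↔
    ∃ a ∈ B0, ∃ b ∈ B1, ∃ d ∈ B01, c - a - b = algebraMap R F π * d := by
  rw [mem_Bdry]
  constructor
  · rintro ⟨a, ha, b, hb, z, hz, e⟩
    exact ⟨a, ha, b, hb, z, hz, by rw [e]; ring⟩
  · rintro ⟨a, ha, b, hb, z, hz, e⟩
    exact ⟨a, ha, b, hb, z, hz, by linear_combination e⟩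

/-- **Frobenius is injective on toric classes of `H¹(X_k, O) = B01 / Bdry`**, general form. -/
theorem pow_mem_Bdry_imp' {k' : Subring F} {I P1 P2 : AddSubgroup F}
    (T : ToricSetup p B0.toSubring B1.toSubring B01.toSubring k' I P1 P2)
    (hI : ∀ x : F, x ∈ I ↔ ∃ d ∈ B01, x = algebraMap R F π * d)
    (hP1 : ∀ x : F, x ∈ P1 ↔ ∃ o ∈ O1, x = algebraMap R F π * o)
    (hP2 : ∀ x : F, x ∈ P2 ↔ ∃ o ∈ O2, x = algebraMap R F π * o)
    {c : F} (hc : c ∈ B01) (htor : IsToric π B0 B1 O1 O2 c)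
    (hcp : c ^ p ∈ Bdry (algebraMap R F π) B0 B1 B01) :
    c ∈ Bdry (algebraMap R F π) B0 B1 B01 := by
  obtain ⟨⟨a1, ha1, b1, hb1, h1⟩, ⟨a2, ha2, b2, hb2, h2⟩⟩ := htor
  rw [mem_Bdry_iff] at hcp ⊢
  obtain ⟨a, ha, b, hb, d, hd, e⟩ := hcp
  obtain ⟨a', ha', b', hb', h'⟩ := T.frobenius_injective (c := c) hc ha1 ha2 hb1 hb2
    ((hP1 _).mpr h1) ((hP2 _).mpr h2) ⟨a, ha, b, hb, (hI _).mpr ⟨d, hd, e⟩⟩
  obtain ⟨d', hd', e'⟩ := (hI _).mp h'
  exact ⟨a', ha', b', hb', d', hd', e'⟩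

/-- The same for the `mulSub` form of the setup (`ToricField15.toricSetup_of_field`). -/
theorem pow_mem_Bdry_imp
    (T : ToricSetup p B0.toSubring B1.toSubring B01.toSubring (algebraMap R F).range
      (mulSub (algebraMap R F π) B01.toSubring.toAddSubgroup)
      (mulSub (algebraMap R F π) O1.toAddSubgroup)
      (mulSub (algebraMap R F π) O2.toAddSubgroup))
    {c : F} (hc : c ∈ B01) (htor : IsToric π B0 B1 O1 O2 c)
    (hcp : c ^ p ∈ Bdry (algebraMap R F π) B0 B1 B01) :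
    c ∈ Bdry (algebraMap R F π) B0 B1 B01 :=
  pow_mem_Bdry_imp' T (fun _ => Iff.rfl) (fun _ => Iff.rfl) (fun _ => Iff.rfl) hc htor hcp

end Fermat.Agent.M1.Pic2.ToricPic15
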