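/-
Programme M1 (S44, row 38), chapter PIC, brick (T5) of the TRI contract (plan #593 §3):
in the FROBENIUS regime `p n < n + e`, a line pair of level `n ≥ 1` with TORIC leading
coefficient whose `p`-th power has level `p n + 1` has level `n + 1`.  Owner: helper15.

Assembly of (R3) `PowP60.HasLead.pow_lt` ( `[p] : gr^n → gr^(pn)` is `c ↦ c ^ p`), (R2)
`LeadOps60.HasLead.level_succ_iff` and (R5) `ToricPic15.pow_mem_Bdry_imp` (Frobenius is injective
on the toric part of `H¹(X_k, O)`).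
-/
import Mathlib
import Fermat.Agent.M1.Pic2.PowP60
import Fermat.Agent.M1.Pic2.ToricPic15

set_option autoImplicit false

namespace Fermat.Agent.M1.Pic2.Frob15

open Defs60 Lead60 LeadOps60 PowP60 Toric15 ToricField15 ToricPic15

variable {R F : Type*} [CommRing R] [Field F] [Algebra R F]
  {π : R} {B0 B1 B01 : Subalgebra R F} {O1 O2 : ValuationSubring F}

/-- Toric-ness only depends on the class modulo `Bdry`. -/
theorem IsToric.of_sub_mem_Bdry (hO1 : ∀ x ∈ B01, x ∈ O1) (hO2 : ∀ x ∈ B01, x ∈ O2) {c c' : F}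
    (hc : IsToric π B0 B1 O1 O2 c) (h : c' - c ∈ Bdry (algebraMap R F π) B0 B1 B01) :
    IsToric π B0 B1 O1 O2 c' := by
  obtain ⟨β0, hβ0, β1, hβ1, z, hz, e⟩ := mem_Bdry.mp h
  obtain ⟨⟨a1, ha1, b1, hb1, o1, ho1, e1⟩, ⟨a2, ha2, b2, hb2, o2, ho2, e2⟩⟩ := hc
  refine ⟨⟨a1 + β0, B0.add_mem ha1 hβ0, b1 + β1, B1.add_mem hb1 hβ1, o1 + z,
    O1.add_mem _ _ ho1 (hO1 z hz), ?_⟩, ⟨a2 + β0, B0.add_mem ha2 hβ0, b2 + β1,
    B1.add_mem hb2 hβ1, o2 + z, O2.add_mem _ _ ho2 (hO2 z hz), ?_⟩⟩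
  · linear_combination e + e1
  · linear_combination e + e2

/-- **(T5)** One step in the Frobenius regime: `Level n P` with toric leading coefficient,
`p n < n + e`, and `Level (p n + 1) (P ^ p)` imply `Level (n + 1) P`.  The additive subgroups of
the toric setup are arbitrary, with elementwise characterisations (`Iff.rfl` for
`ToricField15.mulSub` and for FIB's `ToricInst98.piSub / piGroup`). -/
theorem level_succ_of_toric {p e n : ℕ} {υ c : F} {k' : Subring F} {I P1 P2 : AddSubgroup F}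
    (h : TwoChart (algebraMap R F π) B0 B1 B01)
    (T : ToricSetup p B0.toSubring B1.toSubring B01.toSubring k' I P1 P2)
    (hI : ∀ x : F, x ∈ I ↔ ∃ d ∈ B01, x = algebraMap R F π * d)
    (hP1 : ∀ x : F, x ∈ P1 ↔ ∃ o ∈ O1, x = algebraMap R F π * o)
    (hP2 : ∀ x : F, x ∈ P2 ↔ ∃ o ∈ O2, x = algebraMap R F π * o)
    (hpe : (p : F) = algebraMap R F π ^ e * υ) (hυ : υ ∈ B01) (hn : 1 ≤ n)
    (hlt : p * n < n + e) (P : LinePair B0 B1 B01)
    (hc : HasLead (algebraMap R F π) n P c) (htor : IsToric π B0 B1 O1 O2 c)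
    (hPp : Level (algebraMap R F π) (p * n + 1) (LinePair.npow h.le0 h.le1 P p)) :
    Level (algebraMap R F π) (n + 1) P := by
  have hp := T.prime
  have hlead := HasLead.pow_lt h hp hpe hυ hlt hc
  have hpn : 1 ≤ p * n := Nat.one_le_iff_ne_zero.mpr (Nat.mul_ne_zero hp.ne_zero (by omega))
  have hcp : c ^ p ∈ Bdry (algebraMap R F π) B0 B1 B01 :=
    HasLead.mem_Bdry_of_level_succ h hpn hlead hPp
  exact HasLead.level_succ h hn hc (pow_mem_Bdry_imp' T hI hP1 hP2 (HasLead.mem hc) htor hcp)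

end Fermat.Agent.M1.Pic2.Frob15
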