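/-
M1 / chapter PIC (helper60): functoriality of trivialisations and leading coefficients along a
ring homomorphism `ι : F → F'` between two chart systems, with `ι ϖ = ϖ' ^ m * υ`.
One lemma covers
* (J5) base change of the filtration along a ramified extension (`m = e(L/K1)`):
  level `n` over `K1` becomes level `m n` over `L`, leading coefficient `υ ^ n * ι c`;
* (J6) the Galois action (`ι = σ`, `m = 1`, `υ = θ = σ ϖ / ϖ`): the leading coefficient of `σ P`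
  is `θ ^ n * σ c`, which is `θ ^ n * c` modulo `ϖ` when `σ` is inertial.
Also: `extend`, the extension `(B0' ι(I0), B1' ι(I1))` of a line pair.
-/
import Mathlib
import Fermat.Agent.M1.Pic2.LeadOps60

set_option autoImplicit false

namespace Fermat.Agent.M1.Pic2.Map60

open Fermat.Agent.M1.Pic2.Defs60 Fermat.Agent.M1.Pic2.Lead60 Fermat.Agent.M1.Pic2.LeadOps60

variable {R F : Type*} [CommRing R] [Field F] [Algebra R F]
variable {R' F' : Type*} [CommRing R'] [Field F'] [Algebra R' F']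
variable {B0 B1 B01 : Subalgebra R F} {B0' B1' B01' : Subalgebra R' F'}
variable {ϖ : F} {ϖ' : F'}

/-- Changing the leading coefficient modulo `ϖ B01`. -/
theorem IsLead.congr {P : LinePair B0 B1 B01} (hϖ01 : ϖ ∈ B01) {n : ℕ} {g0 g1 c c' : F}
    (hg0 : g0 ∈ P.I0) (hL : IsLead ϖ n P g0 g1 c) (hcc : ∃ z ∈ B01, c' - c = ϖ * z) :
    IsLead ϖ n P g0 g1 c' := by
  obtain ⟨hc, hl⟩ := hL
  obtain ⟨z, hz, hzc⟩ := hcc
  obtain ⟨v, hv, hvg⟩ := mem_scale.mp hl
  refine ⟨?_, mem_scale.mpr ⟨v - z * g0, P.I01.sub_mem hv (P.stable01 hz (P.le_I01_0 hg0)), ?_⟩⟩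
  · have : c' = c + ϖ * z := by linear_combination hzc
    rw [this]
    exact B01.add_mem hc (B01.mul_mem hϖ01 hz)
  · linear_combination hvg + ϖ ^ n * g0 * hzc

/-- The hypotheses relating two chart systems and two line pairs along `ι`. -/
structure PairMap (ι : F →+* F') (ϖ : F) (ϖ' : F') (m : ℕ) (υ : F')
    (P : LinePair B0 B1 B01) (P' : LinePair B0' B1' B01') : Prop where
  map0 : ∀ b ∈ B0, ι b ∈ B0'
  map1 : ∀ b ∈ B1, ι b ∈ B1'
  map01 : ∀ b ∈ B01, ι b ∈ B01'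
  le0' : B0' ≤ B01'
  le1' : B1' ≤ B01'
  pi0' : ϖ' ∈ B0'
  pi1' : ϖ' ∈ B1'
  hm : 1 ≤ m
  map_pi : ι ϖ = ϖ' ^ m * υ
  unit0 : υ ∈ B0'
  unit1 : υ ∈ B1'
  mapI0 : ∀ z ∈ P.I0, ι z ∈ P'.I0
  mapI1 : ∀ z ∈ P.I1, ι z ∈ P'.I1
  dual0 : ∀ w : F, (∀ z ∈ P.I0, w * z ∈ B0) → ∀ z' ∈ P'.I0, ι w * z' ∈ B0'
  dual1 : ∀ w : F, (∀ z ∈ P.I1, w * z ∈ B1) → ∀ z' ∈ P'.I1, ι w * z' ∈ B1'

variable {ι : F →+* F'} {m : ℕ} {υ : F'} {P : LinePair B0 B1 B01} {P' : LinePair B0' B1' B01'}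

theorem PairMap.mapI01 (hι : PairMap ι ϖ ϖ' m υ P P') {z : F} (hz : z ∈ P.I01) :
    ι z ∈ P'.I01 := by
  unfold LinePair.I01 at hz
  refine Submodule.mul_induction_on hz ?_ ?_
  · intro b hb y hy
    rw [map_mul]
    exact P'.stable01 (hι.map01 b hb) (P'.le_I01_0 (hι.mapI0 y hy))
  · intro x y hx hy
    rw [map_add]; exact P'.I01.add_mem hx hy

theorem PairMap.gen0 (hι : PairMap ι ϖ ϖ' m υ P P') {g : F} (hg : Gen B0 P.I0 ϖ g) :
    Gen B0' P'.I0 ϖ' (ι g) := by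
  obtain ⟨hgI, w, hw, b, hb, hgw⟩ := hg
  obtain ⟨k, hk⟩ : ∃ k, m = k + 1 := ⟨m - 1, by have := hι.hm; omega⟩
  refine ⟨hι.mapI0 g hgI, ι w, hι.dual0 w hw, ϖ' ^ k * υ * ι b,
    B0'.mul_mem (B0'.mul_mem (B0'.pow_mem hι.pi0' k) hι.unit0) (hι.map0 b hb), ?_⟩
  have := congrArg ι hgw
  rw [map_sub, map_mul, map_one, map_mul, hι.map_pi, hk] at this
  rw [this]; ring

theorem PairMap.gen1 (hι : PairMap ι ϖ ϖ' m υ P P') {g : F} (hg : Gen B1 P.I1 ϖ g) :
    Gen B1' P'.I1 ϖ' (ι g) := by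
  obtain ⟨hgI, w, hw, b, hb, hgw⟩ := hg
  obtain ⟨k, hk⟩ : ∃ k, m = k + 1 := ⟨m - 1, by have := hι.hm; omega⟩
  refine ⟨hι.mapI1 g hgI, ι w, hι.dual1 w hw, ϖ' ^ k * υ * ι b,
    B1'.mul_mem (B1'.mul_mem (B1'.pow_mem hι.pi1' k) hι.unit1) (hι.map1 b hb), ?_⟩
  have := congrArg ι hgw
  rw [map_sub, map_mul, map_one, map_mul, hι.map_pi, hk] at this
  rw [this]; ring

/-- **Functoriality of trivialisations**: level `n` becomes level `m * n`. -/
theorem IsTriv.map (hι : PairMap ι ϖ ϖ' m υ P P') {n : ℕ} {g0 g1 : F}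
    (hT : IsTriv ϖ n P g0 g1) : IsTriv ϖ' (m * n) P' (ι g0) (ι g1) := by
  obtain ⟨hG0, hG1, hl⟩ := hT
  refine ⟨hι.gen0 hG0, hι.gen1 hG1, ?_⟩
  obtain ⟨z, hz, hzg⟩ := mem_scale.mp hl
  refine mem_scale.mpr ⟨υ ^ n * ι z, P'.stable01 (B01'.pow_mem (hι.le0' hι.unit0) n)
    (hι.mapI01 hz), ?_⟩
  have := congrArg ι hzg
  rw [map_mul, map_pow, hι.map_pi, map_sub] at this
  rw [← this]; ring

/-- **Functoriality of leading coefficients**: `c ↦ υ ^ n * ι c`. -/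
theorem IsLead.map (hι : PairMap ι ϖ ϖ' m υ P P') {n : ℕ} {g0 g1 c : F}
    (hL : IsLead ϖ n P g0 g1 c) : IsLead ϖ' (m * n) P' (ι g0) (ι g1) (υ ^ n * ι c) := by
  obtain ⟨hc, hl⟩ := hL
  obtain ⟨v, hv, hvg⟩ := mem_scale.mp hl
  obtain ⟨k, hk⟩ : ∃ k, m = k + 1 := ⟨m - 1, by have := hι.hm; omega⟩
  have hυ01 : υ ∈ B01' := hι.le0' hι.unit0
  have hϖ01 : ϖ' ∈ B01' := hι.le0' hι.pi0'
  refine ⟨B01'.mul_mem (B01'.pow_mem hυ01 n) (hι.map01 c hc), ?_⟩
  refine mem_scale.mpr ⟨ϖ' ^ k * (υ ^ (n + 1) * ι v), P'.stable01 (B01'.pow_mem hϖ01 k)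
    (P'.stable01 (B01'.pow_mem hυ01 _) (hι.mapI01 hv)), ?_⟩
  have key := congrArg ι hvg
  simp only [map_mul, map_pow, map_sub, map_add, map_one, hι.map_pi] at key
  subst hk
  linear_combination key

theorem HasLead.map (hι : PairMap ι ϖ ϖ' m υ P P') {n : ℕ} {c : F} (hc : HasLead ϖ n P c) :
    HasLead ϖ' (m * n) P' (υ ^ n * ι c) := by
  obtain ⟨g0, g1, hT, hL⟩ := hc
  exact ⟨ι g0, ι g1, IsTriv.map hι hT, IsLead.map hι hL⟩

theorem Level.map (hι : PairMap ι ϖ ϖ' m υ P P') {n : ℕ} (hP : Level ϖ n P) :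
    Level ϖ' (m * n) P' := by
  obtain ⟨g0, g1, hT⟩ := hP
  exact ⟨ι g0, ι g1, IsTriv.map hι hT⟩

/-- **(J6)** Galois action: for an inertial `σ` (`σ c ≡ c mod ϖ B01` on `B01`) with
`σ ϖ = ϖ θ`, the leading coefficient of `σ P` at level `n` is `θ ^ n * c`. -/
theorem HasLead.map_inertial {σ : F →+* F} {θ : F} {P P' : LinePair B0 B1 B01}
    (hσ : PairMap σ ϖ ϖ 1 θ P P') (hin : ∀ c ∈ B01, ∃ z ∈ B01, σ c - c = ϖ * z)
    {n : ℕ} {c : F} (hc : HasLead ϖ n P c) : HasLead ϖ n P' (θ ^ n * c) := by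
  obtain ⟨g0, g1, hT, hL⟩ := hc
  have hT' := IsTriv.map hσ hT
  have hL' := IsLead.map hσ hL
  rw [one_mul] at hT' hL'
  refine ⟨σ g0, σ g1, hT', IsLead.congr (hσ.le0' hσ.pi0') hT'.1.1 hL' ?_⟩
  obtain ⟨z, hz, hzc⟩ := hin c hL.1
  exact ⟨-(θ ^ n * z), B01.neg_mem (B01.mul_mem (B01.pow_mem (hσ.le0' hσ.unit0) n) hz),
    by linear_combination (-(θ ^ n)) * hzc⟩

section extend

variable (ι : F →+* F')

/-- `B' · ι(I)`: the `R'`-span of the products `b' * ι z`. -/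
def extendI (B' : Subalgebra R' F') (I : Submodule R F) : Submodule R' F' :=
  Submodule.span R' {x | ∃ b' ∈ B', ∃ z ∈ I, x = b' * ι z}

variable {ι}

theorem map_mem_extendI {B' : Subalgebra R' F'} {I : Submodule R F} {z : F} (hz : z ∈ I) :
    ι z ∈ extendI ι B' I :=
  Submodule.subset_span ⟨1, B'.one_mem, z, hz, by ring⟩

theorem extendI_stable {B' B'' : Subalgebra R' F'} (hB : B'' ≤ B') {I : Submodule R F} {b x : F'}
    (hb : b ∈ B'') (hx : x ∈ extendI ι B' I) : b * x ∈ extendI ι B' I := by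
  unfold extendI at hx ⊢
  induction hx using Submodule.span_induction with
  | mem x hx =>
    obtain ⟨b', hb', z, hz, rfl⟩ := hx
    exact Submodule.subset_span ⟨b * b', B'.mul_mem (hB hb) hb', z, hz, by ring⟩
  | zero => simp
  | add x y _ _ hx hy => rw [mul_add]; exact Submodule.add_mem _ hx hy
  | smul r x _ hx =>
    rw [mul_smul_comm]; exact Submodule.smul_mem _ r hx

theorem extendI_dual {B : Subalgebra R F} {B' : Subalgebra R' F'} (hB : ∀ b ∈ B, ι b ∈ B')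
    {I : Submodule R F} {w : F} (hw : ∀ z ∈ I, w * z ∈ B) {x : F'} (hx : x ∈ extendI ι B' I) :
    ι w * x ∈ B' := by
  unfold extendI at hx
  induction hx using Submodule.span_induction with
  | mem x hx =>
    obtain ⟨b', hb', z, hz, rfl⟩ := hx
    have : ι w * (b' * ι z) = b' * ι (w * z) := by rw [map_mul]; ring
    rw [this]; exact B'.mul_mem hb' (hB _ (hw z hz))
  | zero => simp
  | add x y _ _ hx hy => rw [mul_add]; exact B'.add_mem hx hy
  | smul r x _ hx =>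
    rw [mul_smul_comm]; exact B'.smul_mem hx r

theorem mul_extendI {B01 : Subalgebra R F} {B' B01' : Subalgebra R' F'} (hB : B' ≤ B01')
    (h01 : ∀ b ∈ B01, ι b ∈ B01') (I : Submodule R F) :
    sm B01' * extendI ι B' I = extendI ι B01' (sm B01 * I) := by
  apply le_antisymm
  · rw [Submodule.mul_le]
    intro m hm x hx
    unfold extendI at hx
    induction hx using Submodule.span_induction with
    | mem x hx =>
      obtain ⟨b', hb', z, hz, rfl⟩ := hx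
      refine Submodule.subset_span ⟨m * b', B01'.mul_mem hm (hB hb'), z, ?_, by ring⟩
      have : z = 1 * z := by ring
      rw [this]; exact Submodule.mul_mem_mul B01.one_mem hz
    | zero => simp
    | add x y _ _ hx hy => rw [mul_add]; exact Submodule.add_mem _ hx hy
    | smul r x _ hx => rw [mul_smul_comm]; exact Submodule.smul_mem _ r hx
  · unfold extendI
    rw [Submodule.span_le]
    rintro x ⟨b', hb', z, hz, rfl⟩
    refine Submodule.mul_induction_on hz ?_ ?_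
    · intro β hβ y hy
      have : b' * ι (β * y) = (b' * ι β) * ι y := by rw [map_mul]; ring
      rw [this]
      exact Submodule.mul_mem_mul (B01'.mul_mem hb' (h01 β hβ)) (map_mem_extendI hy)
    · intro x y hx hy
      rw [map_add, mul_add]; exact Submodule.add_mem _ hx hy

/-- The extension of a line pair along `ι`. -/
def extend (ι : F →+* F') (h0' : B0' ≤ B01') (h1' : B1' ≤ B01')
    (h01 : ∀ b ∈ B01, ι b ∈ B01') (P : LinePair B0 B1 B01) : LinePair B0' B1' B01' where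
  I0 := extendI ι B0' P.I0
  I1 := extendI ι B1' P.I1
  stable0 := fun _ hb _ hz => extendI_stable le_rfl hb hz
  stable1 := fun _ hb _ hz => extendI_stable le_rfl hb hz
  compat := by
    rw [mul_extendI h0' h01, mul_extendI h1' h01, P.compat]

/-- The extension satisfies `PairMap`. -/
theorem pairMap_extend {m : ℕ} {υ : F'} (P : LinePair B0 B1 B01)
    (map0 : ∀ b ∈ B0, ι b ∈ B0') (map1 : ∀ b ∈ B1, ι b ∈ B1') (map01 : ∀ b ∈ B01, ι b ∈ B01')
    (le0' : B0' ≤ B01') (le1' : B1' ≤ B01') (pi0' : ϖ' ∈ B0') (pi1' : ϖ' ∈ B1') (hm : 1 ≤ m)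
    (map_pi : ι ϖ = ϖ' ^ m * υ) (unit0 : υ ∈ B0') (unit1 : υ ∈ B1') :
    PairMap ι ϖ ϖ' m υ P (extend ι le0' le1' map01 P) where
  map0 := map0
  map1 := map1
  map01 := map01
  le0' := le0'
  le1' := le1'
  pi0' := pi0'
  pi1' := pi1'
  hm := hm
  map_pi := map_pi
  unit0 := unit0
  unit1 := unit1
  mapI0 := fun _ hz => map_mem_extendI hz
  mapI1 := fun _ hz => map_mem_extendI hz
  dual0 := fun _ hw _ hz' => extendI_dual map0 hw hz'
  dual1 := fun _ hw _ hz' => extendI_dual map1 hw hz'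

end extend

end Fermat.Agent.M1.Pic2.Map60
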