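/-
Programme M1 (S44, row 38), chapter PIC, brick (T7) of the TRI contract (plan #593 §3):
**`J_n[p] = 0` for `n > e / (p - 1)`.**  Owner: helper15.

Assembly of (R2) `LeadOps60.HasLead.level_succ_iff`, (R3) `PowP60.HasLead.pow_gt` (helper60) and
(R4) `SeparatedPic15.exists_smul_one_of_forall_level` (separatedness).

* `level_of_pow_level` : if `P` has level `n ≥ 1`, `n + e < p n`, and `P ^ p` has level
  `n + e + 1`, then `P` has level `n + 1` (the map `gr^n → gr^(n+e)` induced by `[p]` is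
  multiplication by the unit `υ = p / ϖ ^ e`, hence injective).
* `forall_level_of_pow` : if moreover `P ^ p` has every level, so has `P`.
* `eq_smul_one_of_pow` : (T7) then `P` is principal.
-/
import Mathlib
import Fermat.Agent.M1.Pic2.PowP60
import Fermat.Agent.M1.Pic2.SeparatedPic15

set_option autoImplicit false

namespace Fermat.Agent.M1.Pic2.Tors15

open Polynomial Defs60 Lead60 LeadOps60 PowP60

variable {R F : Type*} [CommRing R] [Field F] [Algebra R F]
  {B0 B1 B01 : Subalgebra R F} {ϖ : F}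

/-- One step: `[p] : gr^n → gr^(n+e)` is injective in the regime `n + e < p n`. -/
theorem level_of_pow_level (h : TwoChart ϖ B0 B1 B01) {p e n : ℕ} (hp : p.Prime)
    (u : Rˣ) (hpe : (p : F) = ϖ ^ e * algebraMap R F u) (hn : 1 ≤ n) (hgt : n + e < p * n)
    (P : LinePair B0 B1 B01) (hP : Level ϖ n P)
    (hPp : Level ϖ (n + e + 1) (LinePair.npow h.le0 h.le1 P p)) :
    Level ϖ (n + 1) P := by
  obtain ⟨c, hc⟩ := Level.hasLead h hP
  have hυ : algebraMap R F u ∈ B01 := B01.algebraMap_mem _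
  have hlead := HasLead.pow_gt h hp hpe hυ hn hgt hc
  have hmem : algebraMap R F u * c ∈ Bdry ϖ B0 B1 B01 :=
    HasLead.mem_Bdry_of_level_succ h (by omega) hlead hPp
  have hcB : c ∈ Bdry ϖ B0 B1 B01 := by
    have : c = (↑u⁻¹ : R) • (algebraMap R F u * c) := by
      rw [Algebra.smul_def, ← mul_assoc, ← map_mul, Units.inv_mul, map_one, one_mul]
    rw [this]
    exact Submodule.smul_mem _ _ hmem
  exact HasLead.level_succ h hn hc hcB

/-- If `P ^ p` has every level and `P` has a level `n` with `n + e < p n`, then `P` has every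
level. -/
theorem forall_level_of_pow (h : TwoChart ϖ B0 B1 B01) {p e n : ℕ} (hp : p.Prime)
    (u : Rˣ) (hpe : (p : F) = ϖ ^ e * algebraMap R F u) (hn : 1 ≤ n) (hgt : n + e < p * n)
    (P : LinePair B0 B1 B01) (hP : Level ϖ n P)
    (hPp : ∀ m : ℕ, Level ϖ m (LinePair.npow h.le0 h.le1 P p)) :
    ∀ m : ℕ, Level ϖ m P := by
  have hϖ01 : ϖ ∈ B01 := pi_mem_of_range B01 h.pi_mem
  -- levels above `n`
  have hup : ∀ k : ℕ, Level ϖ (n + k) P := by
    intro k
    induction k with
    | zero => exact hP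
    | succ k ih =>
      have hgt' : n + k + e < p * (n + k) := by
        have h2 : 2 ≤ p := hp.two_le
        nlinarith
      exact level_of_pow_level h hp u hpe (by omega) hgt' P ih (hPp _)
  -- levels below `n`
  have hdown : ∀ m k : ℕ, Level ϖ (m + k) P → Level ϖ m P := by
    intro m k
    induction k with
    | zero => exact id
    | succ k ih => exact fun hmk => ih (Level.of_succ hϖ01 hmk)
  intro m
  rcases le_total n m with hle | hle
  · obtain ⟨k, rfl⟩ := Nat.exists_eq_add_of_le hle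
    exact hup k
  · obtain ⟨k, rfl⟩ := Nat.exists_eq_add_of_le hle
    exact hdown m k hP

/-- **(T7)** `J_n[p] = 0` for `n > e / (p - 1)`: a line pair of level `n ≥ 1`, `n + e < p n`,
whose `p`-th power has every level (e.g. is principal), is principal. -/
theorem eq_smul_one_of_pow [IsLocalRing R] [IsNoetherianRing R]
    (π : R) (hπ : π ∈ IsLocalRing.maximalIdeal R)
    (h : TwoChart (algebraMap R F π) B0 B1 B01)
    (t : F) (ht : t ≠ 0) (ht0 : t ∈ B0) (ht1 : t⁻¹ ∈ B1)
    (int0 : ∀ x ∈ B0, IsIntegral (Algebra.adjoin R {t}) x)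
    (int1 : ∀ x ∈ B1, IsIntegral (Algebra.adjoin R {t⁻¹}) x)
    (ov0 : ∀ x ∈ B01, ∃ k : ℕ, t ^ k * x ∈ B0)
    (ov1 : ∀ x ∈ B01, ∃ k : ℕ, t⁻¹ ^ k * x ∈ B1)
    [IsNoetherianRing B0] [IsNoetherianRing B1]
    (fin0 : ∃ (r : ℕ) (e : Fin r → F), (∀ i, e i ∈ B0) ∧
      ∀ x ∈ B0, ∃ P : Fin r → R[X], x = ∑ i, aeval t (P i) * e i)
    {p e n : ℕ} (hp : p.Prime) (u : Rˣ)
    (hpe : (p : F) = algebraMap R F π ^ e * algebraMap R F u) (hn : 1 ≤ n)
    (hgt : n + e < p * n)
    (P : LinePair B0 B1 B01) (hP : Level (algebraMap R F π) n P)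
    (hPp : ∀ m : ℕ, Level (algebraMap R F π) m (LinePair.npow h.le0 h.le1 P p)) :
    ∃ a : F, a ≠ 0 ∧ P = (LinePair.one h.le0 h.le1).smul a :=
  SeparatedPic15.eq_smul_one_of_forall_level π hπ h t ht ht0 ht1 int0 int1 ov0 ov1 fin0 P
    (forall_level_of_pow h hp u hpe hn hgt P hP hPp)

/-- A principal pair has every level. -/
theorem level_smul_one (h0 : B0 ≤ B01) (h1 : B1 ≤ B01) {a : F} (ha : a ≠ 0) (m : ℕ) :
    Level ϖ m ((LinePair.one h0 h1 : LinePair B0 B1 B01).smul a) :=
  Level.smul ha (HasLead.level (hasLead_one (ϖ := ϖ) h0 h1 m))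

end Fermat.Agent.M1.Pic2.Tors15
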